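import Mathlib
import Fermat.Prelude.Def_FLTPrelim_Ramification

set_option autoImplicit false

/-!
# Concrete description of the inertia subgroup of a valuation subring

`σ ∈ A.inertiaSubgroupIn K` implies `σ` stabilises `A` and acts trivially modulo `𝔪_A`.
-/

namespace Fermat.Agent.Tate

open scoped Pointwise

variable {K L : Type*} [Field K] [Field L] [Algebra K L] {A : ValuationSubring L}

/-- an element of the decomposition group maps `A` into `A` -/
theorem decomposition_map_mem (τ : A.decompositionSubgroup K) {a : L} (ha : a ∈ A) :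
    (τ : L ≃ₐ[K] L) a ∈ A := by
  exact (τ • (⟨a, ha⟩ : A) : A).2

/-- **(ID)** an element of the inertia group stabilises `A` and acts trivially on the residue
field -/
theorem inertia_map_mem_and_sub_mem {σ : L ≃ₐ[K] L} (hσ : σ ∈ A.inertiaSubgroupIn K)
    {a : L} (ha : a ∈ A) : σ a ∈ A ∧ σ a - a ∈ A.nonunits := by
  obtain ⟨τ, hτ, rfl⟩ := hσ
  refine ⟨decomposition_map_mem τ ha, ?_⟩
  have hτ' : MulSemiringAction.toRingAut (A.decompositionSubgroup K)
      (IsLocalRing.ResidueField A) τ = 1 := hτ
  have h1 : τ • IsLocalRing.residue A ⟨a, ha⟩ = IsLocalRing.residue A ⟨a, ha⟩ := by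
    have := congrArg (fun f : RingAut (IsLocalRing.ResidueField A) =>
      f (IsLocalRing.residue A ⟨a, ha⟩)) hτ'
    simpa using this
  rw [← IsLocalRing.ResidueField.residue_smul] at h1
  have h2 : IsLocalRing.residue A (τ • (⟨a, ha⟩ : A) - ⟨a, ha⟩) = 0 := by
    rw [map_sub, h1, sub_self]
  rw [IsLocalRing.residue_eq_zero_iff] at h2
  have h3 : ((τ • (⟨a, ha⟩ : A) - ⟨a, ha⟩ : A) : L) ∈ A.nonunits := by
    rw [ValuationSubring.mem_nonunits_iff_exists_mem_maximalIdeal]
    exact ⟨_, h2⟩
  exact h3

end Fermat.Agent.Tate
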