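import Mathlib

set_option autoImplicit false

/-!
# ℚ-valued logarithmic valuations attached to a valuation subring

`LogVal A` is a function `w : K → ℚ` (junk value at `0`) with `w (x y) = w x + w y` and
`0 ≤ w x ↔ x ∈ A` for nonzero `x, y`. It exists for valuation subrings of an algebraic extension
of `ℚ` lying over a prime (`exists_logVal`), and makes `linarith` available for Newton polygon
arguments.
-/

namespace Fermat.Agent.Tate

variable {K : Type*} [Field K]

/-- A `ℚ`-valued logarithmic valuation whose valuation ring is `A`. -/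
structure LogVal (A : ValuationSubring K) where
  /-- the valuation (junk value at `0`) -/
  w : K → ℚ
  map_mul' : ∀ {x y : K}, x ≠ 0 → y ≠ 0 → w (x * y) = w x + w y
  nonneg_iff' : ∀ {x : K}, x ≠ 0 → (0 ≤ w x ↔ x ∈ A)

namespace LogVal

variable {A : ValuationSubring K} (L : LogVal A)

theorem map_mul {x y : K} (hx : x ≠ 0) (hy : y ≠ 0) : L.w (x * y) = L.w x + L.w y :=
  L.map_mul' hx hy

theorem nonneg_iff {x : K} (hx : x ≠ 0) : 0 ≤ L.w x ↔ x ∈ A := L.nonneg_iff' hx

@[simp] theorem map_one : L.w 1 = 0 := by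
  have := L.map_mul (one_ne_zero (α := K)) one_ne_zero
  rw [mul_one] at this
  linarith

theorem map_inv {x : K} (hx : x ≠ 0) : L.w x⁻¹ = -L.w x := by
  have := L.map_mul hx (inv_ne_zero hx)
  rw [mul_inv_cancel₀ hx, map_one] at this
  linarith

theorem map_div {x y : K} (hx : x ≠ 0) (hy : y ≠ 0) : L.w (x / y) = L.w x - L.w y := by
  rw [div_eq_mul_inv, L.map_mul hx (inv_ne_zero hy), L.map_inv hy]; ring

theorem map_pow {x : K} (hx : x ≠ 0) (n : ℕ) : L.w (x ^ n) = n * L.w x := by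
  induction n with
  | zero => simp
  | succ n ih => rw [pow_succ, L.map_mul (pow_ne_zero n hx) hx, ih]; push_cast; ring

theorem map_zpow {x : K} (hx : x ≠ 0) (n : ℤ) : L.w (x ^ n) = n * L.w x := by
  cases n with
  | ofNat n => simpa using L.map_pow hx n
  | negSucc n =>
    rw [zpow_negSucc, L.map_inv (pow_ne_zero _ hx), L.map_pow hx]
    push_cast; ring

theorem nonpos_iff {x : K} (hx : x ≠ 0) : L.w x ≤ 0 ↔ x⁻¹ ∈ A := by
  rw [← L.nonneg_iff (inv_ne_zero hx), L.map_inv hx]; constructor <;> intro h <;> linarith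

theorem eq_zero_iff {x : K} (hx : x ≠ 0) : L.w x = 0 ↔ x ∈ A ∧ x⁻¹ ∈ A := by
  rw [← L.nonneg_iff hx, ← L.nonpos_iff hx]
  constructor
  · intro h; constructor <;> linarith
  · rintro ⟨h1, h2⟩; linarith

theorem pos_iff {x : K} (hx : x ≠ 0) : 0 < L.w x ↔ x ∈ A.nonunits := by
  rw [ValuationSubring.mem_nonunits_iff_or, ← L.nonpos_iff hx]
  constructor
  · intro h; right; linarith
  · rintro (h | h)
    · exact absurd h hx
    · linarith

@[simp] theorem map_neg_one : L.w (-1) = 0 := by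
  have h1 : (-1 : K) ≠ 0 := neg_ne_zero.mpr one_ne_zero
  have := L.map_mul h1 h1
  rw [neg_one_mul, neg_neg, map_one] at this
  linarith

@[simp] theorem map_neg (x : K) : L.w (-x) = L.w x := by
  rcases eq_or_ne x 0 with rfl | hx
  · simp
  · rw [← neg_one_mul, L.map_mul (neg_ne_zero.mpr one_ne_zero) hx, map_neg_one, zero_add]

theorem map_sub_comm (x y : K) : L.w (x - y) = L.w (y - x) := by
  rw [← L.map_neg (x - y), neg_sub]

/-- ultrametric inequality -/
theorem le_map_add {x y : K} (hx : x ≠ 0) (hy : y ≠ 0) (hxy : x + y ≠ 0) :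
    min (L.w x) (L.w y) ≤ L.w (x + y) := by
  wlog h : L.w x ≤ L.w y generalizing x y
  · have := this hy hx (by rwa [add_comm]) (le_of_not_ge h)
    rwa [min_comm, add_comm]
  rw [min_eq_left h]
  have h1 : y / x ∈ A := by
    rw [← L.nonneg_iff (div_ne_zero hy hx), L.map_div hy hx]; linarith
  have h2 : 1 + y / x ∈ A := A.add_mem _ _ A.one_mem h1
  have h3 : x + y = x * (1 + y / x) := by field_simp
  have h4 : 1 + y / x ≠ 0 := by
    intro h0; rw [h3, h0, mul_zero] at hxy; exact hxy rfl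
  rw [h3, L.map_mul hx h4]
  have := (L.nonneg_iff h4).mpr h2
  linarith

/-- the valuation of a sum with a strictly dominant term -/
theorem map_add_of_lt {x y : K} (hx : x ≠ 0) (h : y = 0 ∨ L.w x < L.w y) :
    x + y ≠ 0 ∧ L.w (x + y) = L.w x := by
  rcases h with rfl | h
  · simp [hx]
  rcases eq_or_ne y 0 with rfl | hy
  · simp [hx]
  have h1 : y / x ∈ A.nonunits := by
    rw [← L.pos_iff (div_ne_zero hy hx), L.map_div hy hx]; linarith
  have h3 : x + y = x * (1 + y / x) := by field_simp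
  have h4 : 1 + y / x ≠ 0 := by
    intro h0
    have : y / x = -1 := by linear_combination h0
    rw [this] at h1
    have h5 := (L.pos_iff (neg_ne_zero.mpr one_ne_zero)).mpr h1
    simp at h5
  have h5 : L.w (1 + y / x) = 0 := by
    rw [L.eq_zero_iff h4]
    refine ⟨A.add_mem _ _ A.one_mem (A.nonunits_le h1), ?_⟩
    by_contra hc
    have h6 : (1 + y / x) ∈ A.nonunits := by
      rw [ValuationSubring.mem_nonunits_iff_or]; right; exact hc
    have h7 : (1 : K) ∈ A.nonunits := by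
      have := A.nonunits.sub_mem h6 h1
      simpa using this
    have := (L.pos_iff one_ne_zero).mpr h7
    simp at this
  refine ⟨?_, ?_⟩
  · rw [h3]; exact mul_ne_zero hx h4
  · rw [h3, L.map_mul hx h4, h5, add_zero]

theorem map_add_of_lt' {x y : K} (hy : y ≠ 0) (h : x = 0 ∨ L.w y < L.w x) :
    x + y ≠ 0 ∧ L.w (x + y) = L.w y := by
  rw [add_comm]; exact L.map_add_of_lt hy h

theorem mem_of_nonneg {x : K} (h : x = 0 ∨ 0 ≤ L.w x) : x ∈ A := by
  rcases eq_or_ne x 0 with rfl | hx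
  · exact A.zero_mem
  · rcases h with h | h
    · exact absurd h hx
    · exact (L.nonneg_iff hx).mp h

theorem mem_nonunits_of_pos {x : K} (h : x = 0 ∨ 0 < L.w x) : x ∈ A.nonunits := by
  rcases eq_or_ne x 0 with rfl | hx
  · exact A.nonunits.zero_mem
  · rcases h with h | h
    · exact absurd h hx
    · exact (L.pos_iff hx).mp h

theorem nonneg_of_mem {x : K} (hx : x ≠ 0) (h : x ∈ A) : 0 ≤ L.w x := (L.nonneg_iff hx).mpr h

theorem pos_of_mem_nonunits {x : K} (hx : x ≠ 0) (h : x ∈ A.nonunits) : 0 < L.w x :=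
  (L.pos_iff hx).mpr h

/-- a unit of `A` has valuation `0` -/
theorem eq_zero_of_unit {x : K} (h : x ∈ A) (h' : x ∉ A.nonunits) : L.w x = 0 := by
  have hx : x ≠ 0 := by rintro rfl; exact h' A.nonunits.zero_mem
  rw [L.eq_zero_iff hx]
  refine ⟨h, ?_⟩
  by_contra hc
  exact h' (by rw [ValuationSubring.mem_nonunits_iff_or]; right; exact hc)

/-! ### `Gt c u`: "`w u > c`, or `u = 0`" and `Ge c u`: "`w u ≥ c`, or `u = 0`" -/

/-- `u = 0` or `c < w u` -/
def Gt (c : ℚ) (u : K) : Prop := u = 0 ∨ c < L.w u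

/-- `u = 0` or `c ≤ w u` -/
def Ge (c : ℚ) (u : K) : Prop := u = 0 ∨ c ≤ L.w u

variable {L}

theorem Gt.zero (c : ℚ) : L.Gt c 0 := Or.inl rfl

theorem Ge.zero (c : ℚ) : L.Ge c 0 := Or.inl rfl

theorem Gt.ge {c : ℚ} {u : K} (h : L.Gt c u) : L.Ge c u := h.imp id le_of_lt

theorem Gt.lt {c : ℚ} {u : K} (h : L.Gt c u) (hu : u ≠ 0) : c < L.w u := h.resolve_left hu

theorem Ge.le {c : ℚ} {u : K} (h : L.Ge c u) (hu : u ≠ 0) : c ≤ L.w u := h.resolve_left hu

theorem Gt.mono {c c' : ℚ} {u : K} (h : L.Gt c u) (hc : c' ≤ c) : L.Gt c' u :=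
  h.imp id (lt_of_le_of_lt hc)

theorem Ge.mono {c c' : ℚ} {u : K} (h : L.Ge c u) (hc : c' ≤ c) : L.Ge c' u :=
  h.imp id (le_trans hc)

theorem Ge.gt_of_lt {c c' : ℚ} {u : K} (h : L.Ge c u) (hc : c' < c) : L.Gt c' u :=
  h.imp id (lt_of_lt_of_le hc)

theorem gt_of_ne {c : ℚ} {u : K} (h : c < L.w u) : L.Gt c u := Or.inr h

theorem ge_of_ne {c : ℚ} {u : K} (h : c ≤ L.w u) : L.Ge c u := Or.inr h

theorem ge_self (u : K) : L.Ge (L.w u) u := Or.inr le_rfl

theorem Gt.neg {c : ℚ} {u : K} (h : L.Gt c u) : L.Gt c (-u) := by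
  rcases h with h | h
  · left; rw [h, neg_zero]
  · right; rwa [L.map_neg]

theorem Ge.neg {c : ℚ} {u : K} (h : L.Ge c u) : L.Ge c (-u) := by
  rcases h with h | h
  · left; rw [h, neg_zero]
  · right; rwa [L.map_neg]

theorem Gt.add {c : ℚ} {u v : K} (hu : L.Gt c u) (hv : L.Gt c v) : L.Gt c (u + v) := by
  by_cases huv : u + v = 0
  · exact Or.inl huv
  right
  rcases eq_or_ne u 0 with rfl | hu0
  · rw [zero_add] at huv ⊢; exact hv.lt huv
  rcases eq_or_ne v 0 with rfl | hv0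
  · rw [add_zero]; exact hu.lt hu0
  exact lt_of_lt_of_le (lt_min (hu.lt hu0) (hv.lt hv0)) (L.le_map_add hu0 hv0 huv)

theorem Ge.add {c : ℚ} {u v : K} (hu : L.Ge c u) (hv : L.Ge c v) : L.Ge c (u + v) := by
  by_cases huv : u + v = 0
  · exact Or.inl huv
  right
  rcases eq_or_ne u 0 with rfl | hu0
  · rw [zero_add] at huv ⊢; exact hv.le huv
  rcases eq_or_ne v 0 with rfl | hv0
  · rw [add_zero]; exact hu.le hu0
  exact le_trans (le_min (hu.le hu0) (hv.le hv0)) (L.le_map_add hu0 hv0 huv)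

theorem Gt.sub {c : ℚ} {u v : K} (hu : L.Gt c u) (hv : L.Gt c v) : L.Gt c (u - v) := by
  rw [sub_eq_add_neg]; exact hu.add hv.neg

theorem Ge.sub {c : ℚ} {u v : K} (hu : L.Ge c u) (hv : L.Ge c v) : L.Ge c (u - v) := by
  rw [sub_eq_add_neg]; exact hu.add hv.neg

theorem Ge.mul {c d : ℚ} {u v : K} (hu : L.Ge c u) (hv : L.Ge d v) : L.Ge (c + d) (u * v) := by
  rcases eq_or_ne u 0 with rfl | hu0
  · left; rw [zero_mul]
  rcases eq_or_ne v 0 with rfl | hv0
  · left; rw [mul_zero]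
  right
  rw [L.map_mul hu0 hv0]
  exact add_le_add (hu.le hu0) (hv.le hv0)

theorem Gt.mul_ge {c d : ℚ} {u v : K} (hu : L.Gt c u) (hv : L.Ge d v) :
    L.Gt (c + d) (u * v) := by
  rcases eq_or_ne u 0 with rfl | hu0
  · left; rw [zero_mul]
  rcases eq_or_ne v 0 with rfl | hv0
  · left; rw [mul_zero]
  right
  rw [L.map_mul hu0 hv0]
  exact add_lt_add_of_lt_of_le (hu.lt hu0) (hv.le hv0)

theorem Ge.mul_gt {c d : ℚ} {u v : K} (hu : L.Ge c u) (hv : L.Gt d v) :
    L.Gt (c + d) (u * v) := by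
  rw [mul_comm, add_comm]; exact hv.mul_ge hu

theorem Ge.pow {c : ℚ} {u : K} (hu : L.Ge c u) (k : ℕ) : L.Ge (k * c) (u ^ k) := by
  rcases eq_or_ne u 0 with rfl | hu0
  · rcases k with _ | k
    · right; simp
    · left; simp
  right
  rw [L.map_pow hu0]
  have := hu.le hu0
  have hk : (0 : ℚ) ≤ k := Nat.cast_nonneg k
  nlinarith

theorem ge_zero_iff {u : K} : L.Ge 0 u ↔ u ∈ A := by
  constructor
  · exact L.mem_of_nonneg
  · intro h
    rcases eq_or_ne u 0 with rfl | hu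
    · exact Ge.zero 0
    · exact Or.inr (L.nonneg_of_mem hu h)

theorem gt_zero_iff {u : K} : L.Gt 0 u ↔ u ∈ A.nonunits := by
  constructor
  · exact L.mem_nonunits_of_pos
  · intro h
    rcases eq_or_ne u 0 with rfl | hu
    · exact Gt.zero 0
    · exact Or.inr (L.pos_of_mem_nonunits hu h)

/-- a dominant term determines the valuation of a sum -/
theorem map_add_of_gt {x y : K} (hx : x ≠ 0) (h : L.Gt (L.w x) y) :
    x + y ≠ 0 ∧ L.w (x + y) = L.w x := L.map_add_of_lt hx h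

theorem map_add_of_gt' {x y : K} (hy : y ≠ 0) (h : L.Gt (L.w y) x) :
    x + y ≠ 0 ∧ L.w (x + y) = L.w y := L.map_add_of_lt' hy h

theorem map_sub_of_gt {x y : K} (hx : x ≠ 0) (h : L.Gt (L.w x) y) :
    x - y ≠ 0 ∧ L.w (x - y) = L.w x := by
  rw [sub_eq_add_neg]; exact L.map_add_of_lt hx h.neg

/-- if `x + y` is strictly smaller than `x` then `y` has the valuation of `x` -/
theorem w_eq_of_add_gt {x y : K} (hx : x ≠ 0) (h : L.Gt (L.w x) (x + y)) :
    y ≠ 0 ∧ L.w y = L.w x := by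
  have h1 : y = -x + (x + y) := by ring
  have h2 := L.map_add_of_lt (neg_ne_zero.mpr hx)
    (by rw [L.map_neg]; exact h : x + y = 0 ∨ L.w (-x) < L.w (x + y))
  rw [← h1, L.map_neg] at h2
  exact h2

end LogVal

end Fermat.Agent.Tate
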