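import Mathlib
import Fermat.Agent.Tate.LogVal

set_option autoImplicit false

/-!
# Existence of the ℚ-valued logarithmic valuation over a prime

For a valuation subring `A` of an algebraic extension `K` of `ℚ` in which the prime `q` is a
nonunit, the value of every nonzero element is commensurable with that of `q`; this gives a
`LogVal A` normalised by `w q = 1`.
-/

namespace Fermat.Agent.Tate

open Polynomial

variable {K : Type*} [Field K] (A : ValuationSubring K)

section Basic

variable [CharZero K] {q : ℕ} (hq : q.Prime) (hqA : (q : K) ∈ A.nonunits)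

include hq hqA

theorem val_q_lt_one : A.valuation (q : K) < 1 := A.mem_nonunits_iff.mp hqA

omit hqA in
theorem val_q_pos : 0 < A.valuation (q : K) := by
  rw [zero_lt_iff, Ne, Valuation.zero_iff]
  exact_mod_cast hq.ne_zero

theorem val_intCast_eq_one {c : ℤ} (hc : ¬ (q : ℤ) ∣ c) : A.valuation (c : K) = 1 := by
  have hcop : IsCoprime c (q : ℤ) := by
    rw [Int.isCoprime_iff_gcd_eq_one]
    have := (Nat.Prime.coprime_iff_not_dvd hq).mpr (fun h => hc (Int.natCast_dvd.mpr h))
    rw [Int.gcd_comm]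
    simpa [Int.gcd, Nat.coprime_iff_gcd_eq_one] using this
  obtain ⟨u, w, huw⟩ := hcop
  have hint : ∀ z : ℤ, A.valuation (z : K) ≤ 1 := fun z =>
    (A.valuation_le_one_iff _).mpr (intCast_mem A z)
  have hlv : A.valuation ((q : ℤ) : K) < 1 := by
    have := val_q_lt_one A hq hqA
    simpa using this
  apply le_antisymm (hint c)
  by_contra hlt
  push Not at hlt
  have h1 : A.valuation ((u * c + w * q : ℤ) : K) < 1 := by
    push_cast
    refine lt_of_le_of_lt (A.valuation.map_add _ _) (max_lt ?_ ?_)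
    · rw [map_mul, mul_comm]
      exact mul_lt_one_of_lt_of_le hlt (hint u)
    · rw [map_mul]
      have := hlv
      push_cast at this
      rw [mul_comm]
      exact mul_lt_one_of_lt_of_le this (hint w)
  rw [huw] at h1
  simp at h1

/-- the value of a nonzero integer is a power of the value of `q`. -/
theorem exists_val_intCast {c : ℤ} (hc : c ≠ 0) :
    ∃ a : ℕ, A.valuation (c : K) = A.valuation (q : K) ^ a := by
  induction' h : c.natAbs using Nat.strong_induction_on with n ih generalizing c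
  by_cases hdvd : (q : ℤ) ∣ c
  · obtain ⟨c', rfl⟩ := hdvd
    have hc' : c' ≠ 0 := right_ne_zero_of_mul hc
    have hlt : c'.natAbs < n := by
      rw [← h, Int.natAbs_mul, Int.natAbs_natCast]
      have : 0 < c'.natAbs := Int.natAbs_pos.mpr hc'
      have := hq.one_lt
      nlinarith
    obtain ⟨a, ha⟩ := ih _ hlt hc' rfl
    refine ⟨a + 1, ?_⟩
    push_cast
    rw [map_mul, ha, pow_succ, mul_comm]
  · exact ⟨0, by rw [pow_zero]; exact val_intCast_eq_one A hq hqA hdvd⟩

end Basic

section Alg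

variable [Algebra ℚ K] [Algebra.IsAlgebraic ℚ K] {q : ℕ} (hq : q.Prime)
  (hqA : (q : K) ∈ A.nonunits)

include hq hqA

/-- **Commensurability**: some positive power of `x ≠ 0` has the value of a power of `q`. -/
theorem exists_val_pow_eq {x : K} (hx : x ≠ 0) :
    ∃ b : ℕ, 0 < b ∧ ∃ a : ℤ, A.valuation x ^ b = A.valuation (q : K) ^ a := by
  classical
  have : CharZero K := algebraRat.charZero K
  set v := A.valuation with hv
  have hvx : v x ≠ 0 := by rwa [Ne, Valuation.zero_iff]
  have hvq : v (q : K) ≠ 0 := (val_q_pos A hq).ne'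
  -- an integer polynomial killing `x`
  have halg : IsAlgebraic ℤ x :=
    (IsFractionRing.isAlgebraic_iff ℤ ℚ K).mpr (Algebra.IsAlgebraic.isAlgebraic x)
  obtain ⟨p, hp0, hpx⟩ := halg
  rw [aeval_eq_sum_range] at hpx
  -- rewrite as a sum over the support
  set t : ℕ → K := fun i => ((p.coeff i : ℤ) : K) * x ^ i with ht
  have hsum : ∑ i ∈ p.support, t i = 0 := by
    have h1 : ∑ i ∈ Finset.range (p.natDegree + 1), t i = 0 := by
      rw [← hpx]
      apply Finset.sum_congr rfl
      intro i _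
      simp [ht, zsmul_eq_mul]
    rw [← h1]
    apply Finset.sum_subset
    · intro i hi
      rw [Finset.mem_range, Nat.lt_succ_iff]
      exact le_natDegree_of_mem_supp i hi
    · intro i _ hi
      rw [mem_support_iff, not_not] at hi
      simp [ht, hi]
  have hne : p.support.Nonempty := by
    rw [Finset.nonempty_iff_ne_empty, Ne, support_eq_empty]; exact hp0
  obtain ⟨i₀, hi₀, hmax⟩ := Finset.exists_max_image p.support (fun i => v (t i)) hne
  have ht0 : ∀ i ∈ p.support, t i ≠ 0 := by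
    intro i hi
    rw [mem_support_iff] at hi
    simp only [ht]
    exact mul_ne_zero (by exact_mod_cast hi) (pow_ne_zero _ hx)
  -- another term has the same value
  have hex : ∃ j ∈ p.support, j ≠ i₀ ∧ v (t j) = v (t i₀) := by
    by_contra hcon
    push Not at hcon
    have h1 : v (∑ i ∈ p.support, t i) = v (t i₀) := by
      apply Valuation.map_sum_eq_of_lt v hi₀
      intro i hi
      rw [Finset.mem_sdiff, Finset.mem_singleton] at hi
      exact lt_of_le_of_ne (hmax i hi.1) (hcon i hi.1 hi.2)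
    rw [hsum, map_zero] at h1
    exact ht0 i₀ hi₀ ((Valuation.zero_iff v).mp h1.symm)
  obtain ⟨j, hj, hji, hval⟩ := hex
  -- values of the coefficients
  have hci : (p.coeff i₀ : ℤ) ≠ 0 := mem_support_iff.mp hi₀
  have hcj : (p.coeff j : ℤ) ≠ 0 := mem_support_iff.mp hj
  obtain ⟨ai, hai⟩ := exists_val_intCast A hq hqA hci
  obtain ⟨aj, haj⟩ := exists_val_intCast A hq hqA hcj
  simp only [ht, map_mul, map_pow] at hval
  rw [← hv] at hai haj
  rw [hai, haj] at hval
  -- `v q ^ aj * v x ^ j = v q ^ ai * v x ^ i₀`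
  rcases lt_or_gt_of_ne hji with hlt | hlt
  · -- j < i₀
    refine ⟨i₀ - j, Nat.sub_pos_of_lt hlt, (aj : ℤ) - ai, ?_⟩
    have h2 : v x ^ i₀ = v x ^ (i₀ - j) * v x ^ j := by
      rw [← pow_add, Nat.sub_add_cancel hlt.le]
    rw [h2] at hval
    have hxj : v x ^ j ≠ 0 := pow_ne_zero _ hvx
    have hqi : v (q : K) ^ ai ≠ 0 := pow_ne_zero _ hvq
    rw [zpow_sub₀ hvq, zpow_natCast, zpow_natCast, eq_div_iff hqi]
    have h3 : v (q : K) ^ aj * v x ^ j = (v x ^ (i₀ - j) * v (q : K) ^ ai) * v x ^ j := by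
      rw [hval, ← mul_assoc, mul_comm (v (q : K) ^ ai)]
    exact (mul_right_cancel₀ hxj h3).symm
  · -- i₀ < j
    refine ⟨j - i₀, Nat.sub_pos_of_lt hlt, (ai : ℤ) - aj, ?_⟩
    have h2 : v x ^ j = v x ^ (j - i₀) * v x ^ i₀ := by
      rw [← pow_add, Nat.sub_add_cancel hlt.le]
    rw [h2] at hval
    have hxi : v x ^ i₀ ≠ 0 := pow_ne_zero _ hvx
    have hqj : v (q : K) ^ aj ≠ 0 := pow_ne_zero _ hvq
    rw [zpow_sub₀ hvq, zpow_natCast, zpow_natCast, eq_div_iff hqj]
    have h3 : (v x ^ (j - i₀) * v (q : K) ^ aj) * v x ^ i₀ = v (q : K) ^ ai * v x ^ i₀ := by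
      rw [← hval, ← mul_assoc, mul_comm (v (q : K) ^ aj)]
    exact mul_right_cancel₀ hxi h3

/-- the exponent pair attached to a nonzero element -/
theorem exists_logVal : ∃ L : LogVal A, L.w (q : K) = 1 := by
  classical
  have : CharZero K := algebraRat.charZero K
  set v := A.valuation with hv
  have hvq0 : 0 < v (q : K) := val_q_pos A hq
  have hvq1 : v (q : K) < 1 := val_q_lt_one A hq hqA
  have hvqne : v (q : K) ≠ 0 := hvq0.ne'
  have hinj : ∀ a a' : ℤ, v (q : K) ^ a = v (q : K) ^ a' → a = a' := fun a a' h =>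
    (zpow_right_strictAnti₀ hvq0 hvq1).injective h
  -- choose exponents
  have hch : ∀ x : K, ∃ ba : ℕ × ℤ, x ≠ 0 → 0 < ba.1 ∧ v x ^ ba.1 = v (q : K) ^ ba.2 := by
    intro x
    by_cases hx : x = 0
    · exact ⟨(1, 0), fun h => absurd hx h⟩
    · obtain ⟨b, hb, a, ha⟩ := exists_val_pow_eq A hq hqA hx
      exact ⟨(b, a), fun _ => ⟨hb, ha⟩⟩
  choose f hf using hch
  -- uniqueness of the ratio
  have huniq : ∀ x : K, x ≠ 0 → ∀ (b : ℕ) (a : ℤ), 0 < b → v x ^ b = v (q : K) ^ a →
      ((f x).2 : ℚ) / (f x).1 = a / b := by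
    intro x hx b a hb hab
    obtain ⟨hb', hab'⟩ := hf x hx
    have h1 : v (q : K) ^ ((f x).2 * b) = v (q : K) ^ (a * (f x).1) := by
      rw [zpow_mul, zpow_mul, ← hab', ← hab, zpow_natCast, zpow_natCast, ← pow_mul, ← pow_mul,
        mul_comm]
    have h2 := hinj _ _ h1
    have hb0 : (b : ℚ) ≠ 0 := by exact_mod_cast hb.ne'
    have hb0' : ((f x).1 : ℚ) ≠ 0 := by exact_mod_cast hb'.ne'
    rw [div_eq_div_iff hb0' hb0]
    exact_mod_cast h2
  refine ⟨⟨fun x => ((f x).2 : ℚ) / (f x).1, ?_, ?_⟩, ?_⟩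
  · intro x y hx hy
    obtain ⟨hbx, habx⟩ := hf x hx
    obtain ⟨hby, haby⟩ := hf y hy
    have h1 : v (x * y) ^ ((f x).1 * (f y).1) =
        v (q : K) ^ ((f x).2 * (f y).1 + (f y).2 * (f x).1) := by
      rw [map_mul, mul_pow, pow_mul, habx, mul_comm (f x).1, pow_mul, haby, zpow_add₀ hvqne,
        zpow_mul, zpow_mul, zpow_natCast, zpow_natCast]
    have h2 := huniq (x * y) (mul_ne_zero hx hy) _ _ (Nat.mul_pos hbx hby) h1
    show ((f (x * y)).2 : ℚ) / (f (x * y)).1 = ((f x).2 : ℚ) / (f x).1 + ((f y).2 : ℚ) / (f y).1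
    rw [h2]
    have hb0 : ((f x).1 : ℚ) ≠ 0 := by exact_mod_cast hbx.ne'
    have hb0' : ((f y).1 : ℚ) ≠ 0 := by exact_mod_cast hby.ne'
    push_cast
    field_simp
  · intro x hx
    obtain ⟨hbx, habx⟩ := hf x hx
    show 0 ≤ ((f x).2 : ℚ) / (f x).1 ↔ x ∈ A
    rw [← A.valuation_le_one_iff, ← hv,
      ← pow_le_one_iff_of_nonneg zero_le hbx.ne', habx,
      zpow_le_one_iff_right_of_lt_one₀ hvq0 hvq1]
    have hb0 : (0 : ℚ) < ((f x).1 : ℚ) := by exact_mod_cast hbx
    constructor
    · intro h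
      have : (0 : ℚ) ≤ ((f x).2 : ℚ) := by
        by_contra hneg
        push Not at hneg
        have := div_neg_of_neg_of_pos hneg hb0
        linarith
      exact_mod_cast this
    · intro h
      have : (0 : ℚ) ≤ ((f x).2 : ℚ) := by exact_mod_cast h
      positivity
  · have hq0 : (q : K) ≠ 0 := by exact_mod_cast hq.ne_zero
    have := huniq (q : K) hq0 1 1 one_pos (by simp)
    show ((f (q : K)).2 : ℚ) / (f (q : K)).1 = 1
    rw [this]; simp

end Alg

end Fermat.Agent.Tate
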