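import Mathlib
import Fermat.Agent.Tate.NodePoint

set_option autoImplicit false

/-!
# Integral lines through points near the node: the component class is additive

`LineData lam μ x₁ x₂ x₃`: the line `y = lam x + μ` (integral) meets
`y² = x³ + α² x² + a₄ x + a₆` in the points with (integral) abscissas `x₁, x₂, x₃` (Vieta).
Main result `LineData.depth_sum`: the depths of the three points add up to a multiple of `n`.
-/

namespace Fermat.Agent.Tate

variable {K : Type*} [Field K] {A : ValuationSubring K}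

section Aux

theorem mem_nonunits_of_mul_mem {a b : K} (ha : a ∈ A) (hb : b ∈ A)
    (h : a * b ∈ A.nonunits) : a ∈ A.nonunits ∨ b ∈ A.nonunits := by
  rw [A.mem_nonunits_iff, A.mem_nonunits_iff]
  rw [A.mem_nonunits_iff, map_mul] at h
  by_contra hcon
  push Not at hcon
  have h1 : A.valuation a = 1 := le_antisymm ((A.valuation_le_one_iff a).mpr ha) hcon.1
  have h2 : A.valuation b = 1 := le_antisymm ((A.valuation_le_one_iff b).mpr hb) hcon.2
  rw [h1, h2, one_mul] at h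
  exact lt_irrefl _ h

theorem mul_mem_nonunits_left {a b : K} (ha : a ∈ A.nonunits) (hb : b ∈ A) :
    a * b ∈ A.nonunits := by
  rw [A.mem_nonunits_iff] at ha ⊢
  rw [map_mul]
  exact mul_lt_one_of_lt_of_le ha ((A.valuation_le_one_iff b).mpr hb)

theorem mul_mem_nonunits_right {a b : K} (ha : a ∈ A) (hb : b ∈ A.nonunits) :
    a * b ∈ A.nonunits := by
  rw [mul_comm]; exact mul_mem_nonunits_left hb ha

theorem pow_mem_nonunits {a : K} (ha : a ∈ A.nonunits) {k : ℕ} (hk : k ≠ 0) :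
    a ^ k ∈ A.nonunits := by
  rw [A.mem_nonunits_iff] at ha ⊢
  rw [map_pow]
  exact pow_lt_one₀ zero_le ha hk

theorem mem_nonunits_of_pow_mem {a : K} {k : ℕ} (ha : a ^ k ∈ A.nonunits) :
    a ∈ A.nonunits := by
  rw [A.mem_nonunits_iff] at ha ⊢
  rw [map_pow] at ha
  by_contra hcon
  push Not at hcon
  exact absurd ha (not_lt.mpr (one_le_pow₀ hcon))

theorem add_not_mem_nonunits {a b : K} (ha : a ∉ A.nonunits) (hb : b ∈ A.nonunits) :
    a + b ∉ A.nonunits := by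
  intro h
  apply ha
  have := A.nonunits.sub_mem h hb
  simpa using this

theorem nonunits_subset {a : K} (ha : a ∈ A.nonunits) : a ∈ A := A.nonunits_le ha

end Aux

namespace NodeCtx

variable (C : NodeCtx K A)

open Classical in
/-- the component of the point with abscissa `x` and `a = y - α x`, as a representative in
`[0, n)` of a class in `ℚ / nℤ` -/
noncomputable def depth (x a : K) : ℚ :=
  if x ∈ A.nonunits then
    if x = 0 ∨ C.n ≤ 2 * C.L.w x then C.n / 2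
    else if a = 0 ∨ C.L.w x < C.L.w a then C.L.w x
    else C.n - C.L.w x
  else 0

variable {C}

theorem depth_of_not_mem {x : K} (a : K) (h : x ∉ A.nonunits) : C.depth x a = 0 := by
  rw [depth, if_neg h]

theorem Mid.depth_eq {x a b : K} (h : C.Mid x a b) (hx : x ∈ A.nonunits) :
    C.depth x a = C.n / 2 := by
  rw [depth, if_pos hx, if_pos h.hx]

theorem Plus.depth_eq {x a b : K} (h : C.Plus x a b) (hx : x ∈ A.nonunits) :
    C.depth x a = C.L.w x := by
  have h1 : ¬ (x = 0 ∨ C.n ≤ 2 * C.L.w x) := by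
    rintro (h0 | h0)
    · exact h.hx0 h0
    · have := h.hx; linarith
  rw [depth, if_pos hx, if_neg h1, if_pos h.ha]

theorem Minus.depth_eq {x a b : K} (h : C.Minus x a b) (hx : x ∈ A.nonunits) :
    C.depth x a = C.n - C.L.w x := by
  have h1 : ¬ (x = 0 ∨ C.n ≤ 2 * C.L.w x) := by
    rintro (h0 | h0)
    · exact h.hx0 h0
    · have := h.hx; linarith
  have h2 : ¬ (a = 0 ∨ C.L.w x < C.L.w a) := by
    rintro (h0 | h0)
    · exact h.ha h0
    · have := h.hwa; linarith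
  rw [depth, if_pos hx, if_neg h1, if_neg h2]

theorem Mid.neg {x a b : K} (h : C.Mid x a b) : C.Mid x (-b) (-a) :=
  ⟨h.hx, neg_ne_zero.mpr h.hb, neg_ne_zero.mpr h.ha, by rw [C.L.map_neg]; exact h.hwb,
    by rw [C.L.map_neg]; exact h.hwa⟩

theorem Plus.neg {x a b : K} (h : C.Plus x a b) : C.Minus x (-b) (-a) :=
  ⟨h.hx0, h.hx, neg_ne_zero.mpr h.hb, by rw [C.L.map_neg]; exact h.hwb, by
    rcases h.ha with h0 | h0
    · left; rw [h0, neg_zero]
    · right; rwa [C.L.map_neg]⟩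

theorem Minus.neg {x a b : K} (h : C.Minus x a b) : C.Plus x (-b) (-a) :=
  ⟨h.hx0, h.hx, neg_ne_zero.mpr h.ha, by rw [C.L.map_neg]; exact h.hwa, by
    rcases h.hb with h0 | h0
    · left; rw [h0, neg_zero]
    · right; rwa [C.L.map_neg]⟩

theorem NearPt.neg {x a b : K} (h : C.NearPt x a b) : C.NearPt x (-b) (-a) :=
  ⟨h.hx, by rw [← h.hab]; ring, by rw [← h.hprod]; ring⟩

/-- the depths of a point and of its negative add up to `n` -/
theorem NearPt.depth_add_depth_neg {x a b : K} (h : C.NearPt x a b) :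
    C.depth x a + C.depth x (-b) = C.n := by
  rcases h.classify with hc | hc | hc
  · rw [hc.depth_eq h.hx, hc.neg.depth_eq h.hx]; ring
  · rw [hc.depth_eq h.hx, hc.neg.depth_eq h.hx]; ring
  · rw [hc.depth_eq h.hx, hc.neg.depth_eq h.hx]; ring

variable (C)

/-- an integral line meeting the curve in three integral points -/
structure LineData (lam μ x₁ x₂ x₃ : K) : Prop where
  hlam : lam ∈ A
  hμ : μ ∈ A
  hx₁ : x₁ ∈ A
  hx₂ : x₂ ∈ A
  hx₃ : x₃ ∈ A
  E1 : x₁ + x₂ + x₃ = (lam - C.α) * (lam + C.α)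
  E2 : x₁ * x₂ + x₁ * x₃ + x₂ * x₃ = C.a₄ - 2 * lam * μ
  E3 : x₁ * x₂ * x₃ = μ ^ 2 - C.a₆

variable {C}

namespace LineData

variable {lam μ x₁ x₂ x₃ : K}

theorem perm12 (h : C.LineData lam μ x₁ x₂ x₃) : C.LineData lam μ x₂ x₁ x₃ :=
  ⟨h.hlam, h.hμ, h.hx₂, h.hx₁, h.hx₃, by rw [← h.E1]; ring, by rw [← h.E2]; ring,
    by rw [← h.E3]; ring⟩

theorem perm23 (h : C.LineData lam μ x₁ x₂ x₃) : C.LineData lam μ x₁ x₃ x₂ :=
  ⟨h.hlam, h.hμ, h.hx₁, h.hx₃, h.hx₂, by rw [← h.E1]; ring, by rw [← h.E2]; ring,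
    by rw [← h.E3]; ring⟩

theorem perm13 (h : C.LineData lam μ x₁ x₂ x₃) : C.LineData lam μ x₃ x₂ x₁ :=
  ⟨h.hlam, h.hμ, h.hx₃, h.hx₂, h.hx₁, by rw [← h.E1]; ring, by rw [← h.E2]; ring,
    by rw [← h.E3]; ring⟩

theorem neg (h : C.LineData lam μ x₁ x₂ x₃) : C.LineData (-lam) (-μ) x₁ x₂ x₃ :=
  ⟨A.neg_mem _ h.hlam, A.neg_mem _ h.hμ, h.hx₁, h.hx₂, h.hx₃, by rw [h.E1]; ring,
    by rw [h.E2]; ring, by rw [h.E3]; ring⟩

theorem root₁ (h : C.LineData lam μ x₁ x₂ x₃) :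
    ((lam - C.α) * x₁ + μ) * ((lam + C.α) * x₁ + μ) = C.R x₁ := by
  rw [R]
  linear_combination (-x₁ ^ 2) * h.E1 + x₁ * h.E2 - h.E3

theorem root₂ (h : C.LineData lam μ x₁ x₂ x₃) :
    ((lam - C.α) * x₂ + μ) * ((lam + C.α) * x₂ + μ) = C.R x₂ := h.perm12.root₁

theorem root₃ (h : C.LineData lam μ x₁ x₂ x₃) :
    ((lam - C.α) * x₃ + μ) * ((lam + C.α) * x₃ + μ) = C.R x₃ := h.perm13.root₁

theorem nearPt₁ (h : C.LineData lam μ x₁ x₂ x₃) (hx : x₁ ∈ A.nonunits) :
    C.NearPt x₁ ((lam - C.α) * x₁ + μ) ((lam + C.α) * x₁ + μ) :=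
  ⟨hx, by ring, h.root₁⟩

theorem nearPt₂ (h : C.LineData lam μ x₁ x₂ x₃) (hx : x₂ ∈ A.nonunits) :
    C.NearPt x₂ ((lam - C.α) * x₂ + μ) ((lam + C.α) * x₂ + μ) := h.perm12.nearPt₁ hx

theorem nearPt₃ (h : C.LineData lam μ x₁ x₂ x₃) (hx : x₃ ∈ A.nonunits) :
    C.NearPt x₃ ((lam - C.α) * x₃ + μ) ((lam + C.α) * x₃ + μ) := h.perm13.nearPt₁ hx

end LineData

end NodeCtx

end Fermat.Agent.Tate
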