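import Mathlib
import Fermat.Agent.Tate.NodeLine

set_option autoImplicit false
set_option linter.unusedSectionVars false

/-!
# The chord trick: reduction is injective on `p`-torsion points with nonsingular reduction

`W` a Weierstrass curve over a field `K` with coefficients in a valuation subring `A`.
`hR1` = "every `p`-torsion point is integral" (the kernel of reduction has no `p`-torsion).
Two integral `p`-torsion points (`p` odd) which are congruent modulo `𝔪`, with nonsingular
reduction, coincide (`eq_of_nonsingular_red`).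
-/

namespace Fermat.Agent.Tate

open WeierstrassCurve WeierstrassCurve.Affine Polynomial

variable {K : Type*} [Field K] [DecidableEq K] {A : ValuationSubring K}

/-- `ℓ² + a₁ ℓ + c` is not integral when `ℓ` is not. -/
theorem sq_add_not_mem {l a c : K} (hl : l ∉ A) (ha : a ∈ A) (hc : c ∈ A) :
    l ^ 2 + a * l + c ∉ A := by
  intro hX
  have hl0 : l ≠ 0 := by rintro rfl; exact hl A.zero_mem
  have ht : l⁻¹ ∈ A.nonunits := by
    rw [ValuationSubring.inv_mem_nonunits_iff]; exact Or.inr hl
  have htA : l⁻¹ ∈ A := A.nonunits_le ht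
  have h1 : (1 : K) = (l ^ 2 + a * l + c) * (l⁻¹ * l⁻¹) - a * l⁻¹ - c * (l⁻¹ * l⁻¹) := by
    field_simp
    ring
  have h2 : (1 : K) ∈ A.nonunits := by
    rw [h1]
    exact A.nonunits.sub_mem (A.nonunits.sub_mem
      (mul_mem_nonunits_right hX (mul_mem_nonunits_left ht htA))
      (mul_mem_nonunits_right ha ht)) (mul_mem_nonunits_right hc (mul_mem_nonunits_left ht htA))
  rw [A.mem_nonunits_iff, map_one] at h2
  exact lt_irrefl _ h2

/-- a unit divided by a nonzero nonunit is not integral -/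
theorem div_not_mem {N D : K} (hN : N ∉ A.nonunits) (hD : D ∈ A.nonunits) (hD0 : D ≠ 0) :
    N / D ∉ A := by
  intro h
  apply hN
  have : N = N / D * D := by field_simp
  rw [this]
  exact mul_mem_nonunits_right h hD

section Chord

variable {W : Affine K} (ha₁ : W.a₁ ∈ A) (ha₂ : W.a₂ ∈ A) (ha₃ : W.a₃ ∈ A) {p : ℕ}
  (hR1 : ∀ {x y : K} (h : W.Nonsingular x y), p • Point.some x y h = 0 → x ∈ A ∧ y ∈ A)

include ha₁ ha₂ hR1

/-- the chord through two torsion points with integral abscissas has integral slope, as soon as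
the sum is an affine point -/
theorem slope_mem_of_torsion {x₁ y₁ x₂ y₂ : K} (h₁ : W.Nonsingular x₁ y₁)
    (h₂ : W.Nonsingular x₂ y₂) (hx₁ : x₁ ∈ A) (hx₂ : x₂ ∈ A)
    (ht₁ : p • Point.some x₁ y₁ h₁ = 0) (ht₂ : p • Point.some x₂ y₂ h₂ = 0)
    (hxy : ¬ (x₁ = x₂ ∧ y₁ = W.negY x₂ y₂)) : W.slope x₁ x₂ y₁ y₂ ∈ A := by
  by_contra hl
  have hsum := Point.add_some (h₁ := h₁) (h₂ := h₂) hxy
  have htors : p • (Point.some x₁ y₁ h₁ + Point.some x₂ y₂ h₂) = 0 := by
    rw [smul_add, ht₁, ht₂, add_zero]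
  rw [hsum] at htors
  obtain ⟨hXA, -⟩ := hR1 _ htors
  have hc : -W.a₂ - x₁ - x₂ ∈ A := sub_mem (sub_mem (neg_mem ha₂) hx₁) hx₂
  have := sq_add_not_mem hl ha₁ hc
  apply this
  have e : W.addX x₁ x₂ (W.slope x₁ x₂ y₁ y₂) =
      W.slope x₁ x₂ y₁ y₂ ^ 2 + W.a₁ * W.slope x₁ x₂ y₁ y₂ + (-W.a₂ - x₁ - x₂) := by
    simp only [Affine.addX]; ring
  rw [← e]; exact hXA

include ha₃

/-- **(I3)**: reduction is injective on integral `p`-torsion points with nonsingular reduction. -/
theorem eq_of_nonsingular_red (hpodd : Odd p) {x y x' y' : K} (h : W.Nonsingular x y)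
    (h' : W.Nonsingular x' y') (hx : x ∈ A) (hy : y ∈ A)
    (hxx' : x' - x ∈ A.nonunits) (hyy' : y' - y ∈ A.nonunits)
    (hred : ¬ (3 * x ^ 2 + 2 * W.a₂ * x + W.a₄ - W.a₁ * y ∈ A.nonunits ∧
      2 * y + W.a₁ * x + W.a₃ ∈ A.nonunits))
    (ht : p • Point.some x y h = 0) (ht' : p • Point.some x' y' h' = 0) :
    Point.some x' y' h' = Point.some x y h := by
  have hx' : x' ∈ A := by
    have := A.add_mem _ _ (A.nonunits_le hxx') hx
    rwa [sub_add_cancel] at this
  -- `ψ := 2y + a₁x + a₃` is a unit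
  have hψ : 2 * y + W.a₁ * x + W.a₃ ∉ A.nonunits := by
    intro hψ
    have hφ : 3 * x ^ 2 + 2 * W.a₂ * x + W.a₄ - W.a₁ * y ∉ A.nonunits := fun h1 => hred ⟨h1, hψ⟩
    by_cases hψ0 : 2 * y + W.a₁ * x + W.a₃ = 0
    · -- `P = -P`
      have hneg : y = W.negY x y := by rw [Affine.negY]; linear_combination hψ0
      have h2 : Point.some x y h + Point.some x y h = 0 := Point.add_self_of_Y_eq hneg
      obtain ⟨j, rfl⟩ := hpodd
      have h4 : (2 * j) • Point.some x y h = 0 := by
        rw [mul_comm, mul_smul, two_smul, h2, smul_zero]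
      have h3 : (2 * j + 1) • Point.some x y h = Point.some x y h := by
        rw [add_smul, one_smul, h4, zero_add]
      rw [h3] at ht
      exact Point.some_ne_zero h ht
    · have hne : y ≠ W.negY x y := by
        intro hneg
        apply hψ0
        rw [Affine.negY] at hneg
        linear_combination hneg
      have hxy : ¬ (x = x ∧ y = W.negY x y) := fun hh => hne hh.2
      have hsl := slope_mem_of_torsion ha₁ ha₂ hR1 h h hx hx ht ht hxy
      rw [slope_of_Y_ne rfl hne] at hsl
      have hden : y - W.negY x y = 2 * y + W.a₁ * x + W.a₃ := by rw [Affine.negY]; ring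
      rw [hden] at hsl
      exact div_not_mem hφ hψ hψ0 hsl
  by_cases hxx : x' = x
  · subst hxx
    rcases Y_eq_of_X_eq h'.1 h.1 rfl with hyy | hyy
    · subst hyy; rfl
    · exfalso
      apply hψ
      have e : 2 * y + W.a₁ * x' + W.a₃ = -(y' - y) := by
        rw [hyy, Affine.negY]; ring
      rw [e]
      exact A.nonunits.neg_mem hyy'
  exfalso
  have hnegt : p • (-Point.some x y h) = 0 := by rw [smul_neg, ht, neg_zero]
  rw [Point.neg_some] at hnegt
  have hne : ¬ (x' = x ∧ y' = W.negY x (W.negY x y)) := fun hh => hxx hh.1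
  have hsl := slope_mem_of_torsion ha₁ ha₂ hR1 h' ((nonsingular_neg ..).mpr h) hx' hx ht' hnegt hne
  rw [slope_of_X_ne hxx] at hsl
  have hnum : y' - W.negY x y ∉ A.nonunits := by
    have e : y' - W.negY x y = (2 * y + W.a₁ * x + W.a₃) + (y' - y) := by
      rw [Affine.negY]; ring
    rw [e]
    exact add_not_mem_nonunits hψ hyy'
  exact div_not_mem hnum hxx' (sub_ne_zero.mpr hxx) hsl

end Chord

end Fermat.Agent.Tate
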