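/-
Project TATE (S05), package (BR-aff) (helper7): three nonsingular affine points of a Weierstrass
curve lying on a (non-vertical) line `y = ℓ (x - x₁) + y₁` such that the restriction of the
Weierstrass polynomial to the line is `-(X - x₁)(X - x₂)(X - x₃)` add up to zero in Mathlib's
affine group law; and conversely.
-/
import Mathlib

set_option autoImplicit false
set_option linter.unusedSectionVars false

namespace Fermat.Agent.Tate

open WeierstrassCurve WeierstrassCurve.Affine Polynomial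

section BRaff

variable {F : Type*} [Field F] [DecidableEq F] (W : WeierstrassCurve.Affine F)

/-- **Vieta** for the restriction of the Weierstrass cubic to a line: if
`W.addPolynomial x₁ y₁ ℓ = -(X - x₁)(X - x₂)(X - x₃)` then the elementary symmetric functions of
the `xⱼ` are given by the coefficients of the cubic. -/
theorem vieta_of_addPolynomial_eq {x₁ y₁ ℓ x₂ x₃ : F}
    (hF : W.addPolynomial x₁ y₁ ℓ = -((X - C x₁) * (X - C x₂) * (X - C x₃))) :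
    x₁ + x₂ + x₃ = ℓ ^ 2 + W.a₁ * ℓ - W.a₂ ∧
    x₁ * x₂ + x₁ * x₃ + x₂ * x₃ =
      2 * x₁ * ℓ ^ 2 + (W.a₁ * x₁ - 2 * y₁ - W.a₃) * ℓ + (-W.a₁ * y₁ + W.a₄) ∧
    x₁ * x₂ * x₃ =
      x₁ ^ 2 * ℓ ^ 2 - (2 * x₁ * y₁ + W.a₃ * x₁) * ℓ + (y₁ ^ 2 + W.a₃ * y₁ - W.a₆) := by
  rw [addPolynomial_eq, neg_inj, Cubic.prod_X_sub_C_eq, Cubic.toPoly_injective] at hF
  have hb := congrArg Cubic.b hF
  have hc := congrArg Cubic.c hF
  have hd := congrArg Cubic.d hF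
  simp only at hb hc hd
  refine ⟨?_, ?_, ?_⟩
  · linear_combination hb
  · linear_combination -hc
  · linear_combination hd

/-- The slope of the line in (BR-aff) is Mathlib's `slope`, and the two first points are not
opposite. -/
theorem slope_eq_of_addPolynomial_eq {x₁ y₁ x₂ y₂ x₃ ℓ : F}
    (h₁ : W.Nonsingular x₁ y₁) (hy₂ : y₂ = ℓ * (x₂ - x₁) + y₁)
    (hF : W.addPolynomial x₁ y₁ ℓ = -((X - C x₁) * (X - C x₂) * (X - C x₃))) :
    ¬(x₁ = x₂ ∧ y₁ = W.negY x₂ y₂) ∧ W.slope x₁ x₂ y₁ y₂ = ℓ := by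
  obtain ⟨hb, hc, -⟩ := vieta_of_addPolynomial_eq W hF
  by_cases hx : x₁ = x₂
  · subst hx
    have hy : y₂ = y₁ := by rw [hy₂]; ring
    subst hy
    -- double root: the derivative vanishes
    have hder : 3 * x₁ ^ 2 + 2 * W.a₂ * x₁ + W.a₄ - W.a₁ * y₂ =
        ℓ * (2 * y₂ + W.a₁ * x₁ + W.a₃) := by
      have hx₃ : x₃ = ℓ ^ 2 + W.a₁ * ℓ - W.a₂ - x₁ - x₁ := by linear_combination hb
      rw [hx₃] at hc
      linear_combination -hc
    have hD : 2 * y₂ + W.a₁ * x₁ + W.a₃ ≠ 0 := by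
      intro hD
      rw [hD, mul_zero] at hder
      rw [nonsingular_iff'] at h₁
      rcases h₁.2 with h | h
      · apply h
        linear_combination -hder
      · exact h hD
    have hne : y₂ ≠ W.negY x₁ y₂ := by
      intro h
      apply hD
      simp only [negY] at h
      linear_combination h
    refine ⟨fun h => hne h.2, ?_⟩
    rw [slope_of_Y_ne rfl hne]
    have hD' : y₂ - W.negY x₁ y₂ ≠ 0 := sub_ne_zero.mpr hne
    rw [div_eq_iff hD', hder]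
    simp only [negY]
    ring
  · refine ⟨fun h => hx h.1, ?_⟩
    rw [slope_of_X_ne hx, hy₂]
    have h12 : x₁ - x₂ ≠ 0 := sub_ne_zero.mpr hx
    field_simp
    ring

/-- **(BR-aff)**: three nonsingular affine points on the line `y = ℓ (x - x₁) + y₁` such that the
Weierstrass cubic restricted to the line is `-(X - x₁)(X - x₂)(X - x₃)` sum to zero. -/
theorem add_add_eq_zero_of_addPolynomial_eq {x₁ y₁ x₂ y₂ x₃ y₃ ℓ : F}
    (h₁ : W.Nonsingular x₁ y₁) (h₂ : W.Nonsingular x₂ y₂) (h₃ : W.Nonsingular x₃ y₃)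
    (hy₂ : y₂ = ℓ * (x₂ - x₁) + y₁) (hy₃ : y₃ = ℓ * (x₃ - x₁) + y₁)
    (hF : W.addPolynomial x₁ y₁ ℓ = -((X - C x₁) * (X - C x₂) * (X - C x₃))) :
    Point.some x₁ y₁ h₁ + Point.some x₂ y₂ h₂ + Point.some x₃ y₃ h₃ = 0 := by
  obtain ⟨hxy, hs⟩ := slope_eq_of_addPolynomial_eq W h₁ hy₂ hF
  obtain ⟨hb, -, -⟩ := vieta_of_addPolynomial_eq W hF
  have hX : W.addX x₁ x₂ ℓ = x₃ := by
    simp only [addX]
    linear_combination -hb
  have hY : W.negAddY x₁ x₂ y₁ ℓ = y₃ := by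
    rw [negAddY, hX, hy₃]
  rw [Point.add_some hxy, add_eq_zero_iff_eq_neg, Point.neg_some, Point.some.injEq, hs, hX,
    addY, hX, hY]
  exact ⟨rfl, rfl⟩

/-- **(BR-aff), line in the form `y = ℓ x + μ`.** -/
theorem add_add_eq_zero_of_collinear {x₁ y₁ x₂ y₂ x₃ y₃ ℓ μ : F}
    (h₁ : W.Nonsingular x₁ y₁) (h₂ : W.Nonsingular x₂ y₂) (h₃ : W.Nonsingular x₃ y₃)
    (hy₁ : y₁ = ℓ * x₁ + μ) (hy₂ : y₂ = ℓ * x₂ + μ) (hy₃ : y₃ = ℓ * x₃ + μ)
    (hF : W.polynomial.eval (C ℓ * X + C μ) = -((X - C x₁) * (X - C x₂) * (X - C x₃))) :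
    Point.some x₁ y₁ h₁ + Point.some x₂ y₂ h₂ + Point.some x₃ y₃ h₃ = 0 := by
  apply add_add_eq_zero_of_addPolynomial_eq W h₁ h₂ h₃ (ℓ := ℓ)
  · rw [hy₂, hy₁]; ring
  · rw [hy₃, hy₁]; ring
  · rw [← hF, addPolynomial, linePolynomial]
    congr 1
    rw [hy₁]
    simp only [C_add, C_mul]
    ring

/-- **Converse of (BR-aff)**: if two affine points are not opposite, then they and the negative of
their sum lie on a line (of slope `W.slope`) cutting out `-(X - x₁)(X - x₂)(X - x₃)`. -/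
theorem exists_collinear_of_add {x₁ y₁ x₂ y₂ : F}
    (h₁ : W.Nonsingular x₁ y₁) (h₂ : W.Nonsingular x₂ y₂)
    (hxy : ¬(x₁ = x₂ ∧ y₁ = W.negY x₂ y₂)) :
    ∃ (x₃ y₃ : F) (h₃ : W.Nonsingular x₃ y₃),
      Point.some x₁ y₁ h₁ + Point.some x₂ y₂ h₂ = -Point.some x₃ y₃ h₃ ∧
      y₂ = W.slope x₁ x₂ y₁ y₂ * (x₂ - x₁) + y₁ ∧
      y₃ = W.slope x₁ x₂ y₁ y₂ * (x₃ - x₁) + y₁ ∧
      W.addPolynomial x₁ y₁ (W.slope x₁ x₂ y₁ y₂) =
        -((X - C x₁) * (X - C x₂) * (X - C x₃)) := by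
  refine ⟨W.addX x₁ x₂ (W.slope x₁ x₂ y₁ y₂), W.negAddY x₁ x₂ y₁ (W.slope x₁ x₂ y₁ y₂),
    nonsingular_negAdd h₁ h₂ hxy, ?_, ?_, ?_, addPolynomial_slope h₁.1 h₂.1 hxy⟩
  · rw [Point.add_some hxy, Point.neg_some, Point.some.injEq]
    exact ⟨rfl, rfl⟩
  · by_cases hx : x₁ = x₂
    · have hy : y₁ = y₂ := Y_eq_of_Y_ne h₁.1 h₂.1 hx (fun h => hxy ⟨hx, h⟩)
      rw [hx, hy]; ring
    · rw [slope_of_X_ne hx]
      have h12 : x₁ - x₂ ≠ 0 := sub_ne_zero.mpr hx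
      field_simp
      ring
  · rw [negAddY]

end BRaff

end Fermat.Agent.Tate
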