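import Mathlib
import Fermat.Agent.Tate.NodeSum
import Fermat.Agent.Tate.BRaff_helper7

set_option autoImplicit false
set_option linter.unusedSectionVars false

/-!
# The component class on Mathlib points of a nodal model; torsion points near the node

`W : y² = x³ + α² x² + a₄ x + a₆` (`NodeCtx.IsModel`). `depthPt` is additive modulo `n` on integral
points (`depthPt_add`), hence a `p`-torsion point near the node, all of whose multiples are
integral, has depth in `(n/p) ℤ` (`torsion_near_node`); two `p`-torsion points near the node which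
are close to each other coincide (`eq_of_close`).
-/

namespace Fermat.Agent.Tate

open WeierstrassCurve WeierstrassCurve.Affine Polynomial

variable {K : Type*} [Field K] [DecidableEq K] {A : ValuationSubring K}

/-- integral points (the point at infinity counts as integral) -/
def IntegralPt (A : ValuationSubring K) {W : Affine K} : W.Point → Prop
  | .zero => True
  | .some x y _ => x ∈ A ∧ y ∈ A

@[simp] theorem integralPt_zero {W : Affine K} : IntegralPt A (0 : W.Point) := trivial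

@[simp] theorem integralPt_some {W : Affine K} {x y : K} (h : W.Nonsingular x y) :
    IntegralPt A (Point.some x y h) ↔ x ∈ A ∧ y ∈ A := Iff.rfl

namespace NodeCtx

variable (C : NodeCtx K A)

/-- `W` is the nodal model with the parameters of `C` -/
structure IsModel (W : Affine K) : Prop where
  a₁ : W.a₁ = 0
  a₂ : W.a₂ = C.α ^ 2
  a₃ : W.a₃ = 0
  a₄ : W.a₄ = C.a₄
  a₆ : W.a₆ = C.a₆

/-- the component class of a point -/
noncomputable def depthPt {W : Affine K} : W.Point → ℚ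
  | .zero => 0
  | .some x y _ => C.depth x (y - C.α * x)

@[simp] theorem depthPt_zero {W : Affine K} : C.depthPt (0 : W.Point) = 0 := rfl

@[simp] theorem depthPt_some {W : Affine K} {x y : K} (h : W.Nonsingular x y) :
    C.depthPt (Point.some x y h) = C.depth x (y - C.α * x) := rfl

variable {C}

theorem IsModel.negY {W : Affine K} (hM : C.IsModel W) (x y : K) : W.negY x y = -y := by
  rw [Affine.negY, hM.a₁, hM.a₃]; ring

theorem IsModel.equation {W : Affine K} (hM : C.IsModel W) {x y : K} (h : W.Equation x y) :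
    (y - C.α * x) * (y + C.α * x) = C.R x := by
  rw [equation_iff, hM.a₁, hM.a₂, hM.a₃, hM.a₄, hM.a₆] at h
  rw [R]
  linear_combination h

theorem IsModel.nearPt {W : Affine K} (hM : C.IsModel W) {x y : K} (h : W.Equation x y)
    (hx : x ∈ A.nonunits) : C.NearPt x (y - C.α * x) (y + C.α * x) :=
  ⟨hx, by ring, hM.equation h⟩

/-- depth of the negative of a point -/
theorem IsModel.depthPt_neg {W : Affine K} (hM : C.IsModel W) (P : W.Point) :
    ∃ k : ℤ, C.depthPt (-P) = -C.depthPt P + k * C.n := by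
  rcases P with _ | ⟨x, y, h⟩
  · exact ⟨0, by simp [← Point.zero_def]⟩
  rw [Point.neg_some, depthPt_some, depthPt_some]
  simp only [hM.negY]
  by_cases hx : x ∈ A.nonunits
  · have := (hM.nearPt h.1 hx).depth_add_depth_neg
    have e : -(y + C.α * x) = -y - C.α * x := by ring
    rw [e] at this
    exact ⟨1, by push_cast; linarith⟩
  · rw [depth_of_not_mem _ hx, depth_of_not_mem _ hx]
    exact ⟨0, by simp⟩

/-- if `ℓ² ∈ A` then `ℓ ∈ A` -/
theorem mem_of_sq_mem {l : K} (h : l ^ 2 ∈ A) : l ∈ A := by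
  rcases A.mem_or_inv_mem l with h1 | h1
  · exact h1
  · have : l = l ^ 2 * l⁻¹ := by
      rcases eq_or_ne l 0 with rfl | h0
      · simp
      · field_simp
    rw [this]
    exact A.mul_mem _ _ h h1

/-- **additivity of the component class on integral points** -/
theorem IsModel.depthPt_add {W : Affine K} (hM : C.IsModel W) (P Q : W.Point)
    (hP : IntegralPt A P) (hQ : IntegralPt A Q) (hPQ : IntegralPt A (P + Q)) :
    ∃ k : ℤ, C.depthPt (P + Q) = C.depthPt P + C.depthPt Q + k * C.n := by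
  rcases P with _ | ⟨x₁, y₁, h₁⟩
  · exact ⟨0, by simp [← Point.zero_def]⟩
  rcases Q with _ | ⟨x₂, y₂, h₂⟩
  · exact ⟨0, by simp [← Point.zero_def]⟩
  by_cases hxy : x₁ = x₂ ∧ y₁ = W.negY x₂ y₂
  · -- opposite points
    have hsum : Point.some x₁ y₁ h₁ + Point.some x₂ y₂ h₂ = 0 := Point.add_of_Y_eq hxy.1 hxy.2
    have hneg : Point.some x₁ y₁ h₁ = -Point.some x₂ y₂ h₂ := by
      rw [← add_eq_zero_iff_eq_neg]; exact hsum
    obtain ⟨k, hk⟩ := hM.depthPt_neg (Point.some x₂ y₂ h₂)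
    rw [hsum, hneg, hk]
    exact ⟨-k, by push_cast; simp⟩
  obtain ⟨x₃, y₃, h₃, hadd, hy₂, hy₃, hF⟩ := exists_collinear_of_add W h₁ h₂ hxy
  set l := W.slope x₁ x₂ y₁ y₂ with hl
  obtain ⟨E1, E2, E3⟩ := vieta_of_addPolynomial_eq W hF
  rw [hM.a₁, hM.a₂] at E1
  rw [hM.a₁, hM.a₃, hM.a₄] at E2
  rw [hM.a₃, hM.a₆] at E3
  -- integrality
  rw [hadd] at hPQ
  rw [Point.neg_some] at hPQ
  obtain ⟨hx₃, -⟩ := hPQ
  obtain ⟨hx₁, hy₁⟩ := hP
  obtain ⟨hx₂, -⟩ := hQ
  have hlA : l ∈ A := by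
    apply mem_of_sq_mem
    have : l ^ 2 = x₁ + x₂ + x₃ + C.α ^ 2 := by rw [E1]; ring
    rw [this]
    exact A.add_mem _ _ (A.add_mem _ _ (A.add_mem _ _ hx₁ hx₂) hx₃) (A.pow_mem α_mem 2)
  set μ := y₁ - l * x₁ with hμ
  have hμA : μ ∈ A := sub_mem hy₁ (A.mul_mem _ _ hlA hx₁)
  have hLD : C.LineData l μ x₁ x₂ x₃ :=
    ⟨hlA, hμA, hx₁, hx₂, hx₃, by rw [E1]; ring, by rw [E2, hμ]; ring, by rw [E3, hμ]; ring⟩
  obtain ⟨k, hk⟩ := hLD.depth_sum
  have e₁ : (l - C.α) * x₁ + μ = y₁ - C.α * x₁ := by rw [hμ]; ring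
  have e₂ : (l - C.α) * x₂ + μ = y₂ - C.α * x₂ := by rw [hμ, hy₂]; ring
  have e₃ : (l - C.α) * x₃ + μ = y₃ - C.α * x₃ := by rw [hμ, hy₃]; ring
  rw [e₁, e₂, e₃] at hk
  obtain ⟨k', hk'⟩ := hM.depthPt_neg (Point.some x₃ y₃ h₃)
  rw [hadd, hk', depthPt_some, depthPt_some, depthPt_some]
  refine ⟨k' - k, ?_⟩
  push_cast
  linarith

/-- multiples -/
theorem IsModel.depthPt_nsmul {W : Affine K} (hM : C.IsModel W) (P : W.Point) (m : ℕ)
    (hint : ∀ j : ℕ, j ≤ m → IntegralPt A (j • P)) :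
    ∃ k : ℤ, C.depthPt (m • P) = m * C.depthPt P + k * C.n := by
  induction m with
  | zero => exact ⟨0, by simp⟩
  | succ m ih =>
    obtain ⟨k, hk⟩ := ih (fun j hj => hint j (Nat.le_succ_of_le hj))
    have h1 := hint m (Nat.le_succ m)
    have h2 := hint 1 (by omega)
    rw [one_smul] at h2
    have h3 := hint (m + 1) le_rfl
    rw [succ_nsmul] at h3 ⊢
    obtain ⟨k', hk'⟩ := hM.depthPt_add (m • P) P h1 h2 h3
    rw [hk', hk]
    exact ⟨k + k', by push_cast; ring⟩

/-- **Torsion points near the node**: their depth lies in `(n/p) ℤ`, and they are not on the middle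
component. `hR1` = the kernel of reduction has no `p`-torsion. -/
theorem IsModel.torsion_near_node {W : Affine K} (hM : C.IsModel W) {p : ℕ} (hp : p.Prime)
    (hp2 : p ≠ 2)
    (hR1 : ∀ {x y : K} (h : W.Nonsingular x y), p • Point.some x y h = 0 → x ∈ A ∧ y ∈ A)
    {x y : K} (h : W.Nonsingular x y) (ht : p • Point.some x y h = 0) (hx : x ∈ A.nonunits) :
    x ≠ 0 ∧ y ≠ 0 ∧ C.L.w y = C.L.w x ∧ 2 * C.L.w x < C.n ∧
      ∃ m : ℤ, (p : ℚ) * C.L.w x = m * C.n := by
  have hn := C.n_pos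
  -- all multiples are integral
  have hint : ∀ j : ℕ, j ≤ p → IntegralPt A (j • Point.some x y h) := by
    intro j _
    have hj : p • (j • Point.some x y h) = 0 := by
      rw [smul_comm, ht, smul_zero]
    rcases hQ : j • Point.some x y h with _ | ⟨x', y', h'⟩
    · trivial
    · rw [hQ] at hj
      exact hR1 h' hj
  obtain ⟨k, hk⟩ := hM.depthPt_nsmul (Point.some x y h) p hint
  rw [ht, depthPt_zero, depthPt_some] at hk
  have hN := hM.nearPt h.1 hx
  have hpodd : Odd p := hp.odd_of_ne_two hp2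
  have h2y : ∀ a b : K, a = y - C.α * x → b = y + C.α * x → 2 * y = b + a := by
    intro a b ha hb; rw [ha, hb]; ring
  have ydone : ∀ z : K, z ≠ 0 → C.L.w z = C.L.w x → 2 * y = z → y ≠ 0 ∧ C.L.w y = C.L.w x := by
    intro z hz hwz h2
    have hy0 : y ≠ 0 := by
      rintro rfl
      rw [mul_zero] at h2
      exact hz h2.symm
    refine ⟨hy0, ?_⟩
    have := C.L.map_mul C.two_ne hy0
    rw [h2, hwz, C.two_unit, zero_add] at this
    exact this.symm
  rcases hN.classify with hc | hc | hc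
  · -- middle component: impossible for odd `p`
    exfalso
    rw [hc.depth_eq hx] at hk
    obtain ⟨j, rfl⟩ := hpodd
    have h1 : ((2 * j + 1 : ℕ) : ℚ) * (C.n / 2) + k * C.n = 0 := by linarith
    have h2 : ((2 * (j : ℤ) + 1 + 2 * k : ℤ) : ℚ) * C.n = 0 := by
      push_cast at h1 ⊢
      linarith
    rcases mul_eq_zero.mp h2 with h3 | h3
    · have h4 : (2 * (j : ℤ) + 1 + 2 * k : ℤ) = 0 := by exact_mod_cast h3
      omega
    · linarith
  · rw [hc.depth_eq hx] at hk
    obtain ⟨hb0, hwb⟩ := C.L.map_add_of_gt hc.hb (by rw [hc.hwb]; exact hc.ha)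
    rw [hc.hwb] at hwb
    obtain ⟨hy0, hwy⟩ := ydone _ hb0 hwb (h2y _ _ rfl rfl)
    exact ⟨hc.hx0, hy0, hwy, hc.hx, -k, by push_cast; linarith⟩
  · rw [hc.depth_eq hx] at hk
    obtain ⟨ha0, hwa⟩ := C.L.map_add_of_gt' hc.ha (by rw [hc.hwa]; exact hc.hb)
    rw [hc.hwa] at hwa
    obtain ⟨hy0, hwy⟩ := ydone _ ha0 hwa (h2y _ _ rfl rfl)
    exact ⟨hc.hx0, hy0, hwy, hc.hx, (p : ℤ) + k, by push_cast; linarith⟩

/-- **Chord trick near the node**: two `p`-torsion points which are close to each other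
coincide. -/
theorem IsModel.eq_of_close {W : Affine K} (hM : C.IsModel W) {p : ℕ}
    (hR1 : ∀ {x y : K} (h : W.Nonsingular x y), p • Point.some x y h = 0 → x ∈ A ∧ y ∈ A)
    {x y x' y' : K} (h : W.Nonsingular x y) (h' : W.Nonsingular x' y')
    (ht : p • Point.some x y h = 0) (ht' : p • Point.some x' y' h' = 0)
    (hx0 : x ≠ 0) (hy0 : y ≠ 0) (hwy : C.L.w y = C.L.w x) (hxA : x ∈ A) (hx'A : x' ∈ A)
    (hcx : C.L.Gt (C.L.w x) (x' - x)) (hcy : C.L.Gt (C.L.w y) (y' - y)) :
    Point.some x' y' h' = Point.some x y h := by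
  by_cases hxx : x' = x
  · subst hxx
    rcases Y_eq_of_X_eq h'.1 h.1 rfl with hyy | hyy
    · subst hyy; rfl
    · exfalso
      rw [hM.negY] at hyy
      have e : y' - y = -(2 * y) := by rw [hyy]; ring
      rw [e] at hcy
      have := hcy.lt (neg_ne_zero.mpr (mul_ne_zero C.two_ne hy0))
      rw [C.L.map_neg, C.L.map_mul C.two_ne hy0, C.two_unit] at this
      linarith
  exfalso
  -- the chord through `P'` and `-P`
  have hne : ¬ (x' = x ∧ y' = W.negY x (W.negY x y)) := fun hh => hxx hh.1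
  have hsum := Point.add_some (h₁ := h') (h₂ := (nonsingular_neg ..).mpr h) hne
  have htors : p • (Point.some x' y' h' + -Point.some x y h) = 0 := by
    rw [smul_add, smul_neg, ht, ht', neg_zero, add_zero]
  rw [Point.neg_some, hsum] at htors
  obtain ⟨hXA, -⟩ := hR1 _ htors
  -- but the abscissa is not integral
  set l := W.slope x' x y' (W.negY x y) with hl
  have hlv : l = (y' + y) / (x' - x) := by
    rw [hl, slope_of_X_ne hxx, hM.negY]; ring
  have hd0 : x' - x ≠ 0 := sub_ne_zero.mpr hxx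
  have hwd := hcx.lt hd0
  have hnum : y' + y ≠ 0 ∧ C.L.w (y' + y) = C.L.w y := by
    have e : y' + y = 2 * y + (y' - y) := by ring
    rw [e]
    have h2y : C.L.w (2 * y) = C.L.w y := by rw [C.L.map_mul C.two_ne hy0, C.two_unit, zero_add]
    have := C.L.map_add_of_gt (mul_ne_zero C.two_ne hy0) (by rw [h2y]; exact hcy)
    rwa [h2y] at this
  have hl0 : l ≠ 0 := by rw [hlv]; exact div_ne_zero hnum.1 hd0
  have hwl : C.L.w l < 0 := by
    rw [hlv, C.L.map_div hnum.1 hd0, hnum.2]; linarith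
  have hX : W.addX x' x l = l ^ 2 + (-(C.α ^ 2) - x' - x) := by
    simp only [Affine.addX, hM.a₁, hM.a₂]; ring
  have hrest : C.L.Ge 0 (-(C.α ^ 2) - x' - x) :=
    LogVal.ge_zero_iff.mpr (sub_mem (sub_mem (neg_mem (A.pow_mem α_mem 2)) hx'A) hxA)
  have hl2 : C.L.w (l ^ 2) = 2 * C.L.w l := by rw [C.L.map_pow hl0]; norm_num
  have := C.L.map_add_of_gt (pow_ne_zero 2 hl0)
    (hrest.gt_of_lt (by rw [hl2]; linarith) : C.L.Gt (C.L.w (l ^ 2)) _)
  rw [← hX, hl2] at this
  have hnn := C.L.nonneg_of_mem this.1 hXA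
  linarith

end NodeCtx

end Fermat.Agent.Tate
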