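import Mathlib
import Fermat.Agent.Tate.NodeLine

set_option autoImplicit false

/-!
# Nonsingular reduction of integral points

* `not_partials_mem_of_Δ`: if `W` has integral coefficients and `Δ ∉ 𝔪` (good reduction), then
  every integral point has nonsingular reduction: the two partial derivatives are not both in `𝔪`.
* `not_partials_mem_of_node`: on `y² = x³ + c x² + a₄ x + a₆` with `c` a unit, `2` a unit,
  `a₄ ∈ 𝔪`, an integral point with `x ∉ 𝔪` has nonsingular reduction.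
-/

namespace Fermat.Agent.Tate

open WeierstrassCurve

variable {K : Type*} [Field K] {A : ValuationSubring K}

/-- if `a₆ = 0` and `a₃, a₄ ∈ 𝔪` (the origin is a singular point of the reduction),
then `Δ ∈ 𝔪` -/
theorem Δ_mem_nonunits_of_a₆_eq_zero {W : WeierstrassCurve K} (h1 : W.a₁ ∈ A) (h2 : W.a₂ ∈ A)
    (h3 : W.a₃ ∈ A.nonunits) (h4 : W.a₄ ∈ A.nonunits) (h6 : W.a₆ = 0) : W.Δ ∈ A.nonunits := by
  have h3A : W.a₃ ∈ A := A.nonunits_le h3
  have h4A : W.a₄ ∈ A := A.nonunits_le h4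
  have key : W.Δ = W.a₃ * ((W.a₁ ^ 2 + 4 * W.a₂) ^ 2 * (W.a₁ * W.a₄ - W.a₂ * W.a₃)
        - 8 * W.a₁ * (2 * W.a₄ + W.a₁ * W.a₃) ^ 2 - 27 * W.a₃ ^ 3
        + 9 * (W.a₁ ^ 2 + 4 * W.a₂) * (2 * W.a₄ + W.a₁ * W.a₃) * W.a₃)
      + W.a₄ * ((W.a₁ ^ 2 + 4 * W.a₂) ^ 2 * W.a₄ - 16 * (2 * W.a₄ + W.a₁ * W.a₃) ^ 2) := by
    simp only [Δ, b₂, b₄, b₆, b₈, h6]; ring
  have hn : ∀ n : ℕ, (n : K) ∈ A := fun n => natCast_mem A n
  have h27 : (27 : K) ∈ A := by exact_mod_cast hn 27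
  have h16 : (16 : K) ∈ A := by exact_mod_cast hn 16
  have h9 : (9 : K) ∈ A := by exact_mod_cast hn 9
  have h8 : (8 : K) ∈ A := by exact_mod_cast hn 8
  have h4' : (4 : K) ∈ A := by exact_mod_cast hn 4
  have h2' : (2 : K) ∈ A := by exact_mod_cast hn 2
  have hb2 : W.a₁ ^ 2 + 4 * W.a₂ ∈ A := add_mem (pow_mem h1 2) (mul_mem h4' h2)
  have hu : 2 * W.a₄ + W.a₁ * W.a₃ ∈ A := add_mem (mul_mem h2' h4A) (mul_mem h1 h3A)
  rw [key]
  refine A.nonunits.add_mem (mul_mem_nonunits_left h3 ?_) (mul_mem_nonunits_left h4 ?_)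
  · refine add_mem (sub_mem (sub_mem ?_ ?_) ?_) ?_
    · exact mul_mem (pow_mem hb2 2) (sub_mem (mul_mem h1 h4A) (mul_mem h2 h3A))
    · exact mul_mem (mul_mem h8 h1) (pow_mem hu 2)
    · exact mul_mem h27 (pow_mem h3A 3)
    · exact mul_mem (mul_mem (mul_mem h9 hb2) hu) h3A
  · exact sub_mem (mul_mem (pow_mem hb2 2) h4A) (mul_mem h16 (pow_mem hu 2))

/-- **good reduction**: if the coefficients of `W` are integral and `Δ ∉ 𝔪`, every integral
point of `W` has nonsingular reduction. -/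
theorem not_partials_mem_of_Δ {W : Affine K} (h1 : W.a₁ ∈ A) (h2 : W.a₂ ∈ A)
    (hΔ : W.Δ ∉ A.nonunits) {x y : K} (hx : x ∈ A) (h : W.Equation x y) :
    ¬ (3 * x ^ 2 + 2 * W.a₂ * x + W.a₄ - W.a₁ * y ∈ A.nonunits ∧
      2 * y + W.a₁ * x + W.a₃ ∈ A.nonunits) := by
  rintro ⟨hX, hY⟩
  apply hΔ
  have hn : ∀ n : ℕ, (n : K) ∈ A := fun n => natCast_mem A n
  have h3' : (3 : K) ∈ A := by exact_mod_cast hn 3
  have hΔ' : (VariableChange.mk 1 x 0 y • W).Δ = W.Δ := by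
    rw [variableChange_Δ, inv_one, Units.val_one, one_pow, one_mul]
  rw [← hΔ']
  have h6 : (VariableChange.mk 1 x 0 y • W).a₆ = 0 :=
    Affine.equation_zero.mp ((Affine.equation_iff_variableChange x y).mp h)
  refine Δ_mem_nonunits_of_a₆_eq_zero ?_ ?_ ?_ ?_ h6
  · rw [variableChange_a₁]
    simpa using h1
  · rw [variableChange_a₂]
    have : W.a₂ + 3 * x ∈ A := add_mem h2 (mul_mem h3' hx)
    simpa using this
  · rw [variableChange_a₃]
    have e : (1 : Kˣ)⁻¹.val ^ 3 * (W.a₃ + x * W.a₁ + 2 * y) = 2 * y + W.a₁ * x + W.a₃ := by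
      simp; ring
    rw [e]; exact hY
  · rw [variableChange_a₄]
    have e : (1 : Kˣ)⁻¹.val ^ 4 * (W.a₄ - 0 * W.a₃ + 2 * x * W.a₂ - (y + x * 0) * W.a₁ + 3 * x ^ 2
        - 2 * 0 * y) = 3 * x ^ 2 + 2 * W.a₂ * x + W.a₄ - W.a₁ * y := by
      simp; ring
    rw [e]; exact hX

/-- **nodal model**: on `y² = x³ + c x² + a₄ x + a₆` with `c` and `2` units and `a₄, a₆ ∈ 𝔪`,
an integral point with `x ∉ 𝔪` has nonsingular reduction. -/
theorem not_partials_mem_of_node {W : Affine K} (h1 : W.a₁ = 0) (h3 : W.a₃ = 0)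
    (hc : W.a₂ ∈ A) (h2 : (2 : K) ∉ A.nonunits)
    (h4 : W.a₄ ∈ A.nonunits) (h6 : W.a₆ ∈ A.nonunits) {x y : K} (hx : x ∈ A) (hy : y ∈ A)
    (hx' : x ∉ A.nonunits) (h : W.Equation x y) :
    ¬ (3 * x ^ 2 + 2 * W.a₂ * x + W.a₄ - W.a₁ * y ∈ A.nonunits ∧
      2 * y + W.a₁ * x + W.a₃ ∈ A.nonunits) := by
  rintro ⟨hX, hY⟩
  rw [h1, h3] at hY
  rw [h1] at hX
  rw [Affine.equation_iff, h1, h3] at h
  have hn : ∀ n : ℕ, (n : K) ∈ A := fun n => natCast_mem A n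
  have h3' : (3 : K) ∈ A := by exact_mod_cast hn 3
  have h2' : (2 : K) ∈ A := by exact_mod_cast hn 2
  have h4A : W.a₄ ∈ A := A.nonunits_le h4
  -- `x (3x + 2c) ∈ 𝔪`, so `3x + 2c ∈ 𝔪`
  have e1 : x * (3 * x + 2 * W.a₂) ∈ A.nonunits := by
    have : x * (3 * x + 2 * W.a₂) = (3 * x ^ 2 + 2 * W.a₂ * x + W.a₄ - 0 * y) - W.a₄ := by ring
    rw [this]; exact A.nonunits.sub_mem hX h4
  have e2 : 3 * x + 2 * W.a₂ ∈ A.nonunits := by
    rcases mem_nonunits_of_mul_mem hx (add_mem (mul_mem h3' hx) (mul_mem h2' hc)) e1 with h | h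
    · exact absurd h hx'
    · exact h
  -- `2y ∈ 𝔪` so `y ∈ 𝔪`
  have e3 : y ∈ A.nonunits := by
    have : 2 * y ∈ A.nonunits := by simpa using hY
    rcases mem_nonunits_of_mul_mem h2' hy this with h | h
    · exact absurd h h2
    · exact h
  -- `x² (x + c) ∈ 𝔪` so `x + c ∈ 𝔪`
  have e4 : x ^ 2 * (x + W.a₂) ∈ A.nonunits := by
    have : x ^ 2 * (x + W.a₂) = y * y - W.a₄ * x - W.a₆ := by linear_combination -h
    rw [this]
    exact A.nonunits.sub_mem (A.nonunits.sub_mem (mul_mem_nonunits_left e3 hy)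
      (mul_mem_nonunits_left h4 hx)) h6
  have e5 : x + W.a₂ ∈ A.nonunits := by
    rcases mem_nonunits_of_mul_mem (pow_mem hx 2) (add_mem hx hc) e4 with h | h
    · exact absurd (mem_nonunits_of_pow_mem h) hx'
    · exact h
  apply hx'
  have : x = (3 * x + 2 * W.a₂) - 2 * (x + W.a₂) := by ring
  rw [this]
  exact A.nonunits.sub_mem e2 (mul_mem_nonunits_right h2' e5)

end Fermat.Agent.Tate
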