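import Mathlib
import Fermat.Prelude.Def_FLTPrelim_GaloisRep
import Fermat.Agent.Tate.NodeTorsion
import Fermat.Agent.Tate.Chord
import Fermat.Agent.Tate.NonsingRed

set_option autoImplicit false
set_option linter.unusedSectionVars false

/-!
# Inertia acts trivially on the `p`-torsion of a nodal model with `p ∣ w(a₆)/2`

`galois_fix_of_node`: on the nodal model `y² = x³ + α² x² + a₄ x + a₆` with `n = w a₆ = 2 p k`
(`w π = 1`), an automorphism `σ` fixing `π`, stabilising `A` and acting trivially modulo `𝔪` fixes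
every `p`-torsion point, provided the kernel of reduction has no `p`-torsion (`hR1`).

`galois_fix_of_good`: the same for a curve with good reduction.
-/

namespace Fermat.Agent.Tate

open WeierstrassCurve WeierstrassCurve.Affine
open scoped WeierstrassCurve.Affine

variable {K : Type*} [Field K] {A : ValuationSubring K}

/-- an element whose valuation is an integer (multiple of the valuation of an element fixed by
`σ`) is moved by `σ` by strictly less than its size -/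
theorem LogVal.gt_of_inertia (L : LogVal A) {π : K} (hπ0 : π ≠ 0) (hπ : L.w π = 1)
    {σ : K →+* K} (hσπ : σ π = π) (hσ : ∀ a ∈ A, σ a - a ∈ A.nonunits)
    {x : K} (hx0 : x ≠ 0) {j : ℤ} (hj : L.w x = j) : L.Gt (L.w x) (σ x - x) := by
  have hπj : π ^ j ≠ 0 := zpow_ne_zero j hπ0
  have hwπj : L.w (π ^ j) = j := by rw [L.map_zpow hπ0, hπ, mul_one]
  set ε := x / π ^ j with hε
  have hε0 : ε ≠ 0 := div_ne_zero hx0 hπj
  have hwε : L.w ε = 0 := by rw [hε, L.map_div hx0 hπj, hwπj, hj, sub_self]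
  have hεA : ε ∈ A := L.mem_of_nonneg (Or.inr hwε.ge)
  have hx : x = π ^ j * ε := by rw [hε]; field_simp
  have hσx : σ x - x = π ^ j * (σ ε - ε) := by
    conv_lhs => rw [hx, _root_.map_mul, _root_.map_zpow₀, hσπ]
    ring
  rw [hσx, hj]
  have h1 : L.Ge (j : ℚ) (π ^ j) := Or.inr hwπj.ge
  have h2 : L.Gt 0 (σ ε - ε) := LogVal.gt_zero_iff.mpr (hσ ε hεA)
  have := h1.mul_gt h2
  rwa [add_zero] at this

section Galois

variable [DecidableEq K] {R : Type*} {S : Type*} [CommRing R] [CommRing S] [Algebra R S]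
  [Algebra R K] [Algebra S K] [IsScalarTower R S K]

theorem smul_some {W' : Affine R} (σ : K ≃ₐ[S] K) {x y : K} (h : (W'⁄K).Nonsingular x y) :
    σ • Point.some x y h = Point.some (σ x) (σ y)
      ((W'.baseChange_nonsingular σ.toAlgHom.injective ..).mpr h) := rfl

theorem nsmul_smul_eq_zero {W' : Affine R} (σ : K ≃ₐ[S] K) {p : ℕ} {Q : (W'⁄K).Point}
    (hQ : p • Q = 0) : p • (σ • Q) = 0 := by
  rw [Point.algEquiv_smul_def, ← map_nsmul, hQ, map_zero]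

/-- **bad (nodal) case** -/
theorem galois_fix_of_node (W' : Affine R) (C : NodeCtx K A) (hM : C.IsModel (W'⁄K))
    {p : ℕ} (hp : p.Prime) (hp2 : p ≠ 2)
    (hR1 : ∀ {x y : K} (h : (W'⁄K).Nonsingular x y), p • Point.some x y h = 0 → x ∈ A ∧ y ∈ A)
    {π : K} (hπ0 : π ≠ 0) (hπ : C.L.w π = 1) (k : ℕ) (hn : C.n = 2 * p * k)
    (σ : K ≃ₐ[S] K) (hσπ : σ π = π) (hσ : ∀ a ∈ A, σ a ∈ A ∧ σ a - a ∈ A.nonunits)
    (Q : (W'⁄K).Point) (hQ : p • Q = 0) : σ • Q = Q := by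
  rcases Q with _ | ⟨x, y, h⟩
  · rfl
  have hσQ := nsmul_smul_eq_zero σ hQ
  rw [smul_some] at hσQ ⊢
  obtain ⟨hxA, hyA⟩ := hR1 h hQ
  have hp0 : (p : ℚ) ≠ 0 := Nat.cast_ne_zero.mpr hp.ne_zero
  have hσ' : ∀ a ∈ A, (σ : K →+* K) a - a ∈ A.nonunits := fun a ha => (hσ a ha).2
  by_cases hx : x ∈ A.nonunits
  · -- near the node
    obtain ⟨hx0, hy0, hwy, -, m, hm⟩ := hM.torsion_near_node hp hp2 hR1 h hQ hx
    have hj : C.L.w x = ((2 * m * k : ℤ) : ℚ) := by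
      rw [hn] at hm
      have : (p : ℚ) * C.L.w x = p * (2 * m * k) := by rw [hm]; ring
      have := mul_left_cancel₀ hp0 this
      rw [this]; push_cast; ring
    have hcx : C.L.Gt (C.L.w x) (σ x - x) :=
      C.L.gt_of_inertia hπ0 hπ (σ := (σ : K →+* K)) hσπ hσ' hx0 hj
    have hcy : C.L.Gt (C.L.w y) (σ y - y) :=
      C.L.gt_of_inertia hπ0 hπ (σ := (σ : K →+* K)) hσπ hσ' hy0 (hwy.trans hj)
    exact hM.eq_of_close hR1 h _ hQ hσQ hx0 hy0 hwy hxA (hσ x hxA).1 hcx hcy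
  · -- away from the node: nonsingular reduction
    have h2 : (2 : K) ∉ A.nonunits := by
      intro h2
      have := C.L.pos_of_mem_nonunits C.two_ne h2
      rw [C.two_unit] at this
      exact lt_irrefl _ this
    have ha₂ : (W'⁄K).a₂ ∈ A := by rw [hM.a₂]; exact pow_mem C.α_mem 2
    have hred := not_partials_mem_of_node hM.a₁ hM.a₃ ha₂ h2
      (by rw [hM.a₄]; exact C.a₄_mem) (by rw [hM.a₆]; exact C.a₆_mem) hxA hyA hx h.1
    exact eq_of_nonsingular_red (by rw [hM.a₁]; exact A.zero_mem) ha₂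
      (by rw [hM.a₃]; exact A.zero_mem) hR1 (hp.odd_of_ne_two hp2) h _ hxA hyA
      (hσ x hxA).2 (hσ y hyA).2 hred hQ hσQ

/-- **bad (nodal) case**, from the explicit normal form `y² = (x² - d²)(x + c)` with `c = α²` a
unit and `d = π^(p k) · unit` -/
theorem galois_fix_of_nodal_form (W' : Affine R) (L : LogVal A) {π : K} (hπ0 : π ≠ 0)
    (hπ : L.w π = 1) {α c d : K} (hα : α ^ 2 = c)
    (h1 : (W'⁄K).a₁ = 0) (h2 : (W'⁄K).a₂ = c) (h3 : (W'⁄K).a₃ = 0) (h4 : (W'⁄K).a₄ = -d ^ 2)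
    (h6 : (W'⁄K).a₆ = -d ^ 2 * c) (hcA : c ∈ A) (hcu : c ∉ A.nonunits)
    (two_ne : (2 : K) ≠ 0) (h2u : (2 : K) ∉ A.nonunits)
    {p : ℕ} (hp : p.Prime) (hp2 : p ≠ 2) {k : ℕ} (hk : 0 < k) {d' : K} (hd'A : d' ∈ A)
    (hd'u : d' ∉ A.nonunits) (hd : d = π ^ (p * k) * d')
    (hR1 : ∀ {x y : K} (h : (W'⁄K).Nonsingular x y), p • Point.some x y h = 0 → x ∈ A ∧ y ∈ A)
    (σ : K ≃ₐ[S] K) (hσπ : σ π = π) (hσ : ∀ a ∈ A, σ a ∈ A ∧ σ a - a ∈ A.nonunits)
    (Q : (W'⁄K).Point) (hQ : p • Q = 0) : σ • Q = Q := by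
  have hc0 : c ≠ 0 := by rintro rfl; exact hcu A.nonunits.zero_mem
  have hd'0 : d' ≠ 0 := by rintro rfl; exact hd'u A.nonunits.zero_mem
  have hα0 : α ≠ 0 := by rintro rfl; exact hc0 (by rw [← hα]; ring)
  have hπpk : π ^ (p * k) ≠ 0 := pow_ne_zero _ hπ0
  have hd0 : d ≠ 0 := by rw [hd]; exact mul_ne_zero hπpk hd'0
  have hwc : L.w c = 0 := L.eq_zero_of_unit hcA hcu
  have hwd' : L.w d' = 0 := L.eq_zero_of_unit hd'A hd'u
  have hwα : L.w α = 0 := by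
    have : L.w (α ^ 2) = 0 := by rw [hα]; exact hwc
    rw [L.map_pow hα0] at this
    push_cast at this
    linarith
  have hwd : L.w d = p * k := by
    rw [hd, L.map_mul hπpk hd'0, L.map_pow hπ0, hπ, hwd']
    push_cast; ring
  have hd2 : d ^ 2 ≠ 0 := pow_ne_zero 2 hd0
  have hwd2 : L.w (-d ^ 2) = 2 * p * k := by
    rw [L.map_neg, L.map_pow hd0, hwd]; push_cast; ring
  have hw6 : L.w (-d ^ 2 * c) = 2 * p * k := by
    rw [L.map_mul (neg_ne_zero.mpr hd2) hc0, hwd2, hwc, add_zero]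
  have hpos : (0 : ℚ) < 2 * p * k := by
    have : (0 : ℚ) < p := Nat.cast_pos.mpr hp.pos
    have : (0 : ℚ) < k := Nat.cast_pos.mpr hk
    positivity
  let C : NodeCtx K A :=
    { L := L
      α := α
      a₄ := -d ^ 2
      a₆ := -d ^ 2 * c
      α_ne := hα0
      α_unit := hwα
      two_ne := two_ne
      two_unit := L.eq_zero_of_unit (by exact_mod_cast natCast_mem A 2) h2u
      a₆_ne := mul_ne_zero (neg_ne_zero.mpr hd2) hc0
      a₆_pos := by rw [hw6]; exact hpos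
      a₄_le := Or.inr (by rw [hw6, hwd2]) }
  have hM : C.IsModel (W'⁄K) :=
    { a₁ := h1
      a₂ := by rw [h2]; exact hα.symm
      a₃ := h3
      a₄ := h4
      a₆ := h6 }
  exact galois_fix_of_node W' C hM hp hp2 hR1 hπ0 hπ k hw6 σ hσπ hσ Q hQ

/-- **good case** -/
theorem galois_fix_of_good (W' : Affine R) (ha₁ : (W'⁄K).a₁ ∈ A) (ha₂ : (W'⁄K).a₂ ∈ A)
    (ha₃ : (W'⁄K).a₃ ∈ A) (hΔ : (W'⁄K).Δ ∉ A.nonunits)
    {p : ℕ} (hpodd : Odd p)
    (hR1 : ∀ {x y : K} (h : (W'⁄K).Nonsingular x y), p • Point.some x y h = 0 → x ∈ A ∧ y ∈ A)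
    (σ : K ≃ₐ[S] K) (hσ : ∀ a ∈ A, σ a ∈ A ∧ σ a - a ∈ A.nonunits)
    (Q : (W'⁄K).Point) (hQ : p • Q = 0) : σ • Q = Q := by
  rcases Q with _ | ⟨x, y, h⟩
  · rfl
  have hσQ := nsmul_smul_eq_zero σ hQ
  rw [smul_some] at hσQ ⊢
  obtain ⟨hxA, hyA⟩ := hR1 h hQ
  have hred := not_partials_mem_of_Δ ha₁ ha₂ hΔ hxA h.1
  exact eq_of_nonsingular_red ha₁ ha₂ ha₃ hR1 hpodd h _ hxA hyA
    (hσ x hxA).2 (hσ y hyA).2 hred hQ hσQ

end Galois

end Fermat.Agent.Tate
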