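import Mathlib
import Fermat.Prelude.Def_FLTPrelim_FreyPackage
import Fermat.Agent.Tate.LogValExists

set_option autoImplicit false

/-!
# (P3) Frey specifics for the elementary route to S05

* (F0) integers / rationals prime to `q` in a valuation subring over `q`;
* (F1) the Frey curve has coefficients in `A` for `q` odd;
* (F2) good case: the discriminant is a unit at `q`;
* (F3) bad case: the centred nodal model `Y² = (X² - d²)(X + c)`.
-/

namespace Fermat.Agent.Tate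

open WeierstrassCurve

section F0

variable {K : Type*} [Field K] [CharZero K] (A : ValuationSubring K)
  {q : ℕ} (hq : q.Prime) (hqA : (q : K) ∈ A.nonunits)

include hq hqA

theorem intCast_notMem_nonunits {z : ℤ} (hz : ¬ (q : ℤ) ∣ z) : (z : K) ∉ A.nonunits := by
  rw [A.mem_nonunits_iff, val_intCast_eq_one A hq hqA hz]
  exact lt_irrefl 1

theorem inv_intCast_mem {z : ℤ} (hz : ¬ (q : ℤ) ∣ z) : ((z : K))⁻¹ ∈ A := by
  rw [← A.valuation_le_one_iff, map_inv₀, val_intCast_eq_one A hq hqA hz, inv_one]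

theorem inv_intCast_notMem_nonunits {z : ℤ} (hz : ¬ (q : ℤ) ∣ z) :
    ((z : K))⁻¹ ∉ A.nonunits := by
  rw [A.mem_nonunits_iff, map_inv₀, val_intCast_eq_one A hq hqA hz, inv_one]
  exact lt_irrefl 1

omit hq [CharZero K] in
theorem intCast_mem_nonunits {z : ℤ} (hz : (q : ℤ) ∣ z) : (z : K) ∈ A.nonunits := by
  obtain ⟨w, rfl⟩ := hz
  rw [A.mem_nonunits_iff] at hqA ⊢
  push_cast
  rw [map_mul]
  have hw : A.valuation (w : K) ≤ 1 := (A.valuation_le_one_iff _).mpr (intCast_mem A w)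
  exact mul_lt_one_of_lt_of_le hqA hw

theorem natCast_notMem_nonunits {n : ℕ} (hn : ¬ q ∣ n) : (n : K) ∉ A.nonunits := by
  have := intCast_notMem_nonunits A hq hqA (z := (n : ℤ)) (by exact_mod_cast hn)
  simpa using this

theorem inv_natCast_mem {n : ℕ} (hn : ¬ q ∣ n) : ((n : K))⁻¹ ∈ A := by
  have := inv_intCast_mem A hq hqA (z := (n : ℤ)) (by exact_mod_cast hn)
  simpa using this

/-- (F4) a prime `p ≠ q` is a unit of `A`. -/
theorem prime_cast_mem_and_inv_mem {p : ℕ} (hp : p.Prime) (hqp : q ≠ p) :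
    (p : K) ∈ A ∧ ((p : K))⁻¹ ∈ A :=
  ⟨natCast_mem A p, inv_natCast_mem A hq hqA
    (fun h => hqp ((Nat.prime_dvd_prime_iff_eq hq hp).mp h))⟩

/-- (F4) `2` is a unit of `A` for `q` odd. -/
theorem two_mem_and_inv_mem (hq2 : q ≠ 2) : (2 : K) ∈ A ∧ ((2 : K))⁻¹ ∈ A := by
  have := prime_cast_mem_and_inv_mem A hq hqA Nat.prime_two hq2
  simpa using this

/-- rationals with denominator prime to `q` are integral. -/
theorem ratCast_mem {r : ℚ} (hr : ¬ q ∣ r.den) : (r : K) ∈ A := by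
  have h : (r : K) = (r.num : K) * ((r.den : K))⁻¹ := by
    rw [← div_eq_mul_inv]; exact Rat.cast_def r
  rw [h]
  exact A.mul_mem _ _ (intCast_mem A _) (inv_natCast_mem A hq hqA hr)

/-- rationals with numerator and denominator prime to `q` are units. -/
theorem ratCast_notMem_nonunits {r : ℚ} (hn : ¬ (q : ℤ) ∣ r.num) (hr : ¬ q ∣ r.den) :
    (r : K) ∉ A.nonunits := by
  have h : (r : K) = (r.num : K) * ((r.den : K))⁻¹ := by
    rw [← div_eq_mul_inv]; exact Rat.cast_def r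
  rw [h, A.mem_nonunits_iff, map_mul, map_inv₀, val_intCast_eq_one A hq hqA hn]
  have := val_intCast_eq_one A hq hqA (c := (r.den : ℤ)) (by exact_mod_cast hr)
  push_cast at this
  rw [this]
  simp

end F0

section F0Alg

variable {K : Type*} [Field K] [Algebra ℚ K] (A : ValuationSubring K)
  {q : ℕ} (hq : q.Prime) (hqA : (q : K) ∈ A.nonunits)

include hq hqA

/-- `z / n` with `q ∤ n` is integral (in `algebraMap` form, as it appears in base changes). -/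
theorem algebraMap_intCast_div_natCast_mem (z : ℤ) {n : ℕ} (hn : ¬ q ∣ n) :
    algebraMap ℚ K ((z : ℚ) / (n : ℚ)) ∈ A := by
  have : CharZero K := algebraRat.charZero K
  rw [map_div₀, map_intCast, map_natCast, div_eq_mul_inv]
  exact A.mul_mem _ _ (intCast_mem A _) (inv_natCast_mem A hq hqA hn)

/-- `z / n` with `q ∤ z`, `q ∤ n` is a unit (in `algebraMap` form). -/
theorem algebraMap_intCast_div_natCast_notMem_nonunits {z : ℤ} (hz : ¬ (q : ℤ) ∣ z) {n : ℕ}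
    (hn : ¬ q ∣ n) : algebraMap ℚ K ((z : ℚ) / (n : ℚ)) ∉ A.nonunits := by
  have : CharZero K := algebraRat.charZero K
  rw [map_div₀, map_intCast, map_natCast, div_eq_mul_inv, A.mem_nonunits_iff, map_mul, map_inv₀,
    val_intCast_eq_one A hq hqA hz]
  have := val_intCast_eq_one A hq hqA (c := (n : ℤ)) (by exact_mod_cast hn)
  push_cast at this
  rw [this]
  simp

/-- `z / n` with `q ∣ z`, `q ∤ n` is a nonunit (in `algebraMap` form). -/
theorem algebraMap_intCast_div_natCast_mem_nonunits {z : ℤ} (hz : (q : ℤ) ∣ z) {n : ℕ}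
    (hn : ¬ q ∣ n) : algebraMap ℚ K ((z : ℚ) / (n : ℚ)) ∈ A.nonunits := by
  have : CharZero K := algebraRat.charZero K
  rw [map_div₀, map_intCast, map_natCast, div_eq_mul_inv, A.mem_nonunits_iff, map_mul, map_inv₀]
  have := val_intCast_eq_one A hq hqA (c := (n : ℤ)) (by exact_mod_cast hn)
  push_cast at this
  rw [this, inv_one, mul_one, ← A.mem_nonunits_iff]
  exact intCast_mem_nonunits A hqA hz

end F0Alg

/-! ### (F1), (F2): the Frey curve at an odd prime -/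

section Frey

variable (P : FreyPackage)

/-- the discriminant of the Frey curve. -/
theorem freyCurve_Δ :
    P.freyCurve.Δ = ((P.a * P.b * P.c : ℤ) : ℚ) ^ (2 * P.p) / 2 ^ 8 := by
  have h : (P.a : ℚ) ^ P.p + (P.b : ℚ) ^ P.p = (P.c : ℚ) ^ P.p := by exact_mod_cast P.hFLT
  simp only [WeierstrassCurve.Δ, WeierstrassCurve.b₂, WeierstrassCurve.b₄, WeierstrassCurve.b₆,
    WeierstrassCurve.b₈, FreyPackage.freyCurve]
  push_cast
  rw [mul_pow, mul_pow, pow_mul', pow_mul', pow_mul', ← h]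
  ring

theorem freyCurve_Δ' :
    P.freyCurve.Δ = (((P.a * P.b * P.c) ^ (2 * P.p) : ℤ) : ℚ) / ((2 ^ 8 : ℕ) : ℚ) := by
  rw [freyCurve_Δ]; push_cast; rfl

variable {K : Type*} [Field K] [Algebra ℚ K] (A : ValuationSubring K)
  {q : ℕ} (hq : q.Prime) (hq2 : q ≠ 2) (hqA : (q : K) ∈ A.nonunits)

include hq hq2 hqA

omit hqA in
theorem not_dvd_two_pow (k : ℕ) : ¬ q ∣ 2 ^ k := by
  intro h
  have := (Nat.prime_dvd_prime_iff_eq hq Nat.prime_two).mp (hq.dvd_of_dvd_pow h)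
  exact hq2 this

omit hq hq2 hqA in
theorem freyCurve_a₁_mem : (P.freyCurve⁄K).a₁ ∈ A := by
  change algebraMap ℚ K 1 ∈ A
  rw [map_one]; exact A.one_mem

omit hq hq2 hqA in
theorem freyCurve_a₃_mem : (P.freyCurve⁄K).a₃ ∈ A := by
  change algebraMap ℚ K 0 ∈ A
  rw [map_zero]; exact A.zero_mem

omit hq hq2 hqA in
theorem freyCurve_a₆_mem : (P.freyCurve⁄K).a₆ ∈ A := by
  change algebraMap ℚ K 0 ∈ A
  rw [map_zero]; exact A.zero_mem

theorem freyCurve_a₂_mem : (P.freyCurve⁄K).a₂ ∈ A := by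
  change algebraMap ℚ K (((P.b : ℚ) ^ P.p - 1 - (P.a : ℚ) ^ P.p) / 4) ∈ A
  have := algebraMap_intCast_div_natCast_mem A hq hqA (P.b ^ P.p - 1 - P.a ^ P.p) (n := 2 ^ 2)
    (not_dvd_two_pow hq hq2 2)
  convert this using 2
  push_cast; norm_num

theorem freyCurve_a₄_mem : (P.freyCurve⁄K).a₄ ∈ A := by
  change algebraMap ℚ K (-((P.a : ℚ) ^ P.p) * ((P.b : ℚ) ^ P.p) / 16) ∈ A
  have := algebraMap_intCast_div_natCast_mem A hq hqA (-(P.a ^ P.p) * (P.b ^ P.p)) (n := 2 ^ 4)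
    (not_dvd_two_pow hq hq2 4)
  convert this using 2
  push_cast; norm_num

/-- (F2), integrality of the discriminant (always true for odd `q`). -/
theorem freyCurve_Δ_mem : (P.freyCurve⁄K).Δ ∈ A := by
  change (P.freyCurve.map (algebraMap ℚ K)).Δ ∈ A
  rw [WeierstrassCurve.map_Δ, freyCurve_Δ']
  exact algebraMap_intCast_div_natCast_mem A hq hqA _ (not_dvd_two_pow hq hq2 8)

/-- (F2), good case: the discriminant of the Frey curve is a unit at `q ∤ abc`. -/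
theorem freyCurve_Δ_notMem_nonunits (hgood : ¬ (q : ℤ) ∣ P.a * P.b * P.c) :
    (P.freyCurve⁄K).Δ ∉ A.nonunits := by
  change (P.freyCurve.map (algebraMap ℚ K)).Δ ∉ A.nonunits
  rw [WeierstrassCurve.map_Δ, freyCurve_Δ']
  refine algebraMap_intCast_div_natCast_notMem_nonunits A hq hqA ?_ (not_dvd_two_pow hq hq2 8)
  intro h
  exact hgood ((Nat.prime_iff_prime_int.mp hq).dvd_of_dvd_pow h)

/-- (F2), bad case: the discriminant of the Frey curve is a nonunit at `q ∣ abc`. -/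
theorem freyCurve_Δ_mem_nonunits (hbad : (q : ℤ) ∣ P.a * P.b * P.c) :
    (P.freyCurve⁄K).Δ ∈ A.nonunits := by
  change (P.freyCurve.map (algebraMap ℚ K)).Δ ∈ A.nonunits
  rw [WeierstrassCurve.map_Δ, freyCurve_Δ']
  refine algebraMap_intCast_div_natCast_mem_nonunits A hq hqA ?_ (not_dvd_two_pow hq hq2 8)
  exact dvd_pow hbad (by have := P.hp0; omega)

end Frey

/-! ### (F3): the centred nodal model in the bad case -/

section F3

/-- the change of variables `u = 1/2, r = ρ/4, s = -1/2, t = -ρ/8` bringing the Frey curve to the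
Legendre form `Y² = X (X - a^p) (X + b^p)` translated by `ρ`. -/
def freyVC (ρ : ℚ) : VariableChange ℚ :=
  ⟨⟨1 / 2, 2, by norm_num, by norm_num⟩, ρ / 4, -1 / 2, -ρ / 8⟩

variable (P : FreyPackage)

theorem freyVC_smul (ρ : ℚ) :
    freyVC ρ • P.freyCurve =
      ⟨0, ((P.b : ℚ) ^ P.p - (P.a : ℚ) ^ P.p) + 3 * ρ, 0,
        3 * ρ ^ 2 + 2 * ((P.b : ℚ) ^ P.p - (P.a : ℚ) ^ P.p) * ρ - (P.a : ℚ) ^ P.p * (P.b : ℚ) ^ P.p,
        ρ * (ρ - (P.a : ℚ) ^ P.p) * (ρ + (P.b : ℚ) ^ P.p)⟩ := by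
  have hu : ((freyVC ρ).u⁻¹ : ℚˣ) = ⟨2, 1 / 2, by norm_num, by norm_num⟩ := rfl
  ext
  · rw [variableChange_a₁, hu]
    simp only [freyVC, FreyPackage.freyCurve]
    ring
  · rw [variableChange_a₂, hu]
    simp only [freyVC, FreyPackage.freyCurve]
    ring
  · rw [variableChange_a₃, hu]
    simp only [freyVC, FreyPackage.freyCurve]
    ring
  · rw [variableChange_a₄, hu]
    simp only [freyVC, FreyPackage.freyCurve]
    ring
  · rw [variableChange_a₆, hu]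
    simp only [freyVC, FreyPackage.freyCurve]
    ring

/-- centred model, roots `a^p, 0` paired (`q ∣ a`). -/
theorem freyVC_smul_a :
    freyVC ((P.a : ℚ) ^ P.p / 2) • P.freyCurve =
      ⟨0, (P.a : ℚ) ^ P.p / 2 + (P.b : ℚ) ^ P.p, 0, -((P.a : ℚ) ^ P.p / 2) ^ 2,
        -((P.a : ℚ) ^ P.p / 2) ^ 2 * ((P.a : ℚ) ^ P.p / 2 + (P.b : ℚ) ^ P.p)⟩ := by
  rw [freyVC_smul]
  ext <;> simp only <;> ring

/-- centred model, roots `0, -b^p` paired (`q ∣ b`). -/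
theorem freyVC_smul_b :
    freyVC (-(P.b : ℚ) ^ P.p / 2) • P.freyCurve =
      ⟨0, -(P.b : ℚ) ^ P.p / 2 - (P.a : ℚ) ^ P.p, 0, -((P.b : ℚ) ^ P.p / 2) ^ 2,
        -((P.b : ℚ) ^ P.p / 2) ^ 2 * (-(P.b : ℚ) ^ P.p / 2 - (P.a : ℚ) ^ P.p)⟩ := by
  rw [freyVC_smul]
  ext <;> simp only <;> ring

/-- centred model, roots `a^p, -b^p` paired (`q ∣ c`). -/
theorem freyVC_smul_c :
    freyVC (((P.a : ℚ) ^ P.p - (P.b : ℚ) ^ P.p) / 2) • P.freyCurve =
      ⟨0, ((P.a : ℚ) ^ P.p - (P.b : ℚ) ^ P.p) / 2, 0, -((P.c : ℚ) ^ P.p / 2) ^ 2,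
        -((P.c : ℚ) ^ P.p / 2) ^ 2 * (((P.a : ℚ) ^ P.p - (P.b : ℚ) ^ P.p) / 2)⟩ := by
  have h : (P.a : ℚ) ^ P.p + (P.b : ℚ) ^ P.p = (P.c : ℚ) ^ P.p := by exact_mod_cast P.hFLT
  rw [freyVC_smul, ← h]
  ext <;> simp only <;> ring

end F3

section F3val

theorem exists_pow_mul_of_dvd {q : ℕ} (hq : q.Prime) {z : ℤ} (hz : z ≠ 0) (hqz : (q : ℤ) ∣ z) :
    ∃ k : ℕ, 0 < k ∧ ∃ z' : ℤ, z = (q : ℤ) ^ k * z' ∧ ¬ (q : ℤ) ∣ z' := by
  have hfin : FiniteMultiplicity (q : ℤ) z :=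
    Int.finiteMultiplicity_iff.mpr ⟨by simpa using hq.ne_one, hz⟩
  obtain ⟨c, hc, hnd⟩ := hfin.exists_eq_pow_mul_and_not_dvd
  refine ⟨multiplicity (q : ℤ) z, ?_, c, hc, hnd⟩
  rcases Nat.eq_zero_or_pos (multiplicity (q : ℤ) z) with h0 | h0
  · rw [h0, pow_zero, one_mul] at hc
    exact absurd (hc ▸ hqz) hnd
  · exact h0

theorem not_dvd_of_gcd_eq_one {q : ℕ} (hq : q.Prime) {x y : ℤ} (h : gcd x y = 1)
    (hx : (q : ℤ) ∣ x) : ¬ (q : ℤ) ∣ y := by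
  intro hy
  have h1 : (q : ℤ) ∣ gcd x y := dvd_gcd hx hy
  rw [h] at h1
  exact (Nat.prime_iff_prime_int.mp hq).not_isUnit (isUnit_of_dvd_one h1)

theorem not_dvd_of_gcd_eq_one' {q : ℕ} (hq : q.Prime) {x y : ℤ} (h : gcd x y = 1)
    (hy : (q : ℤ) ∣ y) : ¬ (q : ℤ) ∣ x := by
  intro hx
  exact not_dvd_of_gcd_eq_one hq h hx hy

variable {K : Type*} [Field K] [Algebra ℚ K] (A : ValuationSubring K)
  {q : ℕ} (hq : q.Prime) (hq2 : q ≠ 2) (hqA : (q : K) ∈ A.nonunits)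

include hq hq2 hqA

/-- for `z ≠ 0` divisible by `q`, `z ^ p / 2 = q ^ (p * k) * unit` with `k = ord_q z > 0`. -/
theorem exists_half_pow_eq {z : ℤ} (hz : z ≠ 0) (hqz : (q : ℤ) ∣ z) (p : ℕ) :
    ∃ k : ℕ, 0 < k ∧ ∃ d' : K, d' ∈ A ∧ d' ∉ A.nonunits ∧
      algebraMap ℚ K ((z : ℚ) ^ p / 2) = (q : K) ^ (p * k) * d' := by
  obtain ⟨k, hk, z', hzz', hz'⟩ := exists_pow_mul_of_dvd hq hz hqz
  have h2 : ¬ q ∣ 2 := by simpa using not_dvd_two_pow hq hq2 1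
  have hz'p : ¬ (q : ℤ) ∣ z' ^ p := fun h => hz' ((Nat.prime_iff_prime_int.mp hq).dvd_of_dvd_pow h)
  refine ⟨k, hk, algebraMap ℚ K (((z' ^ p : ℤ) : ℚ) / ((2 : ℕ) : ℚ)),
    algebraMap_intCast_div_natCast_mem A hq hqA _ h2,
    algebraMap_intCast_div_natCast_notMem_nonunits A hq hqA hz'p h2, ?_⟩
  rw [hzz']
  simp only [map_div₀, map_pow, map_intCast, map_natCast, Int.cast_mul, Int.cast_pow,
    Int.cast_natCast, map_mul, map_ofNat, Nat.cast_ofNat]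
  rw [mul_pow, ← pow_mul, mul_comm k p]
  ring

variable (P : FreyPackage)

/-- (F3) BAD CASE: at an odd prime `q ∣ abc` the Frey curve is ℚ-isomorphic to the centred nodal
model `Y² = (X² - d²)(X + c)` with `c` a `q`-unit and `d = q^(p k) · unit`, `k > 0`. -/
theorem exists_nodal_model (hbad : (q : ℤ) ∣ P.a * P.b * P.c) :
    ∃ (C₀ : VariableChange ℚ) (c d : ℚ) (k : ℕ),
      C₀ • P.freyCurve = ⟨0, c, 0, -d ^ 2, -d ^ 2 * c⟩ ∧
      algebraMap ℚ K c ∈ A ∧ algebraMap ℚ K c ∉ A.nonunits ∧ 0 < k ∧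
      ∃ d' : K, d' ∈ A ∧ d' ∉ A.nonunits ∧ algebraMap ℚ K d = (q : K) ^ (P.p * k) * d' := by
  have hqp := Nat.prime_iff_prime_int.mp hq
  have h2 : ¬ q ∣ 2 := by simpa using not_dvd_two_pow hq hq2 1
  have h2' : ¬ (q : ℤ) ∣ 2 := by exact_mod_cast h2
  have hpow : ∀ {x : ℤ}, ¬ (q : ℤ) ∣ x → ¬ (q : ℤ) ∣ 2 * x ^ P.p := by
    intro x hx h
    rcases hqp.dvd_or_dvd h with h | h
    · exact h2' h
    · exact hx (hqp.dvd_of_dvd_pow h)
  rcases hqp.dvd_or_dvd hbad with hab | hc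
  · rcases hqp.dvd_or_dvd hab with ha | hb
    · -- `q ∣ a`
      obtain ⟨k, hk, d', hd', hd'u, hd⟩ := exists_half_pow_eq A hq hq2 hqA P.ha0 ha P.p
      have hb : ¬ (q : ℤ) ∣ P.b := not_dvd_of_gcd_eq_one hq P.hgcdab ha
      have hnum : ¬ (q : ℤ) ∣ P.a ^ P.p + 2 * P.b ^ P.p := by
        intro h
        exact hpow hb ((dvd_add_right (dvd_pow ha P.hp0)).mp h)
      have hc : ((P.a : ℚ) ^ P.p / 2 + (P.b : ℚ) ^ P.p) =
          ((P.a ^ P.p + 2 * P.b ^ P.p : ℤ) : ℚ) / ((2 : ℕ) : ℚ) := by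
        push_cast; ring
      refine ⟨freyVC ((P.a : ℚ) ^ P.p / 2), (P.a : ℚ) ^ P.p / 2 + (P.b : ℚ) ^ P.p,
        (P.a : ℚ) ^ P.p / 2, k, freyVC_smul_a P, ?_, ?_, hk, d', hd', hd'u, hd⟩
      · rw [hc]; exact algebraMap_intCast_div_natCast_mem A hq hqA _ h2
      · rw [hc]; exact algebraMap_intCast_div_natCast_notMem_nonunits A hq hqA hnum h2
    · -- `q ∣ b`
      obtain ⟨k, hk, d', hd', hd'u, hd⟩ := exists_half_pow_eq A hq hq2 hqA P.hb0 hb P.p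
      have ha : ¬ (q : ℤ) ∣ P.a := not_dvd_of_gcd_eq_one' hq P.hgcdab hb
      have hnum : ¬ (q : ℤ) ∣ -P.b ^ P.p - 2 * P.a ^ P.p := by
        intro h
        rw [sub_eq_add_neg, dvd_add_right ((dvd_neg).mpr (dvd_pow hb P.hp0)), dvd_neg] at h
        exact hpow ha h
      have hc : (-(P.b : ℚ) ^ P.p / 2 - (P.a : ℚ) ^ P.p) =
          ((-P.b ^ P.p - 2 * P.a ^ P.p : ℤ) : ℚ) / ((2 : ℕ) : ℚ) := by
        push_cast; ring
      refine ⟨freyVC (-(P.b : ℚ) ^ P.p / 2), -(P.b : ℚ) ^ P.p / 2 - (P.a : ℚ) ^ P.p,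
        (P.b : ℚ) ^ P.p / 2, k, freyVC_smul_b P, ?_, ?_, hk, d', hd', hd'u, hd⟩
      · rw [hc]; exact algebraMap_intCast_div_natCast_mem A hq hqA _ h2
      · rw [hc]; exact algebraMap_intCast_div_natCast_notMem_nonunits A hq hqA hnum h2
  · -- `q ∣ c`
    obtain ⟨k, hk, d', hd', hd'u, hd⟩ := exists_half_pow_eq A hq hq2 hqA P.hc0 hc P.p
    have ha : ¬ (q : ℤ) ∣ P.a := not_dvd_of_gcd_eq_one' hq P.hgcdac hc
    have hnum : ¬ (q : ℤ) ∣ P.a ^ P.p - P.b ^ P.p := by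
      intro h
      have h1 : P.a ^ P.p - P.b ^ P.p = 2 * P.a ^ P.p + -P.c ^ P.p := by
        rw [← P.hFLT]; ring
      rw [h1, dvd_add_left ((dvd_neg).mpr (dvd_pow hc P.hp0))] at h
      exact hpow ha h
    have hcc : (((P.a : ℚ) ^ P.p - (P.b : ℚ) ^ P.p) / 2) =
        ((P.a ^ P.p - P.b ^ P.p : ℤ) : ℚ) / ((2 : ℕ) : ℚ) := by
      push_cast; ring
    refine ⟨freyVC (((P.a : ℚ) ^ P.p - (P.b : ℚ) ^ P.p) / 2),
      ((P.a : ℚ) ^ P.p - (P.b : ℚ) ^ P.p) / 2,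
      (P.c : ℚ) ^ P.p / 2, k, freyVC_smul_c P, ?_, ?_, hk, d', hd', hd'u, hd⟩
    · rw [hcc]; exact algebraMap_intCast_div_natCast_mem A hq hqA _ h2
    · rw [hcc]; exact algebraMap_intCast_div_natCast_notMem_nonunits A hq hqA hnum h2

/-- (F3) with rational casts instead of `algebraMap ℚ K`. -/
theorem exists_nodal_model_cast (hbad : (q : ℤ) ∣ P.a * P.b * P.c) :
    ∃ (C₀ : VariableChange ℚ) (c d : ℚ) (k : ℕ),
      C₀ • P.freyCurve = ⟨0, c, 0, -d ^ 2, -d ^ 2 * c⟩ ∧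
      (c : K) ∈ A ∧ (c : K) ∉ A.nonunits ∧ 0 < k ∧
      ∃ d' : K, d' ∈ A ∧ d' ∉ A.nonunits ∧ (d : K) = (q : K) ^ (P.p * k) * d' := by
  obtain ⟨C₀, c, d, k, h1, h2, h3, h4, d', h5, h6, h7⟩ := exists_nodal_model A hq hq2 hqA P hbad
  rw [eq_ratCast] at h2 h3 h7
  exact ⟨C₀, c, d, k, h1, h2, h3, h4, d', h5, h6, h7⟩

end F3val

end Fermat.Agent.Tate
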