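/-
Project TATE (S05), package (R1) (helper8), part 1: pure algebra in the `(z, w) = (-x/y, -1/y)`
coordinates of a Weierstrass curve.  The curve becomes `w = fzw z w`; the chord/tangent slope is
`slopeN / slopeD` with `slopeD` a unit near the origin; the third intersection point of a line
`w = l z + n` with the curve is found by Vieta.
-/
import Mathlib

set_option autoImplicit false

namespace Fermat.Agent.Tate.R1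

variable {K : Type*} [Field K] (a₁ a₂ a₃ a₄ a₆ : K)

/-- the Weierstrass cubic in the coordinates `z = -x/y`, `w = -1/y`: the curve is `w = fzw z w`. -/
def fzw (z w : K) : K :=
  z ^ 3 + a₁ * z * w + a₂ * z ^ 2 * w + a₃ * w ^ 2 + a₄ * z * w ^ 2 + a₆ * w ^ 3

/-- numerator of the chord/tangent slope in the `(z, w)`-plane -/
def slopeN (z₁ z₂ w₂ : K) : K :=
  z₂ ^ 2 + z₁ * z₂ + z₁ ^ 2 + a₁ * w₂ + a₂ * (z₁ + z₂) * w₂ + a₄ * w₂ ^ 2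

/-- denominator of the chord/tangent slope in the `(z, w)`-plane -/
def slopeD (z₁ w₁ w₂ : K) : K :=
  1 - a₁ * z₁ - a₂ * z₁ ^ 2 - a₃ * (w₁ + w₂) - a₄ * z₁ * (w₁ + w₂) -
    a₆ * (w₁ ^ 2 + w₁ * w₂ + w₂ ^ 2)

theorem slope_identity {z₁ w₁ z₂ w₂ : K} (h₁ : w₁ = fzw a₁ a₂ a₃ a₄ a₆ z₁ w₁)
    (h₂ : w₂ = fzw a₁ a₂ a₃ a₄ a₆ z₂ w₂) :
    (w₂ - w₁) * slopeD a₁ a₂ a₃ a₄ a₆ z₁ w₁ w₂ = (z₂ - z₁) * slopeN a₁ a₂ a₄ z₁ z₂ w₂ := by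
  unfold fzw at h₁ h₂
  unfold slopeD slopeN
  linear_combination h₂ - h₁

/-- coefficients of the cubic `fzw z (l z + n) - (l z + n)` -/
def cA3 (l : K) : K := 1 + a₂ * l + a₄ * l ^ 2 + a₆ * l ^ 3
def cA2 (l n : K) : K := a₁ * l + a₂ * n + a₃ * l ^ 2 + 2 * a₄ * l * n + 3 * a₆ * l ^ 2 * n
def cA1 (l n : K) : K := a₁ * n + 2 * a₃ * l * n + a₄ * n ^ 2 + 3 * a₆ * l * n ^ 2 - l
def cA0 (n : K) : K := a₃ * n ^ 2 + a₆ * n ^ 3 - n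

theorem restrict_line (l n z : K) :
    fzw a₁ a₂ a₃ a₄ a₆ z (l * z + n) - (l * z + n) =
      cA3 a₂ a₄ a₆ l * z ^ 3 + cA2 a₁ a₂ a₃ a₄ a₆ l n * z ^ 2 + cA1 a₁ a₃ a₄ a₆ l n * z +
        cA0 a₃ a₆ n := by
  unfold fzw cA3 cA2 cA1 cA0
  ring

section Vieta

variable {a₁ a₂ a₃ a₄ a₆}

/-- the chord case of the relation `(B)` -/
theorem relB_of_chord {A3 A2 A1 A0 z₁ z₂ : K} (hne : z₁ ≠ z₂)
    (h₁ : A3 * z₁ ^ 3 + A2 * z₁ ^ 2 + A1 * z₁ + A0 = 0)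
    (h₂ : A3 * z₂ ^ 3 + A2 * z₂ ^ 2 + A1 * z₂ + A0 = 0) :
    A3 * (z₁ ^ 2 + z₁ * z₂ + z₂ ^ 2) + A2 * (z₁ + z₂) + A1 = 0 := by
  have h : (z₁ - z₂) * (A3 * (z₁ ^ 2 + z₁ * z₂ + z₂ ^ 2) + A2 * (z₁ + z₂) + A1) = 0 := by
    linear_combination h₁ - h₂
  rcases mul_eq_zero.mp h with h | h
  · exact absurd (sub_eq_zero.mp h) hne
  · exact h

/-- the tangent case of the relation `(B)` -/
theorem relB_of_tangent {z₁ w₁ l n : K} (hw : w₁ = l * z₁ + n)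
    (hl : l * slopeD a₁ a₂ a₃ a₄ a₆ z₁ w₁ w₁ = slopeN a₁ a₂ a₄ z₁ z₁ w₁) :
    cA3 a₂ a₄ a₆ l * (z₁ ^ 2 + z₁ * z₁ + z₁ ^ 2) + cA2 a₁ a₂ a₃ a₄ a₆ l n * (z₁ + z₁) +
      cA1 a₁ a₃ a₄ a₆ l n = 0 := by
  unfold slopeD slopeN at hl
  unfold cA3 cA2 cA1
  subst hw
  linear_combination -hl

/-- Vieta's formulas for the third root -/
theorem vieta {A3 A2 A1 A0 z₁ z₂ z₃ : K}
    (hB : A3 * (z₁ ^ 2 + z₁ * z₂ + z₂ ^ 2) + A2 * (z₁ + z₂) + A1 = 0)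
    (h₁ : A3 * z₁ ^ 3 + A2 * z₁ ^ 2 + A1 * z₁ + A0 = 0)
    (h₃ : A3 * (z₁ + z₂ + z₃) = -A2) :
    A3 * (z₁ * z₂ + z₁ * z₃ + z₂ * z₃) = A1 ∧ A3 * (z₁ * z₂ * z₃) = -A0 := by
  constructor
  · linear_combination (z₁ + z₂) * h₃ - hB
  · linear_combination z₁ * z₂ * h₃ + h₁ - z₁ * hB

/-- the third root is a root -/
theorem third_root {A3 A2 A1 A0 z₁ z₂ z₃ : K}
    (h₃ : A3 * (z₁ + z₂ + z₃) = -A2)
    (hV1 : A3 * (z₁ * z₂ + z₁ * z₃ + z₂ * z₃) = A1) (hV2 : A3 * (z₁ * z₂ * z₃) = -A0) :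
    A3 * z₃ ^ 3 + A2 * z₃ ^ 2 + A1 * z₃ + A0 = 0 := by
  linear_combination z₃ ^ 2 * h₃ - z₃ * hV1 + hV2

/-- the sum of the `x`-coordinates `z_j / w_j` of the three intersection points, cleared of
denominators -/
theorem sum_x_identity {z₁ z₂ z₃ w₁ w₂ w₃ l n : K}
    (hw₁ : w₁ = l * z₁ + n) (hw₂ : w₂ = l * z₂ + n) (hw₃ : w₃ = l * z₃ + n)
    (h₃ : cA3 a₂ a₄ a₆ l * (z₁ + z₂ + z₃) = -cA2 a₁ a₂ a₃ a₄ a₆ l n)
    (hV1 : cA3 a₂ a₄ a₆ l * (z₁ * z₂ + z₁ * z₃ + z₂ * z₃) = cA1 a₁ a₃ a₄ a₆ l n)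
    (hV2 : cA3 a₂ a₄ a₆ l * (z₁ * z₂ * z₃) = -cA0 a₃ a₆ n) :
    cA3 a₂ a₄ a₆ l * (z₁ * w₂ * w₃ + z₂ * w₁ * w₃ + z₃ * w₁ * w₂) =
        (l ^ 2 + a₁ * l * n - a₂ * n ^ 2) * n ∧
      cA3 a₂ a₄ a₆ l * (w₁ * w₂ * w₃) = n ^ 3 := by
  subst hw₁ hw₂ hw₃
  unfold cA2 cA1 cA0 at *
  constructor
  · linear_combination 3 * l ^ 2 * hV2 + 2 * l * n * hV1 + n ^ 2 * h₃
  · unfold cA3 at *
    linear_combination l ^ 3 * hV2 + l ^ 2 * n * hV1 + l * n ^ 2 * h₃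


/-- on the curve, `w (1 - f_w) - z f_z = w (-2 + a₁ z + a₃ w)`: controls the intercept of the
tangent line -/
theorem tangent_intercept_identity {z w : K} (h : w = fzw a₁ a₂ a₃ a₄ a₆ z w) :
    w * slopeD a₁ a₂ a₃ a₄ a₆ z w w - z * slopeN a₁ a₂ a₄ z z w =
      w * (-2 + a₁ * z + a₃ * w) := by
  unfold fzw at h
  unfold slopeD slopeN
  linear_combination (3 : K) * h

/-- the curve equation solved for `w`: `w * u = z ^ 3` with `u` a unit near the origin -/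
theorem curve_unit_identity {z w : K} (h : w = fzw a₁ a₂ a₃ a₄ a₆ z w) :
    w * (1 - (a₁ * z + a₂ * z ^ 2 + a₃ * w + a₄ * z * w + a₆ * w ^ 2)) = z ^ 3 := by
  unfold fzw at h
  linear_combination h

end Vieta

end Fermat.Agent.Tate.R1
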