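/-
Project TATE (S05), package (R1) (helper8), part 2: bridge between the `(z, w)`-plane
chord/tangent construction and Mathlib's affine addition formulas (`slope`, `addX`, `negAddY`).
-/
import Fermat.Agent.Tate.R1_helper8_Alg

set_option autoImplicit false

namespace Fermat.Agent.Tate.R1

open WeierstrassCurve WeierstrassCurve.Affine

variable {K : Type*} [Field K] (W : WeierstrassCurve.Affine K)

/-- the affine Weierstrass equation in the coordinates `(z, w) = (-x/y, -1/y)` -/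
theorem zw_equation {x y : K} (h : W.Equation x y) (hy : y ≠ 0) :
    -1 / y = fzw W.a₁ W.a₂ W.a₃ W.a₄ W.a₆ (-x / y) (-1 / y) := by
  rw [equation_iff] at h
  unfold fzw
  field_simp
  linear_combination (-1 : K) * h

variable [DecidableEq K]

/-- the chord: Mathlib's slope is `l / n` if the line through the two points is `w = l z + n` in the
`(z, w)`-plane -/
theorem slope_chord {z₁ w₁ z₂ w₂ l n : K} (hw₁ : w₁ ≠ 0) (hw₂ : w₂ ≠ 0)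
    (hx : z₁ / w₁ ≠ z₂ / w₂) (h₁ : w₁ = l * z₁ + n) (h₂ : w₂ = l * z₂ + n) :
    n ≠ 0 ∧ W.slope (z₁ / w₁) (z₂ / w₂) (-1 / w₁) (-1 / w₂) = l / n := by
  have hn : n ≠ 0 := by
    rintro rfl
    apply hx
    rw [add_zero] at h₁ h₂
    have hl : l ≠ 0 := by
      rintro rfl
      rw [zero_mul] at h₁
      exact hw₁ h₁
    have hz₁ : z₁ ≠ 0 := by
      rintro rfl
      rw [mul_zero] at h₁
      exact hw₁ h₁
    have hz₂ : z₂ ≠ 0 := by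
      rintro rfl
      rw [mul_zero] at h₂
      exact hw₂ h₂
    rw [h₁, h₂]
    field_simp
  refine ⟨hn, ?_⟩
  rw [slope_of_X_ne hx]
  have hd : z₁ / w₁ - z₂ / w₂ ≠ 0 := sub_ne_zero.mpr hx
  rw [div_eq_div_iff hd hn]
  have e1 : (-1 / w₁ - -1 / w₂) = (w₁ - w₂) / (w₁ * w₂) := by
    field_simp
    ring
  have e2 : (z₁ / w₁ - z₂ / w₂) = (z₁ * w₂ - z₂ * w₁) / (w₁ * w₂) := by
    field_simp
  rw [e1, e2, div_mul_eq_mul_div, mul_div_assoc']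
  congr 1
  rw [h₁, h₂]
  ring

/-- the tangent: Mathlib's slope is `l / n` if the tangent line at the point is `w = l z + n` in the
`(z, w)`-plane -/
theorem slope_tangent {z w l n : K} (hw : w ≠ 0)
    (hc : w = fzw W.a₁ W.a₂ W.a₃ W.a₄ W.a₆ z w)
    (hy : -1 / w ≠ W.negY (z / w) (-1 / w))
    (hl : l * slopeD W.a₁ W.a₂ W.a₃ W.a₄ W.a₆ z w w = slopeN W.a₁ W.a₂ W.a₄ z z w)
    (hn : n = w - l * z) :
    n ≠ 0 ∧ W.slope (z / w) (z / w) (-1 / w) (-1 / w) = l / n := by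
  have key := tangent_intercept_identity hc
  have hnD : n * slopeD W.a₁ W.a₂ W.a₃ W.a₄ W.a₆ z w w = w * (-2 + W.a₁ * z + W.a₃ * w) := by
    rw [hn]
    linear_combination key - z * hl
  have hne : -1 / w - W.negY (z / w) (-1 / w) ≠ 0 := sub_ne_zero.mpr hy
  have hyy : -1 / w - W.negY (z / w) (-1 / w) = (-2 + W.a₁ * z + W.a₃ * w) / w := by
    simp only [negY]
    field_simp
    ring
  have h2 : -2 + W.a₁ * z + W.a₃ * w ≠ 0 := by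
    intro h
    rw [hyy, h, zero_div] at hne
    exact hne rfl
  have hn0 : n ≠ 0 := by
    rintro rfl
    rw [zero_mul] at hnD
    exact mul_ne_zero hw h2 hnD.symm
  refine ⟨hn0, ?_⟩
  rw [slope_of_Y_ne rfl hy, hyy]
  have hN : 3 * (z / w) ^ 2 + 2 * W.a₂ * (z / w) + W.a₄ - W.a₁ * (-1 / w) =
      slopeN W.a₁ W.a₂ W.a₄ z z w / w ^ 2 := by
    unfold slopeN
    field_simp
    ring
  rw [hN, div_eq_div_iff (div_ne_zero h2 hw) hn0]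
  field_simp
  linear_combination (-n) * hl + l * hnD

omit [DecidableEq K] in
/-- the third intersection point of the line `w = l z + n` with the curve, and Mathlib's addition
formulas in terms of it -/
theorem add_formulas {z₁ w₁ z₂ w₂ z₃ w₃ l n : K} (hw₁ : w₁ ≠ 0) (hw₂ : w₂ ≠ 0) (hn : n ≠ 0)
    (h₁ : w₁ = l * z₁ + n) (h₂ : w₂ = l * z₂ + n) (h₃ : w₃ = l * z₃ + n)
    (hA : cA3 W.a₂ W.a₄ W.a₆ l ≠ 0)
    (hc₁ : w₁ = fzw W.a₁ W.a₂ W.a₃ W.a₄ W.a₆ z₁ w₁)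
    (hB : cA3 W.a₂ W.a₄ W.a₆ l * (z₁ ^ 2 + z₁ * z₂ + z₂ ^ 2) +
      cA2 W.a₁ W.a₂ W.a₃ W.a₄ W.a₆ l n * (z₁ + z₂) + cA1 W.a₁ W.a₃ W.a₄ W.a₆ l n = 0)
    (hz₃ : cA3 W.a₂ W.a₄ W.a₆ l * (z₁ + z₂ + z₃) = -cA2 W.a₁ W.a₂ W.a₃ W.a₄ W.a₆ l n) :
    w₃ ≠ 0 ∧ w₃ = fzw W.a₁ W.a₂ W.a₃ W.a₄ W.a₆ z₃ w₃ ∧
      W.addX (z₁ / w₁) (z₂ / w₂) (l / n) = z₃ / w₃ ∧
      W.negAddY (z₁ / w₁) (z₂ / w₂) (-1 / w₁) (l / n) = -1 / w₃ := by
  have hr₁ : cA3 W.a₂ W.a₄ W.a₆ l * z₁ ^ 3 + cA2 W.a₁ W.a₂ W.a₃ W.a₄ W.a₆ l n * z₁ ^ 2 +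
      cA1 W.a₁ W.a₃ W.a₄ W.a₆ l n * z₁ + cA0 W.a₃ W.a₆ n = 0 := by
    rw [← restrict_line, ← h₁, ← hc₁, sub_self]
  obtain ⟨hV1, hV2⟩ := vieta hB hr₁ hz₃
  have hr₃ := third_root hz₃ hV1 hV2
  rw [← restrict_line, ← h₃, sub_eq_zero] at hr₃
  obtain ⟨hS, hP⟩ := sum_x_identity h₁ h₂ h₃ hz₃ hV1 hV2
  have hw₃ : w₃ ≠ 0 := by
    rintro rfl
    rw [mul_zero, mul_zero] at hP
    exact hn (pow_eq_zero_iff (by norm_num) |>.mp hP.symm)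
  have hX : W.addX (z₁ / w₁) (z₂ / w₂) (l / n) = z₃ / w₃ := by
    simp only [addX]
    have hsum : z₁ / w₁ + z₂ / w₂ + z₃ / w₃ = (l / n) ^ 2 + W.a₁ * (l / n) - W.a₂ := by
      have e : z₁ / w₁ + z₂ / w₂ + z₃ / w₃ =
          (cA3 W.a₂ W.a₄ W.a₆ l * (z₁ * w₂ * w₃ + z₂ * w₁ * w₃ + z₃ * w₁ * w₂)) /
            (cA3 W.a₂ W.a₄ W.a₆ l * (w₁ * w₂ * w₃)) := by
        field_simp
      rw [e, hS, hP]
      field_simp
    linear_combination -hsum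
  refine ⟨hw₃, hr₃.symm, hX, ?_⟩
  rw [negAddY, hX]
  have e1 : z₃ / w₃ - z₁ / w₁ = n * (z₃ - z₁) / (w₁ * w₃) := by
    field_simp
    rw [h₁, h₃]
    ring
  rw [e1]
  field_simp
  rw [h₁, h₃]
  ring

end Fermat.Agent.Tate.R1
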