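/-
Project TATE (S05), package (R1) (helper8), part 3: valuation estimates in the `(z, w)`-plane.
`v` is any valuation on the field `K` for which the Weierstrass coefficients are integral; `r < 1`
is a bound for the valuations of the `z`-coordinates.
-/
import Fermat.Agent.Tate.R1_helper8_Alg

set_option autoImplicit false

namespace Fermat.Agent.Tate.R1

variable {K : Type*} [Field K] {Γ₀ : Type*} [LinearOrderedCommGroupWithZero Γ₀]
  (v : Valuation K Γ₀)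

/-- integrality of the five Weierstrass coefficients with respect to a valuation -/
structure IntCoeffs (a₁ a₂ a₃ a₄ a₆ : K) : Prop where
  h₁ : v a₁ ≤ 1
  h₂ : v a₂ ≤ 1
  h₃ : v a₃ ≤ 1
  h₄ : v a₄ ≤ 1
  h₆ : v a₆ ≤ 1


/-- the quantity `a₁ z + a₃ w`; `1 - (a₁ z + a₃ w)` is (up to `w`) the `y`-coordinate of the
negative of the point `(z, w)` -/
def lin13 (a₁ a₃ z w : K) : K := a₁ * z + a₃ * w

section toolkit

variable {v}

theorem vle_mul {s t : Γ₀} {x y : K} (hx : v x ≤ s) (hy : v y ≤ t) : v (x * y) ≤ s * t := by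
  rw [map_mul]
  exact mul_le_mul' hx hy

theorem vle_sq {s : Γ₀} {x : K} (hx : v x ≤ s) : v (x ^ 2) ≤ s * s := by
  rw [pow_two]
  exact vle_mul hx hx

theorem vle_lmul {s : Γ₀} {a x : K} (ha : v a ≤ 1) (hx : v x ≤ s) : v (a * x) ≤ s := by
  rw [map_mul]
  exact mul_le_of_le_one_of_le ha hx

theorem vle_rmul {s : Γ₀} {a x : K} (hx : v x ≤ s) (ha : v a ≤ 1) : v (x * a) ≤ s := by
  rw [map_mul]
  exact mul_le_of_le_of_le_one hx ha

theorem vle_neg {s : Γ₀} {x : K} (hx : v x ≤ s) : v (-x) ≤ s := by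
  rwa [Valuation.map_neg]

theorem vle_natCast (k : ℕ) : v (k : K) ≤ 1 := by
  induction k with
  | zero => simp
  | succ k ih =>
    rw [Nat.cast_succ]
    exact v.map_add_le ih (le_of_eq v.map_one)

theorem vle_two : v (2 : K) ≤ 1 := by
  have := vle_natCast (v := v) 2
  simpa using this

theorem vle_three : v (3 : K) ≤ 1 := by
  have := vle_natCast (v := v) 3
  simpa using this

theorem v_one_sub {r : Γ₀} {m : K} (hm : v m ≤ r) (hr : r < 1) : v (1 - m) = 1 :=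
  v.map_one_sub_of_lt (lt_of_le_of_lt hm hr)

theorem v_one_add {r : Γ₀} {m : K} (hm : v m ≤ r) (hr : r < 1) : v (1 + m) = 1 :=
  v.map_one_add_of_lt (lt_of_le_of_lt hm hr)

theorem sq_le_self_of_le_one {r : Γ₀} (hr : r ≤ 1) : r * r ≤ r :=
  mul_le_of_le_one_right' hr

end toolkit

section estimates

variable {v} {a₁ a₂ a₃ a₄ a₆ : K} (hI : IntCoeffs v a₁ a₂ a₃ a₄ a₆)
include hI

/-- the unit `u` with `w u = z ^ 3` on the curve -/
theorem v_curve_unit {r : Γ₀} (hr : r < 1) {z w : K} (hz : v z ≤ r) (hw : v w ≤ r) :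
    v (1 - (a₁ * z + a₂ * z ^ 2 + a₃ * w + a₄ * z * w + a₆ * w ^ 2)) = 1 := by
  have hr1 : r ≤ 1 := hr.le
  have hz1 : v z ≤ 1 := hz.trans hr1
  have hw1 : v w ≤ 1 := hw.trans hr1
  refine v_one_sub ?_ hr
  refine v.map_add_le (v.map_add_le (v.map_add_le (v.map_add_le ?_ ?_) ?_) ?_) ?_
  · exact vle_lmul hI.h₁ hz
  · rw [pow_two, ← mul_assoc]
    exact vle_rmul (vle_lmul hI.h₂ hz) hz1
  · exact vle_lmul hI.h₃ hw
  · exact vle_rmul (vle_lmul hI.h₄ hz) hw1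
  · rw [pow_two, ← mul_assoc]
    exact vle_rmul (vle_lmul hI.h₆ hw) hw1

/-- on the curve near the origin, `v w = (v z) ^ 3` -/
theorem v_w_eq {z w : K} (hz : v z < 1) (hw : v w < 1) (h : w = fzw a₁ a₂ a₃ a₄ a₆ z w) :
    v w = v z ^ 3 := by
  have hu := v_curve_unit hI (max_lt hz hw) (le_max_left _ _) (le_max_right _ _)
  have hid := curve_unit_identity h
  have := congrArg v hid
  rw [map_mul, hu, mul_one, map_pow] at this
  exact this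

theorem v_slopeN_le {r : Γ₀} (hr : r ≤ 1) {z₁ z₂ w₂ : K} (hz₁ : v z₁ ≤ r) (hz₂ : v z₂ ≤ r)
    (hw₂ : v w₂ ≤ r * r) : v (slopeN a₁ a₂ a₄ z₁ z₂ w₂) ≤ r * r := by
  have hz₁1 : v z₁ ≤ 1 := hz₁.trans hr
  have hz₂1 : v z₂ ≤ 1 := hz₂.trans hr
  have hw₂1 : v w₂ ≤ 1 := hw₂.trans ((sq_le_self_of_le_one hr).trans hr)
  unfold slopeN
  refine v.map_add_le (v.map_add_le (v.map_add_le (v.map_add_le (v.map_add_le ?_ ?_) ?_) ?_) ?_) ?_
  · exact vle_sq hz₂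
  · exact vle_mul hz₁ hz₂
  · exact vle_sq hz₁
  · exact vle_lmul hI.h₁ hw₂
  · exact vle_lmul (vle_lmul hI.h₂ (v.map_add_le hz₁1 hz₂1)) hw₂
  · rw [pow_two, ← mul_assoc]
    exact vle_rmul (vle_lmul hI.h₄ hw₂) hw₂1

theorem v_slopeD_eq {r : Γ₀} (hr : r < 1) {z₁ w₁ w₂ : K} (hz₁ : v z₁ ≤ r) (hw₁ : v w₁ ≤ r)
    (hw₂ : v w₂ ≤ r) : v (slopeD a₁ a₂ a₃ a₄ a₆ z₁ w₁ w₂) = 1 := by
  have hr1 : r ≤ 1 := hr.le
  have hz₁1 : v z₁ ≤ 1 := hz₁.trans hr1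
  have hw₁1 : v w₁ ≤ 1 := hw₁.trans hr1
  have hw₂1 : v w₂ ≤ 1 := hw₂.trans hr1
  have e : slopeD a₁ a₂ a₃ a₄ a₆ z₁ w₁ w₂ = 1 - (a₁ * z₁ + a₂ * z₁ ^ 2 + a₃ * (w₁ + w₂) +
      a₄ * z₁ * (w₁ + w₂) + a₆ * (w₁ ^ 2 + w₁ * w₂ + w₂ ^ 2)) := by
    unfold slopeD
    ring
  rw [e]
  refine v_one_sub ?_ hr
  refine v.map_add_le (v.map_add_le (v.map_add_le (v.map_add_le ?_ ?_) ?_) ?_) ?_
  · exact vle_lmul hI.h₁ hz₁
  · rw [pow_two, ← mul_assoc]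
    exact vle_rmul (vle_lmul hI.h₂ hz₁) hz₁1
  · exact vle_lmul hI.h₃ (v.map_add_le hw₁ hw₂)
  · exact vle_rmul (vle_lmul hI.h₄ hz₁) (v.map_add_le hw₁1 hw₂1)
  · refine vle_lmul hI.h₆ (v.map_add_le (v.map_add_le ?_ ?_) ?_)
    · rw [pow_two]
      exact vle_rmul hw₁ hw₁1
    · exact vle_rmul hw₁ hw₂1
    · rw [pow_two]
      exact vle_rmul hw₂ hw₂1

theorem v_cA3_eq {r : Γ₀} (hr : r < 1) {l : K} (hl : v l ≤ r) : v (cA3 a₂ a₄ a₆ l) = 1 := by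
  have hl1 : v l ≤ 1 := hl.trans hr.le
  have e : cA3 a₂ a₄ a₆ l = 1 + (a₂ * l + a₄ * l ^ 2 + a₆ * l ^ 3) := by
    unfold cA3
    ring
  rw [e]
  refine v_one_add ?_ hr
  refine v.map_add_le (v.map_add_le ?_ ?_) ?_
  · exact vle_lmul hI.h₂ hl
  · rw [pow_two, ← mul_assoc]
    exact vle_rmul (vle_lmul hI.h₄ hl) hl1
  · rw [pow_succ, pow_two, ← mul_assoc, ← mul_assoc]
    exact vle_rmul (vle_rmul (vle_lmul hI.h₆ hl) hl1) hl1

theorem v_cA2_le {s : Γ₀} (hs : s ≤ 1) {l n : K} (hl : v l ≤ s) (hn : v n ≤ s) :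
    v (cA2 a₁ a₂ a₃ a₄ a₆ l n) ≤ s := by
  have hl1 : v l ≤ 1 := hl.trans hs
  have hn1 : v n ≤ 1 := hn.trans hs
  unfold cA2
  refine v.map_add_le (v.map_add_le (v.map_add_le (v.map_add_le ?_ ?_) ?_) ?_) ?_
  · exact vle_lmul hI.h₁ hl
  · exact vle_lmul hI.h₂ hn
  · rw [pow_two, ← mul_assoc]
    exact vle_rmul (vle_lmul hI.h₃ hl) hl1
  · exact vle_rmul (vle_lmul (vle_lmul vle_two hI.h₄) hl) hn1
  · rw [pow_two, ← mul_assoc]
    exact vle_rmul (vle_rmul (vle_lmul (vle_lmul vle_three hI.h₆) hl) hl1) hn1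

/-- all the estimates for the chord/tangent construction through two points near the origin -/
theorem two_point_estimates {r : Γ₀} (hr : r < 1) {z₁ w₁ z₂ w₂ l n z₃ w₃ : K}
    (hz₁ : v z₁ ≤ r) (hz₂ : v z₂ ≤ r) (hw₁ : v w₁ ≤ r * r) (hw₂ : v w₂ ≤ r * r)
    (hl : l * slopeD a₁ a₂ a₃ a₄ a₆ z₁ w₁ w₂ = slopeN a₁ a₂ a₄ z₁ z₂ w₂)
    (hn : n = w₁ - l * z₁)
    (hz₃ : cA3 a₂ a₄ a₆ l * (z₁ + z₂ + z₃) = -cA2 a₁ a₂ a₃ a₄ a₆ l n)
    (hw₃ : w₃ = l * z₃ + n) :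
    v (cA3 a₂ a₄ a₆ l) = 1 ∧ v z₃ ≤ r ∧ v w₃ ≤ r * r ∧
      v (1 - lin13 a₁ a₃ z₃ w₃) = 1 ∧
      v (-z₃ / (1 - lin13 a₁ a₃ z₃ w₃) - z₁ - z₂) ≤ r * r := by
  have hr1 : r ≤ 1 := hr.le
  have hrr : r * r ≤ r := sq_le_self_of_le_one hr1
  have hz₁1 : v z₁ ≤ 1 := hz₁.trans hr1
  have hD := v_slopeD_eq hI hr hz₁ (hw₁.trans hrr) (hw₂.trans hrr)
  have hN := v_slopeN_le hI hr1 hz₁ hz₂ hw₂
  have hlv : v l ≤ r * r := by
    have := congrArg v hl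
    rw [map_mul, hD, mul_one] at this
    rw [this]
    exact hN
  have hnv : v n ≤ r * r := by
    rw [hn]
    exact v.map_sub_le hw₁ (vle_rmul hlv hz₁1)
  have hA3 := v_cA3_eq hI hr (hlv.trans hrr)
  have hA2 := v_cA2_le hI (hrr.trans hr1) hlv hnv
  have hsum : v (z₁ + z₂ + z₃) ≤ r * r := by
    have := congrArg v hz₃
    rw [map_mul, hA3, one_mul, Valuation.map_neg] at this
    rw [this]
    exact hA2
  have hz₃v : v z₃ ≤ r := by
    have e : z₃ = (z₁ + z₂ + z₃) - z₁ - z₂ := by ring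
    rw [e]
    exact v.map_sub_le (v.map_sub_le (hsum.trans hrr) hz₁) hz₂
  have hz₃1 : v z₃ ≤ 1 := hz₃v.trans hr1
  have hw₃v : v w₃ ≤ r * r := by
    rw [hw₃]
    exact v.map_add_le (vle_rmul hlv hz₃1) hnv
  have hm : v (lin13 a₁ a₃ z₃ w₃) ≤ r := by
    unfold lin13
    exact v.map_add_le (vle_lmul hI.h₁ hz₃v) (vle_lmul hI.h₃ (hw₃v.trans hrr))
  have hu := v_one_sub hm hr
  refine ⟨hA3, hz₃v, hw₃v, hu, ?_⟩
  have hu0 : 1 - lin13 a₁ a₃ z₃ w₃ ≠ 0 := by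
    intro h
    rw [h, map_zero] at hu
    exact zero_ne_one hu
  have e : -z₃ / (1 - lin13 a₁ a₃ z₃ w₃) - z₁ - z₂ =
      -(z₁ + z₂ + z₃) - z₃ * lin13 a₁ a₃ z₃ w₃ / (1 - lin13 a₁ a₃ z₃ w₃) := by
    field_simp
    ring
  rw [e]
  refine v.map_sub_le (vle_neg hsum) ?_
  rw [map_div₀, hu, div_one]
  exact vle_mul hz₃v hm

/-- a point of an integral Weierstrass curve with non-integral `x` has `v x < v y` -/
theorem v_x_lt_v_y {x y : K}
    (heq : y ^ 2 + a₁ * x * y + a₃ * y = x ^ 3 + a₂ * x ^ 2 + a₄ * x + a₆) (hx : 1 < v x) :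
    v x < v y := by
  by_contra hcon
  rw [not_lt] at hcon
  have hx0 : x ≠ 0 := by
    rintro rfl
    rw [map_zero] at hx
    exact not_lt_zero hx
  have hvx0 : 0 < v x := zero_lt_iff.mpr ((v.ne_zero_iff).mpr hx0)
  have hvt : v x⁻¹ < 1 := by
    rw [map_inv₀]
    exact inv_lt_one_of_one_lt₀ hx
  have hvt1 : v x⁻¹ ≤ 1 := hvt.le
  have hvs : v (y / x) ≤ 1 := by
    rw [map_div₀]
    exact (div_le_one₀ hvx0).mpr hcon
  have key : (1 : K) = x⁻¹ * ((y / x) ^ 2 + a₁ * (y / x) + a₃ * x⁻¹ * (y / x) - a₂ - a₄ * x⁻¹ -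
      a₆ * x⁻¹ ^ 2) := by
    field_simp
    linear_combination -heq
  have hle : v (1 : K) ≤ v x⁻¹ := by
    conv_lhs => rw [key]
    refine vle_rmul le_rfl ?_
    refine v.map_sub_le (v.map_sub_le (v.map_sub_le (v.map_add_le (v.map_add_le ?_ ?_) ?_) ?_) ?_) ?_
    · rw [pow_two]
      exact vle_rmul hvs hvs
    · exact vle_lmul hI.h₁ hvs
    · exact vle_rmul (vle_lmul hI.h₃ hvt1) hvs
    · exact hI.h₂
    · exact vle_lmul hI.h₄ hvt1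
    · rw [pow_two]
      exact vle_lmul hI.h₆ (vle_rmul hvt1 hvt1)
  rw [v.map_one] at hle
  exact absurd hvt (not_lt.mpr hle)

/-- a point of an integral Weierstrass curve with non-integral `x` has `y ≠ 0` and small
`(z, w) = (-x/y, -1/y)` -/
theorem zw_small {x y : K}
    (heq : y ^ 2 + a₁ * x * y + a₃ * y = x ^ 3 + a₂ * x ^ 2 + a₄ * x + a₆) (hx : 1 < v x) :
    y ≠ 0 ∧ v (-x / y) < 1 ∧ v (-1 / y) < 1 ∧ -x / y ≠ 0 := by
  have hxy := v_x_lt_v_y hI heq hx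
  have hy1 : 1 < v y := hx.trans hxy
  have hx0 : x ≠ 0 := by
    rintro rfl
    rw [map_zero] at hx
    exact not_lt_zero hx
  have hy0 : y ≠ 0 := by
    rintro rfl
    rw [map_zero] at hy1
    exact not_lt_zero hy1
  have hvy0 : 0 < v y := zero_lt_iff.mpr ((v.ne_zero_iff).mpr hy0)
  refine ⟨hy0, ?_, ?_, div_ne_zero (neg_ne_zero.mpr hx0) hy0⟩
  · rw [map_div₀, Valuation.map_neg]
    exact (div_lt_one₀ hvy0).mpr hxy
  · rw [map_div₀, Valuation.map_neg, v.map_one, one_div]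
    exact inv_lt_one_of_one_lt₀ hy1

/-- conversely, a point `(z, w)` of the curve near the origin with `w ≠ 0` has non-integral
`x = z / w` -/
theorem one_lt_v_x {z w : K} (hw0 : w ≠ 0) (hz : v z < 1) (hw : v w < 1)
    (h : w = fzw a₁ a₂ a₃ a₄ a₆ z w) : 1 < v (z / w) := by
  have hvw := v_w_eq hI hz hw h
  have hvw0 : 0 < v w := zero_lt_iff.mpr ((v.ne_zero_iff).mpr hw0)
  have hvz0 : 0 < v z := by
    rw [zero_lt_iff]
    intro h0
    rw [h0, zero_pow (by norm_num)] at hvw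
    exact hvw0.ne' hvw
  rw [map_div₀, one_lt_div₀ hvw0, hvw, pow_succ']
  exact mul_lt_of_lt_one_right hvz0 (pow_lt_one₀ zero_le hz (by norm_num))

end estimates

end Fermat.Agent.Tate.R1
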