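/-
Project TATE (S05), package (R1) (helper8), part 4: the kernel of reduction `E₁` of an integral
Weierstrass curve is a subgroup, `z = -x/y` is additive on it modulo squares, and it has no
`n`-torsion for `n` a unit of the valuation ring.
-/
import Fermat.Agent.Tate.R1_helper8_Bridge
import Fermat.Agent.Tate.R1_helper8_Val

set_option autoImplicit false
set_option linter.unusedSectionVars false

namespace Fermat.Agent.Tate.R1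

open WeierstrassCurve WeierstrassCurve.Affine

variable {K : Type*} [Field K] [DecidableEq K] {Γ₀ : Type*} [LinearOrderedCommGroupWithZero Γ₀]
  {v : Valuation K Γ₀} {W : WeierstrassCurve.Affine K}

/-- the core computation: sum of two points near the origin of the `(z, w)`-plane, in terms of
Mathlib's addition formulas -/
theorem zw_add (hI : IntCoeffs v W.a₁ W.a₂ W.a₃ W.a₄ W.a₆) {r : Γ₀} (hr : r < 1)
    {z₁ w₁ z₂ w₂ : K} (hw₁0 : w₁ ≠ 0) (hw₂0 : w₂ ≠ 0)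
    (h₁ : W.Equation (z₁ / w₁) (-1 / w₁)) (h₂ : W.Equation (z₂ / w₂) (-1 / w₂))
    (hc₁ : w₁ = fzw W.a₁ W.a₂ W.a₃ W.a₄ W.a₆ z₁ w₁)
    (hc₂ : w₂ = fzw W.a₁ W.a₂ W.a₃ W.a₄ W.a₆ z₂ w₂)
    (hz₁ : v z₁ ≤ r) (hz₂ : v z₂ ≤ r) (hw₁ : v w₁ ≤ r * r) (hw₂ : v w₂ ≤ r * r)
    (hxy : ¬(z₁ / w₁ = z₂ / w₂ ∧ -1 / w₁ = W.negY (z₂ / w₂) (-1 / w₂))) :
    ∃ z₃ w₃ : K, w₃ ≠ 0 ∧ v z₃ ≤ r ∧ v w₃ ≤ r * r ∧
      w₃ = fzw W.a₁ W.a₂ W.a₃ W.a₄ W.a₆ z₃ w₃ ∧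
      W.addX (z₁ / w₁) (z₂ / w₂) (W.slope (z₁ / w₁) (z₂ / w₂) (-1 / w₁) (-1 / w₂)) = z₃ / w₃ ∧
      W.negAddY (z₁ / w₁) (z₂ / w₂) (-1 / w₁)
        (W.slope (z₁ / w₁) (z₂ / w₂) (-1 / w₁) (-1 / w₂)) = -1 / w₃ ∧
      v (1 - lin13 W.a₁ W.a₃ z₃ w₃) = 1 ∧
      v (-z₃ / (1 - lin13 W.a₁ W.a₃ z₃ w₃) - z₁ - z₂) ≤ r * r := by
  have hr1 : r ≤ 1 := hr.le
  have hrr : r * r ≤ r := sq_le_self_of_le_one hr1
  have hD := v_slopeD_eq hI hr hz₁ (hw₁.trans hrr) (hw₂.trans hrr)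
  have hD0 : slopeD W.a₁ W.a₂ W.a₃ W.a₄ W.a₆ z₁ w₁ w₂ ≠ 0 := by
    intro h
    rw [h, map_zero] at hD
    exact zero_ne_one hD
  obtain ⟨l, hl⟩ : ∃ l : K, l * slopeD W.a₁ W.a₂ W.a₃ W.a₄ W.a₆ z₁ w₁ w₂ =
      slopeN W.a₁ W.a₂ W.a₄ z₁ z₂ w₂ := ⟨_, div_mul_cancel₀ _ hD0⟩
  obtain ⟨n, hn⟩ : ∃ n : K, n = w₁ - l * z₁ := ⟨_, rfl⟩
  have hline₁ : w₁ = l * z₁ + n := by rw [hn]; ring
  have hline₂ : w₂ = l * z₂ + n := by
    have hid := slope_identity _ _ _ _ _ hc₁ hc₂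
    have h0 : (w₂ - w₁ - l * (z₂ - z₁)) * slopeD W.a₁ W.a₂ W.a₃ W.a₄ W.a₆ z₁ w₁ w₂ = 0 := by
      linear_combination hid - (z₂ - z₁) * hl
    have h1 := (mul_eq_zero.mp h0).resolve_right hD0
    rw [hn]
    linear_combination h1
  -- the cubic coefficients
  have hlv : v l ≤ r * r := by
    have := congrArg v hl
    rw [map_mul, hD, mul_one] at this
    rw [this]
    exact v_slopeN_le hI hr1 hz₁ hz₂ hw₂
  have hA3 := v_cA3_eq hI hr (hlv.trans hrr)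
  have hA30 : cA3 W.a₂ W.a₄ W.a₆ l ≠ 0 := by
    intro h
    rw [h, map_zero] at hA3
    exact zero_ne_one hA3
  obtain ⟨z₃, hz₃⟩ : ∃ z₃ : K, cA3 W.a₂ W.a₄ W.a₆ l * (z₁ + z₂ + z₃) =
      -cA2 W.a₁ W.a₂ W.a₃ W.a₄ W.a₆ l n := by
    refine ⟨-cA2 W.a₁ W.a₂ W.a₃ W.a₄ W.a₆ l n / cA3 W.a₂ W.a₄ W.a₆ l - z₁ - z₂, ?_⟩
    field_simp
    ring
  obtain ⟨w₃, hw₃⟩ : ∃ w₃ : K, w₃ = l * z₃ + n := ⟨_, rfl⟩
  obtain ⟨-, hz₃v, hw₃v, hu, hfin⟩ := two_point_estimates hI hr hz₁ hz₂ hw₁ hw₂ hl hn hz₃ hw₃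
  -- the slope and the relation (B)
  have hr₁ : cA3 W.a₂ W.a₄ W.a₆ l * z₁ ^ 3 + cA2 W.a₁ W.a₂ W.a₃ W.a₄ W.a₆ l n * z₁ ^ 2 +
      cA1 W.a₁ W.a₃ W.a₄ W.a₆ l n * z₁ + cA0 W.a₃ W.a₆ n = 0 := by
    rw [← restrict_line, ← hline₁, ← hc₁, sub_self]
  have hr₂ : cA3 W.a₂ W.a₄ W.a₆ l * z₂ ^ 3 + cA2 W.a₁ W.a₂ W.a₃ W.a₄ W.a₆ l n * z₂ ^ 2 +
      cA1 W.a₁ W.a₃ W.a₄ W.a₆ l n * z₂ + cA0 W.a₃ W.a₆ n = 0 := by
    rw [← restrict_line, ← hline₂, ← hc₂, sub_self]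
  have hmain : n ≠ 0 ∧ W.slope (z₁ / w₁) (z₂ / w₂) (-1 / w₁) (-1 / w₂) = l / n ∧
      cA3 W.a₂ W.a₄ W.a₆ l * (z₁ ^ 2 + z₁ * z₂ + z₂ ^ 2) +
        cA2 W.a₁ W.a₂ W.a₃ W.a₄ W.a₆ l n * (z₁ + z₂) + cA1 W.a₁ W.a₃ W.a₄ W.a₆ l n = 0 := by
    by_cases hx : z₁ / w₁ = z₂ / w₂
    · have hy : -1 / w₁ ≠ W.negY (z₂ / w₂) (-1 / w₂) := fun h => hxy ⟨hx, h⟩
      have hyy : -1 / w₁ = -1 / w₂ := Y_eq_of_Y_ne h₁ h₂ hx hy
      have hww : w₁ = w₂ := by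
        field_simp at hyy
        exact neg_injective hyy.symm
      subst hww
      have hzz : z₁ = z₂ := by
        field_simp at hx
        exact hx
      subst hzz
      obtain ⟨hn0, hs⟩ := slope_tangent W hw₁0 hc₁ hy hl hn
      exact ⟨hn0, hs, relB_of_tangent hline₁ hl⟩
    · obtain ⟨hn0, hs⟩ := slope_chord W hw₁0 hw₂0 hx hline₁ hline₂
      have hne : z₁ ≠ z₂ := by
        rintro rfl
        apply hx
        rw [hline₁, hline₂]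
      exact ⟨hn0, hs, relB_of_chord hne hr₁ hr₂⟩
  obtain ⟨hn0, hs, hB⟩ := hmain
  obtain ⟨hw₃0, hc₃, hX, hY⟩ :=
    add_formulas W hw₁0 hw₂0 hn0 hline₁ hline₂ hw₃ hA30 hc₁ hB hz₃
  exact ⟨z₃, w₃, hw₃0, hz₃v, hw₃v, hc₃, by rw [hs]; exact hX, by rw [hs]; exact hY, hu, hfin⟩

/-- the `z`-coordinate `-x/y` of a point (`0` at the origin) -/
def zOf : W.Point → K
  | .zero => 0
  | .some x y _ => -x / y

theorem zOf_zero : zOf (0 : W.Point) = 0 := rfl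

theorem zOf_some {x y : K} (h : W.Nonsingular x y) : zOf (Point.some x y h) = -x / y := rfl

variable (v) in
/-- membership in the kernel of reduction with respect to the valuation `v` -/
def InKer (P : W.Point) : Prop :=
  P = 0 ∨ ∃ (x y : K) (h : W.Nonsingular x y), P = Point.some x y h ∧ 1 < v x

theorem inKer_zero : InKer v (0 : W.Point) := Or.inl rfl

theorem inKer_some_iff {x y : K} {h : W.Nonsingular x y} :
    InKer v (Point.some x y h) ↔ 1 < v x := by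
  constructor
  · rintro (h0 | ⟨x', y', h', he, hx⟩)
    · exact absurd h0 (Point.some_ne_zero h)
    · rw [Point.some.injEq] at he
      rw [he.1]
      exact hx
  · intro hx
    exact Or.inr ⟨x, y, h, rfl, hx⟩

theorem inKer_neg {P : W.Point} (hP : InKer v P) : InKer v (-P) := by
  rcases hP with rfl | ⟨x, y, h, rfl, hx⟩
  · rw [neg_zero]
    exact inKer_zero
  · rw [Point.neg_some]
    exact inKer_some_iff.mpr hx

theorem v_zOf_lt_one (hI : IntCoeffs v W.a₁ W.a₂ W.a₃ W.a₄ W.a₆) {P : W.Point}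
    (hP : InKer v P) : v (zOf P) < 1 := by
  rcases hP with rfl | ⟨x, y, h, rfl, hx⟩
  · rw [zOf_zero, map_zero]
    exact zero_lt_one
  · rw [zOf_some]
    exact (zw_small hI ((equation_iff _ _).mp h.1) hx).2.1

/-- the main lemma: the kernel of reduction is closed under addition, and `z` is additive on it
modulo squares -/
theorem inKer_add_aux (hI : IntCoeffs v W.a₁ W.a₂ W.a₃ W.a₄ W.a₆) {r : Γ₀} (hr : r < 1)
    {P₁ P₂ : W.Point} (h₁ : InKer v P₁) (h₂ : InKer v P₂) (hz₁ : v (zOf P₁) ≤ r)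
    (hz₂ : v (zOf P₂) ≤ r) :
    InKer v (P₁ + P₂) ∧ v (zOf (P₁ + P₂) - zOf P₁ - zOf P₂) ≤ r * r := by
  have hr1 : r ≤ 1 := hr.le
  have hrr : r * r ≤ r := sq_le_self_of_le_one hr1
  rcases h₁ with rfl | ⟨x₁, y₁, hn₁, rfl, hx₁⟩
  · rw [zero_add, zOf_zero, sub_zero, sub_self, map_zero]
    exact ⟨h₂, zero_le⟩
  rcases h₂ with rfl | ⟨x₂, y₂, hn₂, rfl, hx₂⟩
  · rw [add_zero, zOf_zero, sub_zero, sub_self, map_zero]
    exact ⟨inKer_some_iff.mpr hx₁, zero_le⟩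
  obtain ⟨hy₁, hvz₁, hvw₁, -⟩ := zw_small hI ((equation_iff _ _).mp hn₁.1) hx₁
  obtain ⟨hy₂, hvz₂, hvw₂, -⟩ := zw_small hI ((equation_iff _ _).mp hn₂.1) hx₂
  have hc₁ := zw_equation W hn₁.1 hy₁
  have hc₂ := zw_equation W hn₂.1 hy₂
  rw [zOf_some] at hz₁ hz₂
  rw [zOf_some, zOf_some]
  obtain ⟨z₁, hz₁e⟩ : ∃ z₁ : K, z₁ = -x₁ / y₁ := ⟨_, rfl⟩
  obtain ⟨w₁, hw₁e⟩ : ∃ w₁ : K, w₁ = -1 / y₁ := ⟨_, rfl⟩
  obtain ⟨z₂, hz₂e⟩ : ∃ z₂ : K, z₂ = -x₂ / y₂ := ⟨_, rfl⟩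
  obtain ⟨w₂, hw₂e⟩ : ∃ w₂ : K, w₂ = -1 / y₂ := ⟨_, rfl⟩
  rw [← hz₁e, ← hw₁e] at hc₁
  rw [← hz₂e, ← hw₂e] at hc₂
  rw [← hz₁e] at hz₁ hvz₁
  rw [← hz₂e] at hz₂ hvz₂
  rw [← hw₁e] at hvw₁
  rw [← hw₂e] at hvw₂
  rw [← hz₁e, ← hz₂e]
  have hw₁0 : w₁ ≠ 0 := by
    rw [hw₁e]
    exact div_ne_zero (neg_ne_zero.mpr one_ne_zero) hy₁
  have hw₂0 : w₂ ≠ 0 := by
    rw [hw₂e]
    exact div_ne_zero (neg_ne_zero.mpr one_ne_zero) hy₂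
  have hxe₁ : x₁ = z₁ / w₁ := by
    rw [hz₁e, hw₁e]
    field_simp
  have hye₁ : y₁ = -1 / w₁ := by
    rw [hw₁e]
    field_simp
  have hxe₂ : x₂ = z₂ / w₂ := by
    rw [hz₂e, hw₂e]
    field_simp
  have hye₂ : y₂ = -1 / w₂ := by
    rw [hw₂e]
    field_simp
  clear hz₁e hw₁e hz₂e hw₂e
  subst hxe₁ hye₁ hxe₂ hye₂
  have hw₁r : v w₁ ≤ r * r := by
    rw [v_w_eq hI hvz₁ hvw₁ hc₁, pow_succ, pow_two]
    exact mul_le_of_le_of_le_one (mul_le_mul' hz₁ hz₁) (hz₁.trans hr1)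
  have hw₂r : v w₂ ≤ r * r := by
    rw [v_w_eq hI hvz₂ hvw₂ hc₂, pow_succ, pow_two]
    exact mul_le_of_le_of_le_one (mul_le_mul' hz₂ hz₂) (hz₂.trans hr1)
  by_cases hxy : z₁ / w₁ = z₂ / w₂ ∧ -1 / w₁ = W.negY (z₂ / w₂) (-1 / w₂)
  · rw [Point.add_of_Y_eq hxy.1 hxy.2]
    refine ⟨inKer_zero, ?_⟩
    rw [zOf_zero]
    obtain ⟨hx, hy⟩ := hxy
    simp only [negY] at hy
    have hx' : z₁ * w₂ = z₂ * w₁ := by
      field_simp at hx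
      linear_combination hx
    have hy' : w₁ + w₂ = W.a₁ * z₂ * w₁ + W.a₃ * w₁ * w₂ := by
      field_simp at hy
      linear_combination -hy
    have key : z₁ + z₂ = W.a₁ * z₁ * z₂ + W.a₃ * z₁ * w₂ := by
      have h0 : (z₁ + z₂ - (W.a₁ * z₁ * z₂ + W.a₃ * z₁ * w₂)) * w₁ = 0 := by
        linear_combination -hx' + z₁ * hy'
      exact sub_eq_zero.mp ((mul_eq_zero.mp h0).resolve_right hw₁0)
    have e : (0 : K) - z₁ - z₂ = -(z₁ + z₂) := by ring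
    rw [e, key]
    refine vle_neg (v.map_add_le ?_ ?_)
    · exact vle_mul (vle_lmul hI.h₁ hz₁) hz₂
    · exact vle_mul (vle_lmul hI.h₃ hz₁) (hw₂r.trans hrr)
  · rw [Point.add_some hxy]
    obtain ⟨z₃, w₃, hw₃0, hz₃v, hw₃v, hc₃, hX, hY, hu, hfin⟩ :=
      zw_add hI hr hw₁0 hw₂0 hn₁.1 hn₂.1 hc₁ hc₂ hz₁ hz₂ hw₁r hw₂r hxy
    refine ⟨inKer_some_iff.mpr ?_, ?_⟩
    · rw [hX]
      exact one_lt_v_x hI hw₃0 (hz₃v.trans_lt hr) ((hw₃v.trans hrr).trans_lt hr) hc₃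
    · rw [zOf_some, addY, hX, hY]
      have hu0 : 1 - lin13 W.a₁ W.a₃ z₃ w₃ ≠ 0 := by
        intro h
        rw [h, map_zero] at hu
        exact zero_ne_one hu
      have e : -(z₃ / w₃) / W.negY (z₃ / w₃) (-1 / w₃) =
          -z₃ / (1 - lin13 W.a₁ W.a₃ z₃ w₃) := by
        have e2 : W.negY (z₃ / w₃) (-1 / w₃) = (1 - lin13 W.a₁ W.a₃ z₃ w₃) / w₃ := by
          simp only [negY, lin13]
          field_simp
          ring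
        rw [e2]
        field_simp
      rw [e]
      exact hfin

theorem inKer_add (hI : IntCoeffs v W.a₁ W.a₂ W.a₃ W.a₄ W.a₆) {P₁ P₂ : W.Point}
    (h₁ : InKer v P₁) (h₂ : InKer v P₂) : InKer v (P₁ + P₂) :=
  (inKer_add_aux hI (max_lt (v_zOf_lt_one hI h₁) (v_zOf_lt_one hI h₂)) h₁ h₂
    (le_max_left _ _) (le_max_right _ _)).1

/-- `z (k P) ≡ k z(P)` modulo `r ^ 2` if `v (z P) ≤ r < 1` -/
theorem inKer_nsmul (hI : IntCoeffs v W.a₁ W.a₂ W.a₃ W.a₄ W.a₆) {r : Γ₀} (hr : r < 1)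
    {P : W.Point} (hP : InKer v P) (hz : v (zOf P) ≤ r) (k : ℕ) :
    InKer v (k • P) ∧ v (zOf (k • P) - (k : K) * zOf P) ≤ r * r := by
  have hr1 : r ≤ 1 := hr.le
  have hrr : r * r ≤ r := sq_le_self_of_le_one hr1
  induction k with
  | zero =>
    rw [zero_nsmul, zOf_zero, Nat.cast_zero, zero_mul, sub_self, map_zero]
    exact ⟨inKer_zero, zero_le⟩
  | succ k ih =>
    obtain ⟨hk, hkz⟩ := ih
    have hkz' : v (zOf (k • P)) ≤ r := by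
      have e : zOf (k • P) = (zOf (k • P) - (k : K) * zOf P) + (k : K) * zOf P := by ring
      rw [e]
      exact v.map_add_le (hkz.trans hrr) (vle_lmul (vle_natCast k) hz)
    obtain ⟨h1, h2⟩ := inKer_add_aux hI hr hk hP hkz' hz
    rw [succ_nsmul]
    refine ⟨h1, ?_⟩
    have e : zOf (k • P + P) - ((k + 1 : ℕ) : K) * zOf P =
        (zOf (k • P + P) - zOf (k • P) - zOf P) + (zOf (k • P) - (k : K) * zOf P) := by
      push_cast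
      ring
    rw [e]
    exact v.map_add_le h2 hkz

/-- **(R1)**, valuation form: the kernel of reduction has no `n`-torsion if `v n = 1` -/
theorem eq_zero_of_nsmul_eq_zero_of_inKer (hI : IntCoeffs v W.a₁ W.a₂ W.a₃ W.a₄ W.a₆) {n : ℕ}
    (hn : v (n : K) = 1) {P : W.Point} (hP : InKer v P) (h : n • P = 0) : P = 0 := by
  rcases hP with rfl | ⟨x, y, hns, rfl, hx⟩
  · rfl
  · exfalso
    obtain ⟨-, hvz, -, hz0⟩ := zw_small hI ((equation_iff _ _).mp hns.1) hx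
    have hle := (inKer_nsmul hI hvz (P := Point.some x y hns) (inKer_some_iff.mpr hx) le_rfl n).2
    rw [h, zOf_zero, zero_sub, Valuation.map_neg, map_mul, hn, one_mul, zOf_some] at hle
    have hpos : 0 < v (-x / y) := zero_lt_iff.mpr ((v.ne_zero_iff).mpr hz0)
    exact absurd (mul_lt_of_lt_one_right hpos hvz) (not_lt.mpr hle)

end Fermat.Agent.Tate.R1
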