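/-
Project TATE (S05), package (R1) (helper8): PUBLIC INTERFACE.

`K` a field, `A : ValuationSubring K`, `W : WeierstrassCurve.Affine K` with coefficients in `A`.
* `kerRed hW : AddSubgroup W.Point` : the kernel of reduction `E₁ = {0} ∪ {(x, y) | x ∉ A}`;
* `eq_zero_of_nsmul_eq_zero` : `E₁` has no `n`-torsion for `n` a unit of `A`;
* `x_mem_of_nsmul_eq_zero`, `y_mem_of_nsmul_eq_zero` : `n`-torsion points are integral.
-/
import Fermat.Agent.Tate.R1_helper8_Main
import Fermat.Agent.Tate.Integral_helper8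

set_option autoImplicit false
set_option linter.unusedSectionVars false

namespace Fermat.Agent.Tate

open WeierstrassCurve WeierstrassCurve.Affine

variable {K : Type*} [Field K] [DecidableEq K] {A : ValuationSubring K}
  {W : WeierstrassCurve.Affine K}

theorem IsIntegralCurve.intCoeffs (hW : IsIntegralCurve A W) :
    R1.IntCoeffs A.valuation W.a₁ W.a₂ W.a₃ W.a₄ W.a₆ :=
  ⟨(A.valuation_le_one_iff _).mpr hW.a₁, (A.valuation_le_one_iff _).mpr hW.a₂,
    (A.valuation_le_one_iff _).mpr hW.a₃, (A.valuation_le_one_iff _).mpr hW.a₄,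
    (A.valuation_le_one_iff _).mpr hW.a₆⟩

theorem one_lt_valuation_iff_not_mem {x : K} : 1 < A.valuation x ↔ x ∉ A := by
  rw [← not_le, A.valuation_le_one_iff]

/-- the kernel of reduction `E₁ = {0} ∪ {(x, y) | x ∉ A}` of an integral Weierstrass curve, as a
subgroup of Mathlib's group of nonsingular points -/
def kerRed (hW : IsIntegralCurve A W) : AddSubgroup W.Point where
  carrier := {P | R1.InKer A.valuation P}
  zero_mem' := R1.inKer_zero
  add_mem' := fun h₁ h₂ => R1.inKer_add hW.intCoeffs h₁ h₂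
  neg_mem' := fun h => R1.inKer_neg h

theorem mem_kerRed_iff (hW : IsIntegralCurve A W) {P : W.Point} :
    P ∈ kerRed hW ↔ P = 0 ∨ ∃ (x y : K) (h : W.Nonsingular x y), P = Point.some x y h ∧ x ∉ A := by
  change R1.InKer A.valuation P ↔ _
  unfold R1.InKer
  simp only [one_lt_valuation_iff_not_mem]

theorem some_mem_kerRed_iff (hW : IsIntegralCurve A W) {x y : K} {h : W.Nonsingular x y} :
    Point.some x y h ∈ kerRed hW ↔ x ∉ A := by
  change R1.InKer A.valuation _ ↔ _
  rw [R1.inKer_some_iff, one_lt_valuation_iff_not_mem]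

theorem valuation_natCast_eq_one {n : ℕ} (hn0 : (n : K) ≠ 0) (hn : ((n : K))⁻¹ ∈ A) :
    A.valuation (n : K) = 1 := by
  refine le_antisymm (R1.vle_natCast n) ?_
  have h1 : A.valuation ((n : K))⁻¹ ≤ 1 := (A.valuation_le_one_iff _).mpr hn
  rw [map_inv₀] at h1
  have hpos : 0 < A.valuation (n : K) := zero_lt_iff.mpr ((A.valuation.ne_zero_iff).mpr hn0)
  exact (inv_le_one₀ hpos).mp h1

/-- **(R1)**: the kernel of reduction has no `n`-torsion when `n` is a unit of `A` -/
theorem eq_zero_of_nsmul_eq_zero (hW : IsIntegralCurve A W) {n : ℕ} (hn0 : (n : K) ≠ 0)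
    (hn : ((n : K))⁻¹ ∈ A) {P : W.Point} (hP : P ∈ kerRed hW) (h : n • P = 0) : P = 0 :=
  R1.eq_zero_of_nsmul_eq_zero_of_inKer hW.intCoeffs (valuation_natCast_eq_one hn0 hn) hP h

/-- `n`-torsion points of an integral Weierstrass curve have integral `x`-coordinate
(`n` a unit of `A`) -/
theorem x_mem_of_nsmul_eq_zero (hW : IsIntegralCurve A W) {n : ℕ} (hn0 : (n : K) ≠ 0)
    (hn : ((n : K))⁻¹ ∈ A) {x y : K} {h : W.Nonsingular x y} (hP : n • Point.some x y h = 0) :
    x ∈ A := by
  by_contra hx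
  exact Point.some_ne_zero h
    (eq_zero_of_nsmul_eq_zero hW hn0 hn ((some_mem_kerRed_iff hW).mpr hx) hP)

/-- on an integral Weierstrass curve, `y` is integral if `x` is -/
theorem y_mem_of_x_mem (hW : IsIntegralCurve A W) {x y : K} (h : W.Equation x y) (hx : x ∈ A) :
    y ∈ A := by
  rw [equation_iff] at h
  by_contra hy
  have hI := hW.intCoeffs
  have hvx : A.valuation x ≤ 1 := (A.valuation_le_one_iff _).mpr hx
  have hvy : 1 < A.valuation y := one_lt_valuation_iff_not_mem.mpr hy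
  have hy0 : y ≠ 0 := by
    rintro rfl
    exact hy A.zero_mem
  have hvt : A.valuation y⁻¹ < 1 := by
    rw [map_inv₀]
    exact inv_lt_one_of_one_lt₀ hvy
  have key : (1 : K) = y⁻¹ * ((x ^ 3 + W.a₂ * x ^ 2 + W.a₄ * x + W.a₆) * y⁻¹ - W.a₁ * x - W.a₃) := by
    field_simp
    linear_combination h
  have hle : A.valuation (1 : K) ≤ A.valuation y⁻¹ := by
    conv_lhs => rw [key]
    refine R1.vle_rmul le_rfl ?_
    refine (A.valuation).map_sub_le ((A.valuation).map_sub_le ?_ ?_) hI.h₃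
    · refine R1.vle_rmul ?_ hvt.le
      refine (A.valuation).map_add_le ((A.valuation).map_add_le ((A.valuation).map_add_le
        ?_ ?_) ?_) hI.h₆
      · rw [map_pow]
        exact pow_le_one₀ zero_le hvx
      · rw [map_mul, map_pow]
        exact mul_le_one' hI.h₂ (pow_le_one₀ zero_le hvx)
      · exact R1.vle_lmul hI.h₄ hvx
    · exact R1.vle_lmul hI.h₁ hvx
  rw [(A.valuation).map_one] at hle
  exact absurd hvt (not_lt.mpr hle)

/-- `n`-torsion points of an integral Weierstrass curve have integral `y`-coordinate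
(`n` a unit of `A`) -/
theorem y_mem_of_nsmul_eq_zero (hW : IsIntegralCurve A W) {n : ℕ} (hn0 : (n : K) ≠ 0)
    (hn : ((n : K))⁻¹ ∈ A) {x y : K} {h : W.Nonsingular x y} (hP : n • Point.some x y h = 0) :
    y ∈ A :=
  y_mem_of_x_mem hW h.1 (x_mem_of_nsmul_eq_zero hW hn0 hn hP)

/-- **(R1), corollary**: `n`-torsion points of an integral Weierstrass curve are integral
(`n` a unit of `A`); this is the hypothesis `hR1` of `Tate/Chord.lean` -/
theorem mem_of_nsmul_eq_zero (hW : IsIntegralCurve A W) {n : ℕ} (hn0 : (n : K) ≠ 0)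
    (hn' : ((n : K))⁻¹ ∈ A) {x y : K} (h : W.Nonsingular x y)
    (ht : n • Point.some x y h = 0) : x ∈ A ∧ y ∈ A :=
  ⟨x_mem_of_nsmul_eq_zero hW hn0 hn' ht, y_mem_of_nsmul_eq_zero hW hn0 hn' ht⟩

/-- the same in characteristic zero -/
theorem mem_of_nsmul_eq_zero' [CharZero K] (hW : IsIntegralCurve A W) {n : ℕ} (hn0 : n ≠ 0)
    (hn' : ((n : K))⁻¹ ∈ A) {x y : K} (h : W.Nonsingular x y)
    (ht : n • Point.some x y h = 0) : x ∈ A ∧ y ∈ A :=
  mem_of_nsmul_eq_zero hW (Nat.cast_ne_zero.mpr hn0) hn' h ht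

end Fermat.Agent.Tate
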