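/-
Project TATE (S05), package (VC) (helper7): an admissible change of variables `C` induces a group
isomorphism between the points of `C • W` and the points of `W` (Mathlib's affine group law),
compatible with maps of points induced by field homomorphisms.
-/
import Mathlib

set_option autoImplicit false
set_option linter.unusedSectionVars false

namespace Fermat.Agent.Tate

open WeierstrassCurve WeierstrassCurve.Affine

section Formulas

variable {F : Type*} [Field F] (W : WeierstrassCurve F) (C : WeierstrassCurve.VariableChange F)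

/-- The `X`-coordinate on `W` of the point with coordinates `(x, y)` on `C • W`. -/
def vcX (x : F) : F := (C.u : F) ^ 2 * x + C.r

/-- The `Y`-coordinate on `W` of the point with coordinates `(x, y)` on `C • W`. -/
def vcY (x y : F) : F := (C.u : F) ^ 3 * y + (C.u : F) ^ 2 * C.s * x + C.t

theorem vcX_injective : Function.Injective (vcX C) := by
  intro x x' h
  have hu : (C.u : F) ^ 2 ≠ 0 := pow_ne_zero _ C.u.ne_zero
  simp only [vcX] at h
  exact mul_left_cancel₀ hu (add_right_cancel h)

theorem vcY_injective (x : F) : Function.Injective (vcY C x) := by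
  intro y y' h
  have hu : (C.u : F) ^ 3 ≠ 0 := pow_ne_zero _ C.u.ne_zero
  simp only [vcY] at h
  exact mul_left_cancel₀ hu (add_right_cancel (add_right_cancel h))

/-- The Weierstrass polynomial of `W` at the transformed point is `u⁶` times that of `C • W`. -/
theorem evalEval_polynomial_vc (x y : F) :
    vcY C x y ^ 2 + W.a₁ * vcX C x * vcY C x y + W.a₃ * vcY C x y
      - (vcX C x ^ 3 + W.a₂ * vcX C x ^ 2 + W.a₄ * vcX C x + W.a₆) =
    (C.u : F) ^ 6 * (y ^ 2 + (C • W).a₁ * x * y + (C • W).a₃ * y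
      - (x ^ 3 + (C • W).a₂ * x ^ 2 + (C • W).a₄ * x + (C • W).a₆)) := by
  have hu : (C.u : F) ≠ 0 := C.u.ne_zero
  simp only [variableChange_a₁, variableChange_a₂, variableChange_a₃, variableChange_a₄,
    variableChange_a₆, Units.val_inv_eq_inv_val, vcX, vcY]
  field_simp
  ring

theorem equation_vc (x y : F) :
    (C • W).toAffine.Equation x y ↔ W.toAffine.Equation (vcX C x) (vcY C x y) := by
  have hu : (C.u : F) ^ 6 ≠ 0 := pow_ne_zero _ C.u.ne_zero
  rw [equation_iff', equation_iff', evalEval_polynomial_vc, mul_eq_zero]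
  simp [hu]

/-- Transformation of the partial derivative with respect to `Y`. -/
theorem polyY_vc (x y : F) :
    2 * vcY C x y + W.a₁ * vcX C x + W.a₃ =
      (C.u : F) ^ 3 * (2 * y + (C • W).a₁ * x + (C • W).a₃) := by
  have hu : (C.u : F) ≠ 0 := C.u.ne_zero
  simp only [variableChange_a₁, variableChange_a₃, Units.val_inv_eq_inv_val, vcX, vcY]
  field_simp
  ring

/-- Transformation of the partial derivative with respect to `X`. -/
theorem polyX_vc (x y : F) :
    W.a₁ * vcY C x y - (3 * vcX C x ^ 2 + 2 * W.a₂ * vcX C x + W.a₄) =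
      (C.u : F) ^ 4 * ((C • W).a₁ * y - (3 * x ^ 2 + 2 * (C • W).a₂ * x + (C • W).a₄))
        - C.s * ((C.u : F) ^ 3 * (2 * y + (C • W).a₁ * x + (C • W).a₃)) := by
  have hu : (C.u : F) ≠ 0 := C.u.ne_zero
  simp only [variableChange_a₁, variableChange_a₂, variableChange_a₃, variableChange_a₄,
    Units.val_inv_eq_inv_val, vcX, vcY]
  field_simp
  ring

theorem nonsingular_vc (x y : F) :
    (C • W).toAffine.Nonsingular x y ↔ W.toAffine.Nonsingular (vcX C x) (vcY C x y) := by
  have hu3 : (C.u : F) ^ 3 ≠ 0 := pow_ne_zero _ C.u.ne_zero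
  have hu4 : (C.u : F) ^ 4 ≠ 0 := pow_ne_zero _ C.u.ne_zero
  rw [nonsingular_iff', nonsingular_iff', ← equation_vc, polyY_vc, polyX_vc]
  refine and_congr_right fun _ => ?_
  constructor
  · rintro (h | h)
    · by_cases hy : 2 * y + (C • W).a₁ * x + (C • W).a₃ = 0
      · left
        rw [hy, mul_zero, mul_zero, sub_zero]
        exact mul_ne_zero hu4 h
      · right
        exact mul_ne_zero hu3 hy
    · right
      exact mul_ne_zero hu3 h
  · rintro (h | h)
    · by_cases hy : 2 * y + (C • W).a₁ * x + (C • W).a₃ = 0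
      · left
        rw [hy, mul_zero, mul_zero, sub_zero] at h
        exact right_ne_zero_of_mul h
      · right
        exact hy
    · right
      exact right_ne_zero_of_mul h

theorem negY_vc (x y : F) :
    W.toAffine.negY (vcX C x) (vcY C x y) = vcY C x ((C • W).toAffine.negY x y) := by
  have hu : (C.u : F) ≠ 0 := C.u.ne_zero
  simp only [negY, variableChange_a₁, variableChange_a₃, Units.val_inv_eq_inv_val, vcX, vcY]
  field_simp
  ring

theorem addX_vc (x₁ x₂ ℓ : F) :
    W.toAffine.addX (vcX C x₁) (vcX C x₂) ((C.u : F) * ℓ + C.s) =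
      vcX C ((C • W).toAffine.addX x₁ x₂ ℓ) := by
  have hu : (C.u : F) ≠ 0 := C.u.ne_zero
  simp only [addX, variableChange_a₁, variableChange_a₂, Units.val_inv_eq_inv_val, vcX]
  field_simp
  ring

theorem negAddY_vc (x₁ x₂ y₁ ℓ : F) :
    W.toAffine.negAddY (vcX C x₁) (vcX C x₂) (vcY C x₁ y₁) ((C.u : F) * ℓ + C.s) =
      vcY C ((C • W).toAffine.addX x₁ x₂ ℓ) ((C • W).toAffine.negAddY x₁ x₂ y₁ ℓ) := by
  have hu : (C.u : F) ≠ 0 := C.u.ne_zero
  rw [negAddY, addX_vc]
  simp only [negAddY, vcX, vcY]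
  ring

theorem addY_vc (x₁ x₂ y₁ ℓ : F) :
    W.toAffine.addY (vcX C x₁) (vcX C x₂) (vcY C x₁ y₁) ((C.u : F) * ℓ + C.s) =
      vcY C ((C • W).toAffine.addX x₁ x₂ ℓ) ((C • W).toAffine.addY x₁ x₂ y₁ ℓ) := by
  rw [addY, negAddY_vc, addX_vc, negY_vc, addY]

variable [DecidableEq F]

theorem slope_vc {x₁ x₂ y₁ y₂ : F} (h₁ : (C • W).toAffine.Equation x₁ y₁)
    (h₂ : (C • W).toAffine.Equation x₂ y₂)
    (hxy : ¬(x₁ = x₂ ∧ y₁ = (C • W).toAffine.negY x₂ y₂)) :
    W.toAffine.slope (vcX C x₁) (vcX C x₂) (vcY C x₁ y₁) (vcY C x₂ y₂) =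
      (C.u : F) * (C • W).toAffine.slope x₁ x₂ y₁ y₂ + C.s := by
  have hu : (C.u : F) ≠ 0 := C.u.ne_zero
  by_cases hx : x₁ = x₂
  · have hy : y₁ ≠ (C • W).toAffine.negY x₂ y₂ := fun h => hxy ⟨hx, h⟩
    have hy12 : y₁ = y₂ := Y_eq_of_Y_ne h₁ h₂ hx hy
    subst hx hy12
    have hy' : vcY C x₁ y₁ ≠ W.toAffine.negY (vcX C x₁) (vcY C x₁ y₁) := by
      rw [negY_vc]
      exact fun h => hy (vcY_injective C x₁ h)
    rw [slope_of_Y_ne rfl hy, slope_of_Y_ne rfl hy']
    have hD : y₁ - (C • W).toAffine.negY x₁ y₁ ≠ 0 := sub_ne_zero.mpr hy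
    have hD' : vcY C x₁ y₁ - W.toAffine.negY (vcX C x₁) (vcY C x₁ y₁) ≠ 0 := sub_ne_zero.mpr hy'
    have e1 : vcY C x₁ y₁ - W.toAffine.negY (vcX C x₁) (vcY C x₁ y₁) =
        (C.u : F) ^ 3 * (y₁ - (C • W).toAffine.negY x₁ y₁) := by
      have := polyY_vc W C x₁ y₁
      simp only [negY] at this ⊢
      linear_combination this
    have e2 : 3 * vcX C x₁ ^ 2 + 2 * W.a₂ * vcX C x₁ + W.a₄ - W.a₁ * vcY C x₁ y₁ =
        (C.u : F) ^ 4 * (3 * x₁ ^ 2 + 2 * (C • W).a₂ * x₁ + (C • W).a₄ - (C • W).a₁ * y₁)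
          + C.s * ((C.u : F) ^ 3 * (y₁ - (C • W).toAffine.negY x₁ y₁)) := by
      have := polyX_vc W C x₁ y₁
      simp only [negY] at this ⊢
      linear_combination -this
    rw [div_eq_iff hD', e1, e2]
    field_simp
  · have hx' : vcX C x₁ ≠ vcX C x₂ := fun h => hx (vcX_injective C h)
    rw [slope_of_X_ne hx, slope_of_X_ne hx']
    have h1 : x₁ - x₂ ≠ 0 := sub_ne_zero.mpr hx
    have h2 : vcX C x₁ - vcX C x₂ ≠ 0 := sub_ne_zero.mpr hx'
    rw [div_eq_iff h2]
    simp only [vcX, vcY]
    field_simp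
    ring

end Formulas

section Points

variable {F : Type*} [Field F] [DecidableEq F] (W : WeierstrassCurve F)
  (C : WeierstrassCurve.VariableChange F)

/-- The map on points `(C • W)(F) → W(F)`, `(x, y) ↦ (u²x + r, u³y + u²sx + t)`. -/
def vcPt : (C • W).toAffine.Point → W.toAffine.Point
  | 0 => 0
  | Point.some x y h => Point.some (vcX C x) (vcY C x y) ((nonsingular_vc W C x y).mp h)

@[simp] theorem vcPt_zero : vcPt W C 0 = 0 := rfl

@[simp] theorem vcPt_some {x y : F} (h : (C • W).toAffine.Nonsingular x y) :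
    vcPt W C (Point.some x y h) =
      Point.some (vcX C x) (vcY C x y) ((nonsingular_vc W C x y).mp h) := rfl

theorem vcPt_neg (P : (C • W).toAffine.Point) : vcPt W C (-P) = -vcPt W C P := by
  rcases P with _ | ⟨x, y, h⟩
  · rfl
  · simp only [Point.neg_some, vcPt_some, Point.some.injEq, true_and]
    exact (negY_vc W C x y).symm

theorem vcPt_add (P Q : (C • W).toAffine.Point) :
    vcPt W C (P + Q) = vcPt W C P + vcPt W C Q := by
  rcases P with _ | ⟨x₁, y₁, h₁⟩
  · rw [← Point.zero_def, zero_add, vcPt_zero, zero_add]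
  rcases Q with _ | ⟨x₂, y₂, h₂⟩
  · rw [← Point.zero_def, add_zero, vcPt_zero, add_zero]
  by_cases hxy : x₁ = x₂ ∧ y₁ = (C • W).toAffine.negY x₂ y₂
  · rw [Point.add_of_Y_eq hxy.1 hxy.2, vcPt_zero, vcPt_some, vcPt_some,
      Point.add_of_Y_eq (congrArg _ hxy.1) (by rw [negY_vc, hxy.2, hxy.1])]
  · have hxy' : ¬(vcX C x₁ = vcX C x₂ ∧
        vcY C x₁ y₁ = W.toAffine.negY (vcX C x₂) (vcY C x₂ y₂)) := by
      rintro ⟨hx, hy⟩
      have hx' := vcX_injective C hx
      subst hx'
      rw [negY_vc] at hy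
      exact hxy ⟨rfl, vcY_injective C x₁ hy⟩
    rw [Point.add_some hxy, vcPt_some, vcPt_some, vcPt_some, Point.add_some hxy',
      Point.some.injEq, slope_vc W C h₁.1 h₂.1 hxy, addX_vc, addY_vc]
    exact ⟨rfl, rfl⟩

/-- The homomorphism on points induced by a change of variables. -/
def vcPtHom : (C • W).toAffine.Point →+ W.toAffine.Point where
  toFun := vcPt W C
  map_zero' := rfl
  map_add' := vcPt_add W C

theorem vcPt_injective : Function.Injective (vcPt W C) := by
  rintro (_ | ⟨x₁, y₁, h₁⟩) (_ | ⟨x₂, y₂, h₂⟩) h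
  · rfl
  · exact absurd h (by simp [← Point.zero_def])
  · exact absurd h (by simp [← Point.zero_def])
  · simp only [vcPt_some, Point.some.injEq] at h
    obtain ⟨hx, hy⟩ := h
    have hx' := vcX_injective C hx
    subst hx'
    have hy' := vcY_injective C x₁ hy
    subst hy'
    rfl

theorem vcPt_surjective : Function.Surjective (vcPt W C) := by
  rintro (_ | ⟨X, Y, h⟩)
  · exact ⟨0, rfl⟩
  · have hu : (C.u : F) ≠ 0 := C.u.ne_zero
    set x : F := (X - C.r) / (C.u : F) ^ 2 with hx
    set y : F := (Y - C.s * (X - C.r) - C.t) / (C.u : F) ^ 3 with hy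
    have e1 : vcX C x = X := by
      simp only [vcX, hx]
      field_simp
      ring
    have e2 : vcY C x y = Y := by
      simp only [vcY, hx, hy]
      field_simp
      ring
    have h' : (C • W).toAffine.Nonsingular x y := by
      rw [nonsingular_vc, e1, e2]
      exact h
    refine ⟨Point.some x y h', ?_⟩
    simp only [vcPt_some, Point.some.injEq]
    exact ⟨e1, e2⟩

/-- **(VC)** The group isomorphism `(C • W)(F) ≃+ W(F)` induced by a change of variables. -/
noncomputable def vcPtEquiv : (C • W).toAffine.Point ≃+ W.toAffine.Point :=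
  AddEquiv.ofBijective (vcPtHom W C) ⟨vcPt_injective W C, vcPt_surjective W C⟩

@[simp] theorem vcPtEquiv_apply (P : (C • W).toAffine.Point) : vcPtEquiv W C P = vcPt W C P := rfl

end Points

section OfEq

variable {F : Type*} [Field F] [DecidableEq F] {W W' : WeierstrassCurve F}
  (C : WeierstrassCurve.VariableChange F)

/-- Version of `vcPtEquiv` for a curve propositionally equal to `C • W`. -/
noncomputable def vcPtEquivOfEq (h : W' = C • W) : W'.toAffine.Point ≃+ W.toAffine.Point := by
  subst h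
  exact vcPtEquiv W C

theorem vcPtEquivOfEq_zero (h : W' = C • W) : vcPtEquivOfEq C h 0 = 0 := map_zero _

theorem nonsingular_vc_of_eq (h : W' = C • W) {x y : F} :
    W'.toAffine.Nonsingular x y ↔ W.toAffine.Nonsingular (vcX C x) (vcY C x y) := by
  subst h
  exact nonsingular_vc W C x y

theorem vcPtEquivOfEq_some (h : W' = C • W) {x y : F} (hxy : W'.toAffine.Nonsingular x y) :
    vcPtEquivOfEq C h (Point.some x y hxy) =
      Point.some (vcX C x) (vcY C x y) ((nonsingular_vc_of_eq C h).mp hxy) := by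
  subst h
  rfl

end OfEq

section BaseChange

open scoped WeierstrassCurve.Affine

variable {R : Type*} [CommRing R] (W₀ : WeierstrassCurve R) (C₀ : WeierstrassCurve.VariableChange R)

theorem baseChange_variableChange (K : Type*) [CommRing K] [Algebra R K] :
    (C₀ • W₀).baseChange K = C₀.baseChange K • W₀.baseChange K :=
  (WeierstrassCurve.map_variableChange W₀ C₀ (algebraMap R K)).symm

variable (K : Type*) [Field K] [DecidableEq K] [Algebra R K]

/-- **(VC), base-changed form**: for a curve `W₀` and a change of variables `C₀` over `R`, the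
group isomorphism `(C₀ • W₀)(K) ≃+ W₀(K)` for a field `K` over `R`. -/
noncomputable def vcPtBaseChange :
    ((C₀ • W₀).toAffine⁄K).Point ≃+ (W₀.toAffine⁄K).Point :=
  vcPtEquivOfEq (C₀.baseChange K) (baseChange_variableChange W₀ C₀ K)

theorem vcPtBaseChange_zero : vcPtBaseChange W₀ C₀ K 0 = 0 := map_zero _

theorem nonsingular_vcBaseChange {x y : K} :
    ((C₀ • W₀).toAffine⁄K).Nonsingular x y ↔
      (W₀.toAffine⁄K).Nonsingular (vcX (C₀.baseChange K) x) (vcY (C₀.baseChange K) x y) :=
  nonsingular_vc_of_eq (C₀.baseChange K) (baseChange_variableChange W₀ C₀ K)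

theorem vcPtBaseChange_some {x y : K} (h : ((C₀ • W₀).toAffine⁄K).Nonsingular x y) :
    vcPtBaseChange W₀ C₀ K (Point.some x y h) =
      Point.some (vcX (C₀.baseChange K) x) (vcY (C₀.baseChange K) x y)
        ((nonsingular_vcBaseChange W₀ C₀ K).mp h) :=
  vcPtEquivOfEq_some (C₀.baseChange K) (baseChange_variableChange W₀ C₀ K) h

theorem vcX_baseChange (x : K) :
    vcX (C₀.baseChange K) x = algebraMap R K (C₀.u : R) ^ 2 * x + algebraMap R K C₀.r := rfl

theorem vcY_baseChange (x y : K) :
    vcY (C₀.baseChange K) x y = algebraMap R K (C₀.u : R) ^ 3 * y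
      + algebraMap R K (C₀.u : R) ^ 2 * algebraMap R K C₀.s * x + algebraMap R K C₀.t := rfl

variable {K} {S L : Type*} [CommRing S] [Field L] [DecidableEq L] [Algebra R S] [Algebra R L]
  [Algebra S K] [Algebra S L] [IsScalarTower R S K] [IsScalarTower R S L]

theorem map_vcX (f : K →ₐ[S] L) (x : K) :
    f (vcX (C₀.baseChange K) x) = vcX (C₀.baseChange L) (f x) := by
  have h : ∀ a : R, f (algebraMap R K a) = algebraMap R L a := fun a => by
    rw [IsScalarTower.algebraMap_apply R S K, f.commutes, ← IsScalarTower.algebraMap_apply R S L]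
  simp only [vcX_baseChange, map_add, map_mul, map_pow, h]

theorem map_vcY (f : K →ₐ[S] L) (x y : K) :
    f (vcY (C₀.baseChange K) x y) = vcY (C₀.baseChange L) (f x) (f y) := by
  have h : ∀ a : R, f (algebraMap R K a) = algebraMap R L a := fun a => by
    rw [IsScalarTower.algebraMap_apply R S K, f.commutes, ← IsScalarTower.algebraMap_apply R S L]
  simp only [vcY_baseChange, map_add, map_mul, map_pow, h]

/-- **(VC) is compatible with maps of points** induced by homomorphisms of fields. -/
theorem map_vcPtBaseChange (f : K →ₐ[S] L) (P : ((C₀ • W₀).toAffine⁄K).Point) :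
    Point.map f (vcPtBaseChange W₀ C₀ K P) = vcPtBaseChange W₀ C₀ L (Point.map f P) := by
  rcases P with _ | ⟨x, y, h⟩
  · rw [← Point.zero_def, vcPtBaseChange_zero, Point.map_zero, Point.map_zero,
      vcPtBaseChange_zero]
  · rw [vcPtBaseChange_some, Point.map_some, Point.map_some, vcPtBaseChange_some,
      Point.some.injEq]
    exact ⟨map_vcX C₀ f x, map_vcY C₀ f x y⟩

end BaseChange

end Fermat.Agent.Tate
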