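/-
Project TATE (S05), package (VC) (helper7): the isomorphism on points induced by a change of
variables defined over the base commutes with the Galois action of the Prelude.
-/
import Mathlib
import Fermat.Agent.Tate.VC_helper7
import Fermat.Prelude.Def_FLTPrelim_GaloisRep

set_option autoImplicit false

namespace Fermat.Agent.Tate

open WeierstrassCurve WeierstrassCurve.Affine
open scoped WeierstrassCurve.Affine

variable {R S K : Type*} [CommRing R] [CommRing S] [Field K] [DecidableEq K]
  [Algebra R S] [Algebra R K] [Algebra S K] [IsScalarTower R S K]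
  (W₀ : WeierstrassCurve R) (C₀ : WeierstrassCurve.VariableChange R)

/-- **(VC) is Galois equivariant**: for `σ : K ≃ₐ[S] K` and a change of variables `C₀` defined
over `R`, `σ • e P = e (σ • P)` for `e = vcPtBaseChange W₀ C₀ K : (C₀ • W₀)(K) ≃+ W₀(K)`. -/
theorem smul_vcPtBaseChange (σ : K ≃ₐ[S] K) (P : ((C₀ • W₀).toAffine⁄K).Point) :
    σ • vcPtBaseChange W₀ C₀ K P = vcPtBaseChange W₀ C₀ K (σ • P) :=
  map_vcPtBaseChange W₀ C₀ σ.toAlgHom P

/-- `vcPtBaseChange` preserves `n`-torsion. -/
theorem vcPtBaseChange_mem_torsionBy {n : ℕ} {P : ((C₀ • W₀).toAffine⁄K).Point} :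
    vcPtBaseChange W₀ C₀ K P ∈ Submodule.torsionBy ℤ (W₀.toAffine⁄K).Point n ↔
      P ∈ Submodule.torsionBy ℤ ((C₀ • W₀).toAffine⁄K).Point n := by
  rw [Submodule.mem_torsionBy_iff, Submodule.mem_torsionBy_iff, ← map_zsmul,
    EmbeddingLike.map_eq_zero_iff]

end Fermat.Agent.Tate
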