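/-
Project TATE (S05) (helper8): integrality of a Weierstrass curve with respect to a valuation
subring (tiny shared definition file).
-/
import Mathlib

set_option autoImplicit false

namespace Fermat.Agent.Tate

variable {K : Type*} [Field K]

/-- a Weierstrass curve over the field `K` with coefficients in the valuation subring `A` -/
structure IsIntegralCurve (A : ValuationSubring K) (W : WeierstrassCurve.Affine K) : Prop where
  a₁ : W.a₁ ∈ A
  a₂ : W.a₂ ∈ A
  a₃ : W.a₃ ∈ A
  a₄ : W.a₄ ∈ A
  a₆ : W.a₆ ∈ A

end Fermat.Agent.Tate
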