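import Mathlib
import Fermat.Prelude.Def_FLTPrelim_Ramification
import Fermat.Agent.Tate.NodeGalois
import Fermat.Agent.Tate.Inertia
import Fermat.Agent.Tate.LogValExists
import Fermat.Agent.Tate.Frey_helper7
import Fermat.Agent.Tate.VC_helper7_Galois

set_option autoImplicit false

/-!
# S05 modulo (R1)

The mod `p` representation of the Frey curve is unramified at every odd prime `q ≠ p`, assuming
(R1): for a Weierstrass curve with integral coefficients, `p`-torsion points are integral
(`p` a unit).  Stated over an arbitrary algebraically closed algebraic extension `K` of `ℚ`, to be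
independent of the choice of the instance `Algebra ℚ (AlgebraicClosure ℚ)`.
-/

namespace Fermat.Agent.Tate

open WeierstrassCurve WeierstrassCurve.Affine
open scoped WeierstrassCurve.Affine

/-- the (R1) hypothesis for a valuation subring `A` of `K` and an integer `p` -/
def R1Hyp {K : Type*} [Field K] [DecidableEq K] (A : ValuationSubring K) (p : ℕ) : Prop :=
  ∀ W : Affine K, W.a₁ ∈ A → W.a₂ ∈ A → W.a₃ ∈ A → W.a₄ ∈ A → W.a₆ ∈ A →
    ∀ {x y : K} (h : W.Nonsingular x y), p • Point.some x y h = 0 → x ∈ A ∧ y ∈ A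

theorem frey_unramified_of_R1 {K : Type*} [Field K] [DecidableEq K] [Algebra ℚ K]
    [IsAlgClosed K] [Algebra.IsAlgebraic ℚ K]
    (P : FreyPackage) {q : ℕ} (hq : q.Prime) (hq2 : q ≠ 2)
    (hR1 : ∀ A : ValuationSubring K, (q : K) ∈ A.nonunits → R1Hyp A P.p) :
    WeierstrassCurve.Affine.Point.GaloisRepUnramifiedAt (K := K) ℚ P.freyCurve P.p q := by
  intro A hqA σ hσ x
  have : CharZero K := algebraRat.charZero K
  have hqA' : (q : K) ∈ A.nonunits := hqA
  have hin : ∀ a ∈ A, σ a ∈ A ∧ σ a - a ∈ A.nonunits :=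
    fun a ha => inertia_map_mem_and_sub_mem hσ ha
  apply Subtype.ext
  have hx : P.p • x.1 = 0 := by
    have := x.2
    rw [Submodule.mem_torsionBy_iff, natCast_zsmul] at this
    exact this
  change σ • x.1 = x.1
  by_cases hbad : (q : ℤ) ∣ P.a * P.b * P.c
  · -- multiplicative reduction
    obtain ⟨C₀, c, d, k, hC₀, hcA, hcu, hk, d', hd'A, hd'u, hd⟩ :=
      exists_nodal_model A hq hq2 hqA' P hbad
    obtain ⟨L, hL⟩ := exists_logVal A hq hqA'
    obtain ⟨α, hα⟩ := IsAlgClosed.exists_pow_nat_eq (algebraMap ℚ K c)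
      (by norm_num : 0 < 2)
    have hq0 : (q : K) ≠ 0 := Nat.cast_ne_zero.mpr hq.ne_zero
    have h2u : (2 : K) ∉ A.nonunits := by
      have := natCast_notMem_nonunits A hq hqA' (n := 2)
        (fun h => hq2 ((Nat.prime_dvd_prime_iff_eq hq Nat.prime_two).mp h))
      exact_mod_cast this
    set e := vcPtBaseChange P.freyCurve C₀ K with he
    set Q := e.symm x.1 with hQdef
    have hxQ : x.1 = e Q := by
      rw [hQdef, AddEquiv.apply_symm_apply]
    have hQ : P.p • Q = 0 := by
      rw [hQdef, ← map_nsmul, hx, map_zero]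
    have h1 : ((C₀ • P.freyCurve).toAffine⁄K).a₁ = 0 := by
      rw [hC₀]; simp
    have h2 : ((C₀ • P.freyCurve).toAffine⁄K).a₂ = algebraMap ℚ K c := by
      rw [hC₀]; simp
    have h3 : ((C₀ • P.freyCurve).toAffine⁄K).a₃ = 0 := by
      rw [hC₀]; simp
    have h4 : ((C₀ • P.freyCurve).toAffine⁄K).a₄ = -(algebraMap ℚ K d) ^ 2 := by
      rw [hC₀]; simp
    have h6 : ((C₀ • P.freyCurve).toAffine⁄K).a₆ = -(algebraMap ℚ K d) ^ 2 * algebraMap ℚ K c := by
      rw [hC₀]; simp
    have hdA : algebraMap ℚ K d ∈ A := by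
      have hqm : (q : K) ∈ A := A.nonunits_le hqA'
      rw [hd]; exact mul_mem (pow_mem hqm _) hd'A
    have hfix : σ • Q = Q := by
      refine galois_fix_of_nodal_form (C₀ • P.freyCurve).toAffine L hq0 hL hα h1 h2 h3 h4 h6 hcA hcu
        two_ne_zero h2u P.pp (by have := P.hp5; omega) hk hd'A hd'u hd
        (hR1 A hqA' _ ?_ ?_ ?_ ?_ ?_) σ (by simp) hin Q hQ
      · rw [h1]; exact A.zero_mem
      · rw [h2]; exact hcA
      · rw [h3]; exact A.zero_mem
      · rw [h4]; exact neg_mem (pow_mem hdA 2)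
      · rw [h6]; exact mul_mem (neg_mem (pow_mem hdA 2)) hcA
    rw [hxQ, he, smul_vcPtBaseChange, ← he, hfix]
  · -- good reduction
    exact galois_fix_of_good P.freyCurve.toAffine (freyCurve_a₁_mem P A)
      (freyCurve_a₂_mem P A hq hq2 hqA') (freyCurve_a₃_mem P A)
      (freyCurve_Δ_notMem_nonunits P A hq hq2 hqA' hbad) P.hp_odd
      (hR1 A hqA' _ (freyCurve_a₁_mem P A) (freyCurve_a₂_mem P A hq hq2 hqA')
        (freyCurve_a₃_mem P A) (freyCurve_a₄_mem P A hq hq2 hqA') (freyCurve_a₆_mem P A))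
      σ hin x.1 hx

end Fermat.Agent.Tate
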