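import Mathlib
import Fermat.Prelude.Def_FLTPrelim_GaloisRep
import Fermat.Agent.Tate.NodeGalois
import Fermat.Agent.Tate.R1_helper8

set_option autoImplicit false
set_option linter.unusedSectionVars false

/-!
# Inertia on `p`-torsion points near the node, WITHOUT the hypothesis (R1)

Versions of `Tate/NodeTorsion.lean`, `Tate/NodeGalois.lean` usable at the residue characteristic
`p` itself, where the kernel of reduction `E₁` does have `p`-torsion: for a `p`-torsion point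
`Q` near the node all of whose multiples are integral, and an inertia-like `σ`,
`σ • Q - Q ∈ E₁` (`galois_sub_mem_kerRed_of_node`, `galois_sub_mem_kerRed_of_nodal_form`).
-/

namespace Fermat.Agent.Tate

open WeierstrassCurve WeierstrassCurve.Affine
open scoped WeierstrassCurve.Affine

variable {K : Type*} [Field K] [DecidableEq K] {A : ValuationSubring K}

namespace NodeCtx

variable {C : NodeCtx K A}

/-- **Torsion points near the node**, all of whose multiples are integral: their depth lies in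
`(n/p) ℤ`, and they are not on the middle component. -/
theorem IsModel.torsion_near_node_of_integral {W : Affine K} (hM : C.IsModel W) {p : ℕ}
    (hpodd : Odd p) {x y : K} (h : W.Nonsingular x y) (ht : p • Point.some x y h = 0)
    (hint : ∀ j : ℕ, IntegralPt A (j • Point.some x y h)) (hx : x ∈ A.nonunits) :
    x ≠ 0 ∧ y ≠ 0 ∧ C.L.w y = C.L.w x ∧ 2 * C.L.w x < C.n ∧
      ∃ m : ℤ, (p : ℚ) * C.L.w x = m * C.n := by
  have hn := C.n_pos
  obtain ⟨k, hk⟩ := hM.depthPt_nsmul (Point.some x y h) p (fun j _ => hint j)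
  rw [ht, depthPt_zero, depthPt_some] at hk
  have hN := hM.nearPt h.1 hx
  have h2y : ∀ a b : K, a = y - C.α * x → b = y + C.α * x → 2 * y = b + a := by
    intro a b ha hb; rw [ha, hb]; ring
  have ydone : ∀ z : K, z ≠ 0 → C.L.w z = C.L.w x → 2 * y = z → y ≠ 0 ∧ C.L.w y = C.L.w x := by
    intro z hz hwz h2
    have hy0 : y ≠ 0 := by
      rintro rfl
      rw [mul_zero] at h2
      exact hz h2.symm
    refine ⟨hy0, ?_⟩
    have := C.L.map_mul C.two_ne hy0
    rw [h2, hwz, C.two_unit, zero_add] at this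
    exact this.symm
  rcases hN.classify with hc | hc | hc
  · -- middle component: impossible for odd `p`
    exfalso
    rw [hc.depth_eq hx] at hk
    obtain ⟨j, rfl⟩ := hpodd
    have h1 : ((2 * j + 1 : ℕ) : ℚ) * (C.n / 2) + k * C.n = 0 := by linarith
    have h2 : ((2 * (j : ℤ) + 1 + 2 * k : ℤ) : ℚ) * C.n = 0 := by
      push_cast at h1 ⊢
      linarith
    rcases mul_eq_zero.mp h2 with h3 | h3
    · have h4 : (2 * (j : ℤ) + 1 + 2 * k : ℤ) = 0 := by exact_mod_cast h3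
      omega
    · linarith
  · rw [hc.depth_eq hx] at hk
    obtain ⟨hb0, hwb⟩ := C.L.map_add_of_gt hc.hb (by rw [hc.hwb]; exact hc.ha)
    rw [hc.hwb] at hwb
    obtain ⟨hy0, hwy⟩ := ydone _ hb0 hwb (h2y _ _ rfl rfl)
    exact ⟨hc.hx0, hy0, hwy, hc.hx, -k, by push_cast; linarith⟩
  · rw [hc.depth_eq hx] at hk
    obtain ⟨ha0, hwa⟩ := C.L.map_add_of_gt' hc.ha (by rw [hc.hwa]; exact hc.hb)
    rw [hc.hwa] at hwa
    obtain ⟨hy0, hwy⟩ := ydone _ ha0 hwa (h2y _ _ rfl rfl)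
    exact ⟨hc.hx0, hy0, hwy, hc.hx, (p : ℤ) + k, by push_cast; linarith⟩

/-- **Chord trick near the node, without (R1)**: two points near the node which are close to
each other either coincide, or their difference is an affine point with non-integral abscissa
(i.e. lies in the kernel of reduction). -/
theorem IsModel.sub_of_close {W : Affine K} (hM : C.IsModel W)
    {x y x' y' : K} (h : W.Nonsingular x y) (h' : W.Nonsingular x' y')
    (hx0 : x ≠ 0) (hy0 : y ≠ 0) (hwy : C.L.w y = C.L.w x) (hxA : x ∈ A) (hx'A : x' ∈ A)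
    (hcx : C.L.Gt (C.L.w x) (x' - x)) (hcy : C.L.Gt (C.L.w y) (y' - y)) :
    Point.some x' y' h' = Point.some x y h ∨
      ∃ (X Y : K) (hXY : W.Nonsingular X Y),
        Point.some x' y' h' - Point.some x y h = Point.some X Y hXY ∧ X ∉ A := by
  by_cases hxx : x' = x
  · subst hxx
    rcases Y_eq_of_X_eq h'.1 h.1 rfl with hyy | hyy
    · subst hyy; exact Or.inl rfl
    · exfalso
      rw [hM.negY] at hyy
      have e : y' - y = -(2 * y) := by rw [hyy]; ring
      rw [e] at hcy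
      have := hcy.lt (neg_ne_zero.mpr (mul_ne_zero C.two_ne hy0))
      rw [C.L.map_neg, C.L.map_mul C.two_ne hy0, C.two_unit] at this
      linarith
  right
  -- the chord through `P'` and `-P`
  have hne : ¬ (x' = x ∧ y' = W.negY x (W.negY x y)) := fun hh => hxx hh.1
  have hsum := Point.add_some (h₁ := h') (h₂ := (nonsingular_neg ..).mpr h) hne
  refine ⟨_, _, _, by rw [sub_eq_add_neg, Point.neg_some]; exact hsum, ?_⟩
  intro hXA
  -- but the abscissa is not integral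
  set l := W.slope x' x y' (W.negY x y) with hl
  have hlv : l = (y' + y) / (x' - x) := by
    rw [hl, slope_of_X_ne hxx, hM.negY]; ring
  have hd0 : x' - x ≠ 0 := sub_ne_zero.mpr hxx
  have hwd := hcx.lt hd0
  have hnum : y' + y ≠ 0 ∧ C.L.w (y' + y) = C.L.w y := by
    have e : y' + y = 2 * y + (y' - y) := by ring
    rw [e]
    have h2y : C.L.w (2 * y) = C.L.w y := by rw [C.L.map_mul C.two_ne hy0, C.two_unit, zero_add]
    have := C.L.map_add_of_gt (mul_ne_zero C.two_ne hy0) (by rw [h2y]; exact hcy)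
    rwa [h2y] at this
  have hl0 : l ≠ 0 := by rw [hlv]; exact div_ne_zero hnum.1 hd0
  have hwl : C.L.w l < 0 := by
    rw [hlv, C.L.map_div hnum.1 hd0, hnum.2]; linarith
  have hX : W.addX x' x l = l ^ 2 + (-(C.α ^ 2) - x' - x) := by
    simp only [Affine.addX, hM.a₁, hM.a₂]; ring
  have hrest : C.L.Ge 0 (-(C.α ^ 2) - x' - x) :=
    LogVal.ge_zero_iff.mpr (sub_mem (sub_mem (neg_mem (A.pow_mem α_mem 2)) hx'A) hxA)
  have hl2 : C.L.w (l ^ 2) = 2 * C.L.w l := by rw [C.L.map_pow hl0]; norm_num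
  have := C.L.map_add_of_gt (pow_ne_zero 2 hl0)
    (hrest.gt_of_lt (by rw [hl2]; linarith) : C.L.Gt (C.L.w (l ^ 2)) _)
  rw [← hX, hl2] at this
  have hnn := C.L.nonneg_of_mem this.1 hXA
  linarith

end NodeCtx

section Galois

variable {R : Type*} {S : Type*} [CommRing R] [CommRing S] [Algebra R S]
  [Algebra R K] [Algebra S K] [IsScalarTower R S K]

/-- **bad (nodal) case at the residue characteristic**: for a `p`-torsion point `Q` near the
node all of whose multiples are integral, `σ • Q - Q` lies in the kernel of reduction. -/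
theorem galois_sub_mem_kerRed_of_node (W' : Affine R) (C : NodeCtx K A) (hM : C.IsModel (W'⁄K))
    (hW : IsIntegralCurve A (W'⁄K)) {p : ℕ} (hp : p.Prime) (hp2 : p ≠ 2)
    {π : K} (hπ0 : π ≠ 0) (hπ : C.L.w π = 1) (k : ℕ) (hn : C.n = 2 * p * k)
    (σ : K ≃ₐ[S] K) (hσπ : σ π = π) (hσ : ∀ a ∈ A, σ a ∈ A ∧ σ a - a ∈ A.nonunits)
    {x y : K} (h : (W'⁄K).Nonsingular x y) (hQ : p • Point.some x y h = 0)
    (hint : ∀ j : ℕ, IntegralPt A (j • Point.some x y h)) (hx : x ∈ A.nonunits) :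
    σ • Point.some x y h - Point.some x y h ∈ kerRed hW := by
  have hp0 : (p : ℚ) ≠ 0 := Nat.cast_ne_zero.mpr hp.ne_zero
  have hσ' : ∀ a ∈ A, (σ : K →+* K) a - a ∈ A.nonunits := fun a ha => (hσ a ha).2
  have hxA : x ∈ A := A.nonunits_le hx
  obtain ⟨hx0, hy0, hwy, -, m, hm⟩ :=
    hM.torsion_near_node_of_integral (hp.odd_of_ne_two hp2) h hQ hint hx
  have hj : C.L.w x = ((2 * m * k : ℤ) : ℚ) := by
    rw [hn] at hm
    have : (p : ℚ) * C.L.w x = p * (2 * m * k) := by rw [hm]; ring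
    have := mul_left_cancel₀ hp0 this
    rw [this]; push_cast; ring
  have hcx : C.L.Gt (C.L.w x) (σ x - x) :=
    C.L.gt_of_inertia hπ0 hπ (σ := (σ : K →+* K)) hσπ hσ' hx0 hj
  have hcy : C.L.Gt (C.L.w y) (σ y - y) :=
    C.L.gt_of_inertia hπ0 hπ (σ := (σ : K →+* K)) hσπ hσ' hy0 (hwy.trans hj)
  rw [smul_some, mem_kerRed_iff]
  rcases hM.sub_of_close h ((W'.baseChange_nonsingular σ.toAlgHom.injective ..).mpr h)
    hx0 hy0 hwy hxA (hσ x hxA).1 hcx hcy with heq | ⟨X, Y, hXY, hsub, hX⟩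
  · left
    rw [sub_eq_zero]
    exact heq
  · exact Or.inr ⟨X, Y, hXY, hsub, hX⟩

/-- the node context of the explicit normal form `y² = (x² - d²)(x + c)` with `c = α²` a unit
and `d = π^(p k) · unit` -/
theorem exists_nodeCtx_of_nodal_form (W' : Affine R) (L : LogVal A) {π : K} (hπ0 : π ≠ 0)
    (hπ : L.w π = 1) {α c d : K} (hα : α ^ 2 = c)
    (h1 : (W'⁄K).a₁ = 0) (h2 : (W'⁄K).a₂ = c) (h3 : (W'⁄K).a₃ = 0) (h4 : (W'⁄K).a₄ = -d ^ 2)
    (h6 : (W'⁄K).a₆ = -d ^ 2 * c) (hcA : c ∈ A) (hcu : c ∉ A.nonunits)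
    (two_ne : (2 : K) ≠ 0) (h2u : (2 : K) ∉ A.nonunits)
    {p : ℕ} (hp : p.Prime) {k : ℕ} (hk : 0 < k) {d' : K} (hd'A : d' ∈ A)
    (hd'u : d' ∉ A.nonunits) (hd : d = π ^ (p * k) * d') :
    ∃ C : NodeCtx K A, C.L = L ∧ C.IsModel (W'⁄K) ∧ C.n = 2 * p * k := by
  have hc0 : c ≠ 0 := by rintro rfl; exact hcu A.nonunits.zero_mem
  have hd'0 : d' ≠ 0 := by rintro rfl; exact hd'u A.nonunits.zero_mem
  have hα0 : α ≠ 0 := by rintro rfl; exact hc0 (by rw [← hα]; ring)
  have hπpk : π ^ (p * k) ≠ 0 := pow_ne_zero _ hπ0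
  have hd0 : d ≠ 0 := by rw [hd]; exact mul_ne_zero hπpk hd'0
  have hwc : L.w c = 0 := L.eq_zero_of_unit hcA hcu
  have hwd' : L.w d' = 0 := L.eq_zero_of_unit hd'A hd'u
  have hwα : L.w α = 0 := by
    have : L.w (α ^ 2) = 0 := by rw [hα]; exact hwc
    rw [L.map_pow hα0] at this
    push_cast at this
    linarith
  have hwd : L.w d = p * k := by
    rw [hd, L.map_mul hπpk hd'0, L.map_pow hπ0, hπ, hwd']
    push_cast; ring
  have hd2 : d ^ 2 ≠ 0 := pow_ne_zero 2 hd0
  have hwd2 : L.w (-d ^ 2) = 2 * p * k := by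
    rw [L.map_neg, L.map_pow hd0, hwd]; push_cast; ring
  have hw6 : L.w (-d ^ 2 * c) = 2 * p * k := by
    rw [L.map_mul (neg_ne_zero.mpr hd2) hc0, hwd2, hwc, add_zero]
  have hpos : (0 : ℚ) < 2 * p * k := by
    have : (0 : ℚ) < p := Nat.cast_pos.mpr hp.pos
    have : (0 : ℚ) < k := Nat.cast_pos.mpr hk
    positivity
  let C : NodeCtx K A :=
    { L := L
      α := α
      a₄ := -d ^ 2
      a₆ := -d ^ 2 * c
      α_ne := hα0
      α_unit := hwα
      two_ne := two_ne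
      two_unit := L.eq_zero_of_unit (by exact_mod_cast natCast_mem A 2) h2u
      a₆_ne := mul_ne_zero (neg_ne_zero.mpr hd2) hc0
      a₆_pos := by rw [hw6]; exact hpos
      a₄_le := Or.inr (by rw [hw6, hwd2]) }
  have hM : C.IsModel (W'⁄K) :=
    { a₁ := h1
      a₂ := by rw [h2]; exact hα.symm
      a₃ := h3
      a₄ := h4
      a₆ := h6 }
  exact ⟨C, rfl, hM, hw6⟩

/-- **bad (nodal) case at the residue characteristic**, from the explicit normal form
`y² = (x² - d²)(x + c)` with `c = α²` a unit and `d = π^(p k) · unit` (the output of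
`exists_nodal_model`): for a `p`-torsion point `Q` near the node all of whose multiples are
integral, `σ • Q - Q` lies in the kernel of reduction. -/
theorem galois_sub_mem_kerRed_of_nodal_form (W' : Affine R) (L : LogVal A) {π : K} (hπ0 : π ≠ 0)
    (hπ : L.w π = 1) {α c d : K} (hα : α ^ 2 = c)
    (h1 : (W'⁄K).a₁ = 0) (h2 : (W'⁄K).a₂ = c) (h3 : (W'⁄K).a₃ = 0) (h4 : (W'⁄K).a₄ = -d ^ 2)
    (h6 : (W'⁄K).a₆ = -d ^ 2 * c) (hcA : c ∈ A) (hcu : c ∉ A.nonunits)
    (two_ne : (2 : K) ≠ 0) (h2u : (2 : K) ∉ A.nonunits)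
    {p : ℕ} (hp : p.Prime) (hp2 : p ≠ 2) {k : ℕ} (hk : 0 < k) {d' : K} (hd'A : d' ∈ A)
    (hd'u : d' ∉ A.nonunits) (hd : d = π ^ (p * k) * d')
    (hW : IsIntegralCurve A (W'⁄K))
    (σ : K ≃ₐ[S] K) (hσπ : σ π = π) (hσ : ∀ a ∈ A, σ a ∈ A ∧ σ a - a ∈ A.nonunits)
    {x y : K} (h : (W'⁄K).Nonsingular x y) (hQ : p • Point.some x y h = 0)
    (hint : ∀ j : ℕ, IntegralPt A (j • Point.some x y h)) (hx : x ∈ A.nonunits) :
    σ • Point.some x y h - Point.some x y h ∈ kerRed hW := by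
  obtain ⟨C, hCL, hM, hn⟩ := exists_nodeCtx_of_nodal_form W' L hπ0 hπ hα h1 h2 h3 h4 h6 hcA hcu
    two_ne h2u hp hk hd'A hd'u hd
  exact galois_sub_mem_kerRed_of_node W' C hM hW hp hp2 hπ0 (by rw [hCL]; exact hπ) k hn σ hσπ hσ
    h hQ hint hx

/-- the nodal normal form is an integral curve -/
theorem isIntegralCurve_of_nodal_form (W' : Affine R) {c d : K}
    (h1 : (W'⁄K).a₁ = 0) (h2 : (W'⁄K).a₂ = c) (h3 : (W'⁄K).a₃ = 0) (h4 : (W'⁄K).a₄ = -d ^ 2)
    (h6 : (W'⁄K).a₆ = -d ^ 2 * c) (hcA : c ∈ A) (hdA : d ∈ A) : IsIntegralCurve A (W'⁄K) where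
  a₁ := by rw [h1]; exact A.zero_mem
  a₂ := by rw [h2]; exact hcA
  a₃ := by rw [h3]; exact A.zero_mem
  a₄ := by rw [h4]; exact neg_mem (pow_mem hdA 2)
  a₆ := by rw [h6]; exact mul_mem (neg_mem (pow_mem hdA 2)) hcA

end Galois

end Fermat.Agent.Tate
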