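import Mathlib

/-!
# (CX) The Weierstrass `℘`-function: higher differential equations and Taylor expansions

* `deriv_derivWeierstrassP`: the second derivative of `℘` is `6 ℘² - g₂ / 2`;
* `deriv_deriv_derivWeierstrassP`: the third derivative of `℘` is `12 ℘ ℘'`;
* Taylor expansions of `a ↦ ℘ (a + b)`, `a ↦ ℘' (a + b)` at `a = 0` and of `℘`, `℘'` at the pole `0`.
-/

set_option autoImplicit false

namespace Fermat.Agent.Tate.CX

open Complex Filter Topology
open scoped PeriodPair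

variable (L : PeriodPair)

theorem countable_lattice : (L.lattice : Set ℂ).Countable := by
  have : Countable L.lattice := L.latticeEquivProd.toEquiv.countable_iff.mpr inferInstance
  exact Set.countable_coe_iff.mp this

/-- the complement of a countable subset of `ℂ` is preconnected -/
theorem isPreconnected_compl_of_countable {s : Set ℂ} (hs : s.Countable) : IsPreconnected sᶜ :=
  (hs.isConnected_compl_of_one_lt_rank (by simp [rank_real_complex])).isPreconnected

theorem isPreconnected_compl_lattice : IsPreconnected (L.lattice : Set ℂ)ᶜ :=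
  isPreconnected_compl_of_countable (countable_lattice L)

theorem isOpen_compl_lattice : IsOpen (L.lattice : Set ℂ)ᶜ := L.isClosed_lattice.isOpen_compl

theorem hasDerivAt_weierstrassP {z : ℂ} (hz : z ∉ L.lattice) :
    HasDerivAt ℘[L] (℘'[L] z) z := by
  have h := (L.analyticOnNhd_weierstrassP z hz).differentiableAt.hasDerivAt
  rwa [L.deriv_weierstrassP] at h

theorem hasDerivAt_derivWeierstrassP {z : ℂ} (hz : z ∉ L.lattice) :
    HasDerivAt ℘'[L] (deriv ℘'[L] z) z :=
  (L.analyticOnNhd_derivWeierstrassP z hz).differentiableAt.hasDerivAt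

/-- `℘'` is not identically zero off the lattice. -/
theorem exists_derivWeierstrassP_ne_zero : ∃ z, z ∉ L.lattice ∧ ℘'[L] z ≠ 0 := by
  by_contra hcon
  push Not at hcon
  -- then `℘` is constant off the lattice
  have hconst : ∀ z ∈ (L.lattice : Set ℂ)ᶜ, ∀ w ∈ (L.lattice : Set ℂ)ᶜ, ℘[L] z = ℘[L] w := by
    intro z hz w hw
    apply (isOpen_compl_lattice L).is_const_of_deriv_eq_zero (isPreconnected_compl_lattice L)
      (L.differentiableOn_weierstrassP) _ hz hw
    intro x hx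
    rw [L.deriv_weierstrassP]
    exact hcon x hx
  have hω : L.ω₁ / 2 ∉ L.lattice := L.ω₁_div_two_notMem_lattice
  have hord := L.order_weierstrassP 0 (zero_mem _)
  have hev : ℘[L] =ᶠ[𝓝[≠] (0 : ℂ)] fun _ => ℘[L] (L.ω₁ / 2) := by
    filter_upwards [mem_nhdsWithin_of_mem_nhds (L.compl_lattice_sdiff_singleton_mem_nhds 0),
      self_mem_nhdsWithin] with z hz hz0
    apply hconst z _ _ hω
    intro hzl
    exact hz ⟨hzl, hz0⟩
  rw [meromorphicOrderAt_congr hev] at hord
  classical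
  rw [meromorphicOrderAt_const] at hord
  split_ifs at hord
  · exact absurd hord (by decide)
  · exact absurd hord (by decide)

/-- `deriv ℘'` is analytic off the lattice. -/
theorem analyticOnNhd_deriv_derivWeierstrassP :
    AnalyticOnNhd ℂ (deriv ℘'[L]) (L.lattice : Set ℂ)ᶜ :=
  (L.analyticOnNhd_derivWeierstrassP).deriv

/-- **The second order differential equation** `℘'' = 6 ℘² - g₂ / 2`. -/
theorem deriv_derivWeierstrassP {z : ℂ} (hz : z ∉ L.lattice) :
    deriv ℘'[L] z = 6 * ℘[L] z ^ 2 - L.g₂ / 2 := by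
  have hmul : ∀ x ∈ (L.lattice : Set ℂ)ᶜ,
      ℘'[L] x * (2 * deriv ℘'[L] x - 12 * ℘[L] x ^ 2 + L.g₂) = 0 := by
    intro x hx
    have hP := hasDerivAt_weierstrassP L hx
    have hP' := hasDerivAt_derivWeierstrassP L hx
    have h1 : HasDerivAt (fun y => ℘'[L] y ^ 2) (2 * ℘'[L] x * deriv ℘'[L] x) x := by
      have := hP'.fun_pow 2
      simpa using this
    have h2 : HasDerivAt (fun y => 4 * ℘[L] y ^ 3 - L.g₂ * ℘[L] y - L.g₃)
        (4 * (3 * ℘[L] x ^ 2 * ℘'[L] x) - L.g₂ * ℘'[L] x) x := by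
      have := (((hP.fun_pow 3).const_mul 4).sub (hP.const_mul L.g₂)).sub_const L.g₃
      simpa using this
    have heq : (fun y => ℘'[L] y ^ 2) =ᶠ[𝓝 x]
        (fun y => 4 * ℘[L] y ^ 3 - L.g₂ * ℘[L] y - L.g₃) := by
      filter_upwards [(isOpen_compl_lattice L).mem_nhds hx] with y hy
      exact L.derivWeierstrassP_sq y hy
    have h3 := (h1.congr_of_eventuallyEq heq.symm).unique h2
    linear_combination h3
  have hg : AnalyticOnNhd ℂ (fun x => 2 * deriv ℘'[L] x - 12 * ℘[L] x ^ 2 + L.g₂)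
      (L.lattice : Set ℂ)ᶜ := by
    intro x hx
    have h1 := analyticOnNhd_deriv_derivWeierstrassP L x hx
    have h2 := L.analyticOnNhd_weierstrassP x hx
    fun_prop
  rcases (L.analyticOnNhd_derivWeierstrassP).eq_zero_or_eq_zero_of_mul_eq_zero hg hmul
    (isPreconnected_compl_lattice L) with h | h
  · exfalso
    obtain ⟨w, hw, hw0⟩ := exists_derivWeierstrassP_ne_zero L
    exact hw0 (h w hw)
  · have := h z hz
    linear_combination this / 2

theorem hasDerivAt_deriv_derivWeierstrassP {z : ℂ} (hz : z ∉ L.lattice) :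
    HasDerivAt (deriv ℘'[L]) (12 * ℘[L] z * ℘'[L] z) z := by
  have hP := hasDerivAt_weierstrassP L hz
  have h1 : HasDerivAt (fun y => 6 * ℘[L] y ^ 2 - L.g₂ / 2) (12 * ℘[L] z * ℘'[L] z) z := by
    have := ((hP.fun_pow 2).const_mul 6).sub_const (L.g₂ / 2)
    exact this.congr_deriv (by push_cast; ring)
  refine h1.congr_of_eventuallyEq ?_
  filter_upwards [(isOpen_compl_lattice L).mem_nhds hz] with y hy
  exact deriv_derivWeierstrassP L hy

/-- **The third order differential equation**: the third derivative of `℘` is `12 ℘ ℘'`. -/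
theorem deriv_deriv_derivWeierstrassP {z : ℂ} (hz : z ∉ L.lattice) :
    deriv (deriv ℘'[L]) z = 12 * ℘[L] z * ℘'[L] z :=
  (hasDerivAt_deriv_derivWeierstrassP L hz).deriv

/-! ### Taylor expansions of the translates -/

theorem iteratedDeriv_two_weierstrassP {b : ℂ} (hb : b ∉ L.lattice) :
    iteratedDeriv 2 ℘[L] b = 6 * ℘[L] b ^ 2 - L.g₂ / 2 := by
  rw [iteratedDeriv_succ', iteratedDeriv_one, L.deriv_weierstrassP, deriv_derivWeierstrassP L hb]

theorem iteratedDeriv_three_weierstrassP {b : ℂ} (hb : b ∉ L.lattice) :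
    iteratedDeriv 3 ℘[L] b = 12 * ℘[L] b * ℘'[L] b := by
  rw [iteratedDeriv_succ', iteratedDeriv_succ', iteratedDeriv_one, L.deriv_weierstrassP,
    deriv_deriv_derivWeierstrassP L hb]

theorem iteratedDeriv_two_derivWeierstrassP {b : ℂ} (hb : b ∉ L.lattice) :
    iteratedDeriv 2 ℘'[L] b = 12 * ℘[L] b * ℘'[L] b := by
  rw [iteratedDeriv_succ', iteratedDeriv_one, deriv_deriv_derivWeierstrassP L hb]

theorem analyticAt_weierstrassP_add {b : ℂ} (hb : b ∉ L.lattice) :
    AnalyticAt ℂ (fun a => ℘[L] (a + b)) 0 := by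
  have h : AnalyticAt ℂ ℘[L] ((0 : ℂ) + b) := by
    rw [zero_add]; exact L.analyticOnNhd_weierstrassP b hb
  exact h.comp_of_eq (by fun_prop) rfl

theorem analyticAt_derivWeierstrassP_add {b : ℂ} (hb : b ∉ L.lattice) :
    AnalyticAt ℂ (fun a => ℘'[L] (a + b)) 0 := by
  have h : AnalyticAt ℂ ℘'[L] ((0 : ℂ) + b) := by
    rw [zero_add]; exact L.analyticOnNhd_derivWeierstrassP b hb
  exact h.comp_of_eq (by fun_prop) rfl

/-- Taylor expansion to order `4` of `a ↦ ℘ (a + b)` at `a = 0`. -/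
theorem exists_taylor_weierstrassP_add {b : ℂ} (hb : b ∉ L.lattice) :
    ∃ F : ℂ → ℂ, AnalyticAt ℂ F 0 ∧ ∀ a, ℘[L] (a + b) =
      ℘[L] b + ℘'[L] b * a + (6 * ℘[L] b ^ 2 - L.g₂ / 2) / 2 * a ^ 2 +
        (12 * ℘[L] b * ℘'[L] b) / 6 * a ^ 3 + a ^ 4 * F a := by
  obtain ⟨F, hF, h⟩ := (analyticAt_weierstrassP_add L hb).exists_eq_sum_add_pow_mul 4
  refine ⟨F, hF, fun a => ?_⟩
  rw [h a]
  simp only [Finset.sum_range_succ, Finset.sum_range_zero, iteratedDeriv_comp_add_const,
    zero_add, iteratedDeriv_zero, iteratedDeriv_one, L.deriv_weierstrassP,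
    iteratedDeriv_two_weierstrassP L hb, iteratedDeriv_three_weierstrassP L hb, smul_eq_mul]
  simp [Nat.factorial]
  ring

/-- Taylor expansion to order `3` of `a ↦ ℘' (a + b)` at `a = 0`. -/
theorem exists_taylor_derivWeierstrassP_add {b : ℂ} (hb : b ∉ L.lattice) :
    ∃ F : ℂ → ℂ, AnalyticAt ℂ F 0 ∧ ∀ a, ℘'[L] (a + b) =
      ℘'[L] b + (6 * ℘[L] b ^ 2 - L.g₂ / 2) * a +
        (12 * ℘[L] b * ℘'[L] b) / 2 * a ^ 2 + a ^ 3 * F a := by
  obtain ⟨F, hF, h⟩ := (analyticAt_derivWeierstrassP_add L hb).exists_eq_sum_add_pow_mul 3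
  refine ⟨F, hF, fun a => ?_⟩
  rw [h a]
  simp only [Finset.sum_range_succ, Finset.sum_range_zero, iteratedDeriv_comp_add_const,
    zero_add, iteratedDeriv_zero, iteratedDeriv_one, deriv_derivWeierstrassP L hb,
    iteratedDeriv_two_derivWeierstrassP L hb, smul_eq_mul]
  simp [Nat.factorial]
  ring

/-! ### Expansions at the origin -/

theorem weierstrassPExcept_zero_zero : ℘[L - (0 : ℂ)] 0 = 0 := by
  have := L.weierstrassPExcept_def (0 : L.lattice) 0
  simp

theorem weierstrassP_eq_except_zero (a : ℂ) : ℘[L] a = ℘[L - (0 : ℂ)] a + 1 / a ^ 2 := by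
  have := L.weierstrassPExcept_def (0 : L.lattice) a
  simp only [ZeroMemClass.coe_zero, sub_zero] at this
  rw [this]
  simp

theorem derivWeierstrassP_eq_except_zero (a : ℂ) :
    ℘'[L] a = ℘'[L - (0 : ℂ)] a - 2 / a ^ 3 := by
  have := L.derivWeierstrassPExcept_def (0 : L.lattice) a
  simp only [ZeroMemClass.coe_zero, sub_zero] at this
  rw [this]
  ring

/-- `℘ a - a⁻² = a² F(a)` with `F` analytic at `0`. -/
theorem exists_taylor_weierstrassPExcept_zero :
    ∃ F : ℂ → ℂ, AnalyticAt ℂ F 0 ∧ ∀ a, ℘[L - (0 : ℂ)] a = a ^ 2 * F a := by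
  obtain ⟨F, hF, h⟩ := (L.analyticAt_weierstrassPExcept 0).exists_eq_sum_add_pow_mul 2
  refine ⟨F, hF, fun a => ?_⟩
  rw [h a]
  simp only [Finset.sum_range_succ, Finset.sum_range_zero,
    L.iteratedDeriv_weierstrassPExcept_self, smul_eq_mul]
  simp [L.sumInvPow_zero, L.G_eq_zero_of_odd 3 (by decide)]

/-- `℘' a + 2 a⁻³ = a F(a)` with `F` analytic at `0`. -/
theorem exists_taylor_derivWeierstrassPExcept_zero :
    ∃ F : ℂ → ℂ, AnalyticAt ℂ F 0 ∧ ∀ a, ℘'[L - (0 : ℂ)] a = a * F a := by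
  obtain ⟨F, hF, h⟩ := (L.analyticAt_derivWeierstrassPExcept 0).exists_eq_sum_add_pow_mul 1
  refine ⟨F, hF, fun a => ?_⟩
  rw [h a]
  simp only [Finset.sum_range_succ, Finset.sum_range_zero,
    L.iteratedDeriv_derivWeierstrassPExcept_self, smul_eq_mul]
  simp [L.sumInvPow_zero, L.G_eq_zero_of_odd 3 (by decide)]

end Fermat.Agent.Tate.CX
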