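import Mathlib
import Fermat.Agent.Tate.CX_helper8_ODE

/-!
# (CX) Collinearity on the Weierstrass cubic

For `a, b, a + b ∉ Λ` the points `(℘ a, ℘' a)`, `(℘ b, ℘' b)`, `(℘ (a + b), -℘' (a + b))` are
collinear (`colDet_eq_zero`).  Proof: the determinant is an elliptic function of `a` whose poles
cancel (Taylor expansion at `a = 0`, antisymmetry for `a = -b`), hence constant by Liouville.
-/

set_option autoImplicit false

namespace Fermat.Agent.Tate.CX

open Complex Filter Topology
open scoped PeriodPair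

variable (L : PeriodPair)

/-- The determinant expressing that the points `(℘ a, ℘' a)`, `(℘ b, ℘' b)`,
`(℘ (a + b), -℘' (a + b))` are collinear. -/
noncomputable def colDet (b a : ℂ) : ℂ :=
  (℘[L] b * (-℘'[L] (a + b)) - ℘[L] (a + b) * ℘'[L] b) + ℘'[L] a * (℘[L] (a + b) - ℘[L] b) +
    ℘[L] a * (℘'[L] b + ℘'[L] (a + b))

open Classical in
/-- `colDet` extended by `0` to the poles. -/
noncomputable def colFun (b a : ℂ) : ℂ :=
  if a ∈ L.lattice ∨ a + b ∈ L.lattice then 0 else colDet L b a

theorem colFun_of_mem {b a : ℂ} (h : a ∈ L.lattice ∨ a + b ∈ L.lattice) : colFun L b a = 0 := by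
  simp [colFun, h]

theorem colFun_of_notMem {b a : ℂ} (h1 : a ∉ L.lattice) (h2 : a + b ∉ L.lattice) :
    colFun L b a = colDet L b a := by
  simp [colFun, h1, h2]

theorem colFun_add_coe (b a : ℂ) (l : L.lattice) : colFun L b (a + l) = colFun L b a := by
  have h1 : a + l ∈ L.lattice ↔ a ∈ L.lattice :=
    L.lattice.toAddSubgroup.add_mem_cancel_right l.2
  have h2 : a + l + b ∈ L.lattice ↔ a + b ∈ L.lattice := by
    rw [add_right_comm]
    exact L.lattice.toAddSubgroup.add_mem_cancel_right l.2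
  have e : a + l + b = a + b + l := add_right_comm _ _ _
  by_cases h : a ∈ L.lattice ∨ a + b ∈ L.lattice
  · rw [colFun_of_mem L h, colFun_of_mem L ((or_congr h1 h2).mpr h)]
  · have h' : ¬ (a + l ∈ L.lattice ∨ a + l + b ∈ L.lattice) := fun hh => h ((or_congr h1 h2).mp hh)
    push Not at h h'
    rw [colFun_of_notMem L h.1 h.2, colFun_of_notMem L h'.1 h'.2]
    unfold colDet
    rw [e, L.weierstrassP_add_coe, L.derivWeierstrassP_add_coe,
      L.weierstrassP_add_coe, L.derivWeierstrassP_add_coe]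

/-- Key local computation: near `0`, `colFun b a = a * Q a` with `Q` analytic. -/
theorem analyticAt_colFun_zero {b : ℂ} (hb : b ∉ L.lattice) : AnalyticAt ℂ (colFun L b) 0 := by
  obtain ⟨F1, hF1, h1⟩ := exists_taylor_weierstrassP_add L hb
  obtain ⟨F2, hF2, h2⟩ := exists_taylor_derivWeierstrassP_add L hb
  obtain ⟨F3, hF3, h3⟩ := exists_taylor_weierstrassPExcept_zero L
  obtain ⟨F4, hF4, h4⟩ := exists_taylor_derivWeierstrassPExcept_zero L
  set xb := ℘[L] b with hxb
  set yb := ℘'[L] b with hyb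
  set g2 := L.g₂ with hg2
  have hQ : AnalyticAt ℂ (fun a : ℂ =>
      a * ((-2) * F1 a + F2 a + (1/2) * g2 * xb + (-6) * xb^3 + (-1) * yb^2 +
      a * (2 * F3 a * yb + F4 a * yb + (1/4) * g2 * yb + (-9) * xb^2 * yb) +
      a ^ 2 * ((-1) * F2 a * xb + (-1/2) * F3 a * g2 + 6 * F3 a * xb^2 + (-1/4) * F4 a * g2 +
        3 * F4 a * xb^2 + (-2) * xb * yb^2) +
      a ^ 3 * ((-1) * F1 a * yb + 6 * F3 a * xb * yb + 2 * F4 a * xb * yb) +
      a ^ 4 * (F1 a * F4 a + F2 a * F3 a))) 0 := by
    fun_prop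
  refine hQ.congr ?_
  have hnhds : ∀ᶠ a in 𝓝 (0 : ℂ), a = 0 ∨ (a ∉ L.lattice ∧ a + b ∉ L.lattice) := by
    have hb' : (0 : ℂ) + b ∉ L.lattice := by rwa [zero_add]
    have hcont : ContinuousAt (fun a : ℂ => a + b) 0 := by fun_prop
    have h2 := hcont.eventually ((isOpen_compl_lattice L).mem_nhds hb')
    filter_upwards [L.compl_lattice_sdiff_singleton_mem_nhds 0, h2] with a ha ha2
    by_cases ha0 : a = 0
    · exact Or.inl ha0
    · refine Or.inr ⟨fun hmem => ha ⟨hmem, ha0⟩, ha2⟩
  filter_upwards [hnhds] with a ha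
  rcases ha with rfl | ⟨ha1, ha2⟩
  · rw [colFun_of_mem L (Or.inl (zero_mem _))]
    simp
  · have ha0 : a ≠ 0 := by
      rintro rfl
      exact ha1 (zero_mem _)
    rw [colFun_of_notMem L ha1 ha2, colDet, h1 a, h2 a, weierstrassP_eq_except_zero L a,
      derivWeierstrassP_eq_except_zero L a, h3 a, h4 a]
    field_simp
    ring

theorem analyticAt_colFun_of_notMem {b a₀ : ℂ} (h1 : a₀ ∉ L.lattice) (h2 : a₀ + b ∉ L.lattice) :
    AnalyticAt ℂ (colFun L b) a₀ := by
  have hA : AnalyticAt ℂ (colDet L b) a₀ := by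
    have e1 : AnalyticAt ℂ ℘[L] a₀ := L.analyticOnNhd_weierstrassP a₀ h1
    have e2 : AnalyticAt ℂ ℘'[L] a₀ := L.analyticOnNhd_derivWeierstrassP a₀ h1
    have e3 : AnalyticAt ℂ (fun a => ℘[L] (a + b)) a₀ :=
      (L.analyticOnNhd_weierstrassP (a₀ + b) h2).comp_of_eq (by fun_prop) rfl
    have e4 : AnalyticAt ℂ (fun a => ℘'[L] (a + b)) a₀ :=
      (L.analyticOnNhd_derivWeierstrassP (a₀ + b) h2).comp_of_eq (by fun_prop) rfl
    unfold colDet
    fun_prop
  refine hA.congr ?_
  have hcont : ContinuousAt (fun a : ℂ => a + b) a₀ := by fun_prop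
  filter_upwards [(isOpen_compl_lattice L).mem_nhds h1,
    hcont.eventually ((isOpen_compl_lattice L).mem_nhds h2)] with a ha1 ha2
  exact (colFun_of_notMem L ha1 ha2).symm

/-- the antisymmetry of the determinant under exchanging the first and the third point -/
theorem colFun_neg_sub (b a : ℂ) : colFun L b (-a - b) = -colFun L b a := by
  have h1 : -a - b ∈ L.lattice ↔ a + b ∈ L.lattice := by
    rw [← neg_add', neg_mem_iff]
  have h2 : -a - b + b ∈ L.lattice ↔ a ∈ L.lattice := by
    rw [sub_add_cancel, neg_mem_iff]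
  by_cases h : a ∈ L.lattice ∨ a + b ∈ L.lattice
  · rw [colFun_of_mem L h, colFun_of_mem L (by rw [h1, h2]; exact h.symm), neg_zero]
  · push Not at h
    rw [colFun_of_notMem L h.1 h.2, colFun_of_notMem L (by rw [h1]; exact h.2)
      (by rw [h2]; exact h.1)]
    unfold colDet
    have e1 : -a - b + b = -a := by ring
    have e2 : -a - b = -(a + b) := by ring
    rw [e1, e2, L.weierstrassP_neg, L.weierstrassP_neg, L.derivWeierstrassP_neg,
      L.derivWeierstrassP_neg]
    ring

theorem analyticAt_colFun {b : ℂ} (hb : b ∉ L.lattice) (a₀ : ℂ) :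
    AnalyticAt ℂ (colFun L b) a₀ := by
  by_cases h1 : a₀ ∈ L.lattice
  · -- translate to `0`
    have h0 := analyticAt_colFun_zero L hb
    have : AnalyticAt ℂ (fun a => colFun L b (a - a₀)) a₀ := by
      have h0' : AnalyticAt ℂ (colFun L b) (a₀ - a₀) := by rwa [sub_self]
      exact h0'.comp_of_eq (by fun_prop) rfl
    refine this.congr (Eventually.of_forall fun a => ?_)
    have := colFun_add_coe L b (a - a₀) ⟨a₀, h1⟩
    simp only [sub_add_cancel] at this
    exact this.symm
  by_cases h2 : a₀ + b ∈ L.lattice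
  · -- use the antisymmetry to move to a lattice point
    have hl : -a₀ - b ∈ L.lattice := by
      rw [← neg_add', neg_mem_iff]; exact h2
    have h0 : AnalyticAt ℂ (colFun L b) (-a₀ - b) := by
      -- analytic at the lattice point `-a₀ - b`
      have h0 := analyticAt_colFun_zero L hb
      have : AnalyticAt ℂ (fun a => colFun L b (a - (-a₀ - b))) (-a₀ - b) := by
        have h0' : AnalyticAt ℂ (colFun L b) ((-a₀ - b) - (-a₀ - b)) := by rwa [sub_self]
        exact h0'.comp_of_eq (by fun_prop) rfl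
      refine this.congr (Eventually.of_forall fun a => ?_)
      have := colFun_add_coe L b (a - (-a₀ - b)) ⟨-a₀ - b, hl⟩
      simp only [sub_add_cancel] at this
      exact this.symm
    have h3 : AnalyticAt ℂ (fun a : ℂ => -a - b) a₀ := by fun_prop
    have h4 : AnalyticAt ℂ (fun a => colFun L b (-a - b)) a₀ :=
      h0.comp_of_eq h3 rfl
    have : AnalyticAt ℂ (fun a => -colFun L b (-a - b)) a₀ := h4.neg
    refine this.congr (Eventually.of_forall fun a => ?_)
    show -colFun L b (-a - b) = colFun L b a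
    rw [colFun_neg_sub, neg_neg]
  · exact analyticAt_colFun_of_notMem L h1 h2

/-- **Collinearity**: `colFun` vanishes identically. -/
theorem colFun_eq_zero {b : ℂ} (hb : b ∉ L.lattice) (a : ℂ) : colFun L b a = 0 := by
  have hdiff : Differentiable ℂ (colFun L b) := fun x => (analyticAt_colFun L hb x).differentiableAt
  have hbdd := (IsZLattice.isCompact_range_of_periodic L.lattice _ hdiff.continuous
    (fun z w hw => by
      lift w to L.lattice using hw
      exact colFun_add_coe L b z w)).isBounded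
  rw [hdiff.apply_eq_apply_of_bounded hbdd a 0]
  exact colFun_of_mem L (Or.inl (zero_mem _))

/-- **Collinearity of `P_a`, `P_b`, `P_{-(a+b)}`** on the Weierstrass cubic. -/
theorem colDet_eq_zero {a b : ℂ} (ha : a ∉ L.lattice) (hb : b ∉ L.lattice)
    (hab : a + b ∉ L.lattice) : colDet L b a = 0 := by
  rw [← colFun_of_notMem L ha hab]
  exact colFun_eq_zero L hb a

end Fermat.Agent.Tate.CX
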