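import Mathlib
import Fermat.Agent.Tate.CX_helper8_Collinear

/-!
# (CX) The addition theorem for the Weierstrass `℘`-function

* `eventually_eq_zero_of_deriv_deriv_eq_mul`: uniqueness for the linear ODE `D'' = h D`;
* `sub_mem_lattice_of_eq`: `z ↦ (℘ z, ℘' z)` is injective modulo the lattice;
* `deriv_derivWeierstrassP_ne_zero`: `℘'` and `℘''` have no common zero;
* `weierstrassP_add_of_generic`: the chord formulas for `℘ (a + b)` and `℘' (a + b)`.
-/

set_option autoImplicit false

namespace Fermat.Agent.Tate.CX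

open Complex Filter Topology
open scoped PeriodPair

/-- A solution of the linear equation `D'' = h D` with `D z₀ = D' z₀ = 0` vanishes near `z₀`. -/
theorem eventually_eq_zero_of_deriv_deriv_eq_mul {D h : ℂ → ℂ} {z₀ : ℂ}
    (hD : AnalyticAt ℂ D z₀) (hh : AnalyticAt ℂ h z₀) (h0 : D z₀ = 0) (h1 : deriv D z₀ = 0)
    (hode : deriv (deriv D) =ᶠ[𝓝 z₀] fun z => h z * D z) : ∀ᶠ z in 𝓝 z₀, D z = 0 := by
  rw [← analyticOrderAt_eq_top]
  by_contra htop
  obtain ⟨n, hn⟩ := ENat.ne_top_iff_exists.mp htop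
  have hn0 : n ≠ 0 := by
    rintro rfl
    have := (hD.analyticOrderAt_eq_zero).mp hn.symm
    exact this h0
  obtain ⟨m, rfl⟩ := Nat.exists_eq_succ_of_ne_zero hn0
  have hm : analyticOrderAt (deriv D) z₀ = m :=
    analyticOrderAt_deriv_of_pos hD (by rw [← hn]; simp)
  have hm0 : m ≠ 0 := by
    rintro rfl
    have := (hD.deriv.analyticOrderAt_eq_zero).mp (by simpa using hm)
    exact this h1
  obtain ⟨k, rfl⟩ := Nat.exists_eq_succ_of_ne_zero hm0
  have hk : analyticOrderAt (deriv (deriv D)) z₀ = k :=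
    analyticOrderAt_deriv_of_pos hD.deriv (by rw [hm]; simp)
  rw [analyticOrderAt_congr hode] at hk
  have hmul : analyticOrderAt (fun z => h z * D z) z₀ =
      analyticOrderAt h z₀ + analyticOrderAt D z₀ := analyticOrderAt_mul hh hD
  rw [hmul, ← hn] at hk
  have : (k : ℕ∞) + 2 ≤ k := by
    calc (k : ℕ∞) + 2 = ((k + 1 + 1 : ℕ) : ℕ∞) := by push_cast; ring
      _ ≤ analyticOrderAt h z₀ + ((k + 1 + 1 : ℕ) : ℕ∞) := le_add_self
      _ = k := hk
  have h2 : ((k + 2 : ℕ) : ℕ∞) ≤ (k : ℕ∞) := by exact_mod_cast this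
  have := Nat.cast_le.mp h2
  omega

variable (L : PeriodPair)

theorem hasDerivAt_weierstrassP_add {z s : ℂ} (h : s + z ∉ L.lattice) :
    HasDerivAt (fun s => ℘[L] (s + z)) (℘'[L] (s + z)) s := by
  have := (hasDerivAt_weierstrassP L h).comp_add_const s z
  exact this

theorem hasDerivAt_derivWeierstrassP_add {z s : ℂ} (h : s + z ∉ L.lattice) :
    HasDerivAt (fun s => ℘'[L] (s + z)) (6 * ℘[L] (s + z) ^ 2 - L.g₂ / 2) s := by
  have := (hasDerivAt_derivWeierstrassP L h).comp_add_const s z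
  rw [deriv_derivWeierstrassP L h] at this
  exact this

theorem eventually_add_notMem_lattice {z : ℂ} (hz : z ∉ L.lattice) :
    ∀ᶠ s in 𝓝 (0 : ℂ), s + z ∉ L.lattice := by
  have hz' : (0 : ℂ) + z ∉ L.lattice := by rwa [zero_add]
  have hcont : ContinuousAt (fun s : ℂ => s + z) 0 := by fun_prop
  exact hcont.eventually ((isOpen_compl_lattice L).mem_nhds hz')

/-- **Injectivity of `z ↦ (℘ z, ℘' z)` modulo the lattice.** -/
theorem sub_mem_lattice_of_eq {z w : ℂ} (hz : z ∉ L.lattice) (hw : w ∉ L.lattice)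
    (h : ℘[L] z = ℘[L] w) (h' : ℘'[L] z = ℘'[L] w) : z - w ∈ L.lattice := by
  -- Step 1: `℘ (s + z) = ℘ (s + w)` near `s = 0`
  set D : ℂ → ℂ := fun s => ℘[L] (s + z) - ℘[L] (s + w) with hDdef
  have hDan : AnalyticAt ℂ D 0 :=
    (analyticAt_weierstrassP_add L hz).sub (analyticAt_weierstrassP_add L hw)
  have hev := (eventually_add_notMem_lattice L hz).and (eventually_add_notMem_lattice L hw)
  have hderiv : deriv D =ᶠ[𝓝 0] fun s => ℘'[L] (s + z) - ℘'[L] (s + w) := by
    filter_upwards [hev] with s hs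
    exact ((hasDerivAt_weierstrassP_add L hs.1).sub (hasDerivAt_weierstrassP_add L hs.2)).deriv
  have hderiv2 : deriv (deriv D) =ᶠ[𝓝 0]
      fun s => (6 * (℘[L] (s + z) + ℘[L] (s + w))) * D s := by
    have hev' := hev.eventually_nhds
    filter_upwards [hev'] with s hs
    have h1 : deriv D =ᶠ[𝓝 s] fun s => ℘'[L] (s + z) - ℘'[L] (s + w) := by
      filter_upwards [hs] with t ht
      exact ((hasDerivAt_weierstrassP_add L ht.1).sub (hasDerivAt_weierstrassP_add L ht.2)).deriv
    rw [h1.deriv_eq]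
    have hs' := hs.self_of_nhds
    have h2 : HasDerivAt (fun s => ℘'[L] (s + z) - ℘'[L] (s + w))
        ((6 * ℘[L] (s + z) ^ 2 - L.g₂ / 2) - (6 * ℘[L] (s + w) ^ 2 - L.g₂ / 2)) s :=
      (hasDerivAt_derivWeierstrassP_add L hs'.1).sub (hasDerivAt_derivWeierstrassP_add L hs'.2)
    rw [h2.deriv]
    simp only [hDdef]
    ring
  have hh : AnalyticAt ℂ (fun s => 6 * (℘[L] (s + z) + ℘[L] (s + w))) 0 := by
    have := analyticAt_weierstrassP_add L hz
    have := analyticAt_weierstrassP_add L hw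
    fun_prop
  have hD0 : D 0 = 0 := by simp [hDdef, h]
  have hD1 : deriv D 0 = 0 := by
    rw [hderiv.self_of_nhds]; simp [h']
  have hzero := eventually_eq_zero_of_deriv_deriv_eq_mul hDan hh hD0 hD1 hderiv2
  -- Step 2: identity theorem on `U`
  set U : Set ℂ := {s | s + z ∉ L.lattice ∧ s + w ∉ L.lattice} with hU
  have hUc : IsPreconnected U := by
    have hcount : ((fun s : ℂ => s + z) ⁻¹' (L.lattice : Set ℂ) ∪
        (fun s : ℂ => s + w) ⁻¹' (L.lattice : Set ℂ)).Countable := by
      refine Set.Countable.union ?_ ?_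
      · exact (countable_lattice L).preimage (add_left_injective z)
      · exact (countable_lattice L).preimage (add_left_injective w)
    have := isPreconnected_compl_of_countable hcount
    convert this using 1
    ext s
    simp [hU]
  have hf : AnalyticOnNhd ℂ (fun s => ℘[L] (s + z)) U := fun s hs =>
    (L.analyticOnNhd_weierstrassP (s + z) hs.1).comp_of_eq (by fun_prop) rfl
  have hg : AnalyticOnNhd ℂ (fun s => ℘[L] (s + w)) U := fun s hs =>
    (L.analyticOnNhd_weierstrassP (s + w) hs.2).comp_of_eq (by fun_prop) rfl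
  have h0U : (0 : ℂ) ∈ U := by simp [hU, hz, hw]
  have heq : Set.EqOn (fun s => ℘[L] (s + z)) (fun s => ℘[L] (s + w)) U := by
    apply hf.eqOn_of_preconnected_of_eventuallyEq hg hUc h0U
    filter_upwards [hzero] with s hs
    simpa [hDdef, sub_eq_zero] using hs
  -- Step 3: a period which is not in the lattice contradicts the pole at `0`
  by_contra hd
  have hord := L.order_weierstrassP 0 (zero_mem _)
  have han : AnalyticAt ℂ (fun t => ℘[L] (t + (z - w))) 0 := analyticAt_weierstrassP_add L hd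
  have hcongr : ℘[L] =ᶠ[𝓝[≠] (0 : ℂ)] fun t => ℘[L] (t + (z - w)) := by
    have h1 := eventually_add_notMem_lattice L hd
    filter_upwards [mem_nhdsWithin_of_mem_nhds (L.compl_lattice_sdiff_singleton_mem_nhds 0),
      mem_nhdsWithin_of_mem_nhds h1, self_mem_nhdsWithin] with t ht ht1 ht0
    have htl : t ∉ L.lattice := fun hmem => ht ⟨hmem, ht0⟩
    have hmem : t - w ∈ U := by
      refine ⟨?_, ?_⟩
      · have : t - w + z = t + (z - w) := by ring
        rw [this]; exact ht1
      · rw [sub_add_cancel]; exact htl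
    have := heq hmem
    simp only [sub_add_cancel] at this
    rw [← this]
    congr 1
    ring
  rw [meromorphicOrderAt_congr hcongr] at hord
  have := han.meromorphicOrderAt_nonneg
  rw [hord] at this
  exact absurd this (by decide)

/-- `℘ z = ℘ w` only if `z ≡ ± w` modulo the lattice. -/
theorem sub_or_add_mem_lattice_of_eq {z w : ℂ} (hz : z ∉ L.lattice) (hw : w ∉ L.lattice)
    (h : ℘[L] z = ℘[L] w) : z - w ∈ L.lattice ∨ z + w ∈ L.lattice := by
  have h2 : ℘'[L] z ^ 2 = ℘'[L] w ^ 2 := by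
    rw [L.derivWeierstrassP_sq z hz, L.derivWeierstrassP_sq w hw, h]
  rcases sq_eq_sq_iff_eq_or_eq_neg.mp h2 with h3 | h3
  · exact Or.inl (sub_mem_lattice_of_eq L hz hw h h3)
  · right
    have hw' : -w ∉ L.lattice := by rwa [neg_mem_iff]
    have := sub_mem_lattice_of_eq L hz hw' (by rw [L.weierstrassP_neg, h])
      (by rw [L.derivWeierstrassP_neg, h3])
    rwa [sub_neg_eq_add] at this

/-- `℘'` and `℘''` have no common zero: the cubic is nonsingular at every point `(℘ z, ℘' z)`. -/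
theorem deriv_derivWeierstrassP_ne_zero {z : ℂ} (hz : z ∉ L.lattice) (h : ℘'[L] z = 0) :
    deriv ℘'[L] z ≠ 0 := by
  intro h1
  have hU := isOpen_compl_lattice L
  have hode : deriv (deriv ℘'[L]) =ᶠ[𝓝 z] fun s => (12 * ℘[L] s) * ℘'[L] s := by
    filter_upwards [hU.mem_nhds hz] with s hs
    exact deriv_deriv_derivWeierstrassP L hs
  have hh : AnalyticAt ℂ (fun s => 12 * ℘[L] s) z := by
    have := L.analyticOnNhd_weierstrassP z hz
    fun_prop
  have hzero := eventually_eq_zero_of_deriv_deriv_eq_mul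
    (L.analyticOnNhd_derivWeierstrassP z hz) hh h h1 hode
  have hconst : AnalyticOnNhd ℂ (fun _ : ℂ => (0 : ℂ)) (L.lattice : Set ℂ)ᶜ :=
    fun _ _ => analyticAt_const
  have heq := (L.analyticOnNhd_derivWeierstrassP).eqOn_of_preconnected_of_eventuallyEq hconst
    (isPreconnected_compl_lattice L) hz hzero
  obtain ⟨w, hw, hw0⟩ := exists_derivWeierstrassP_ne_zero L
  exact hw0 (heq hw)

/-- algebra: the third point of a collinear triple lies on the chord -/
theorem chord_line {xa xb xc ya yb yc m : ℂ}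
    (hcol : xb * -yc - xc * yb + ya * (xc - xb) + xa * (yb + yc) = 0)
    (hm : m * (xa - xb) = ya - yb) (hd : xa ≠ xb) : -yc - ya = m * (xc - xa) := by
  have h3 : (-yc - ya - m * (xc - xa)) * (xa - xb) = 0 := by
    linear_combination (-1 : ℂ) * hcol - (xc - xa) * hm
  rcases mul_eq_zero.mp h3 with h4 | h4
  · linear_combination h4
  · exact absurd (sub_eq_zero.mp h4) hd

/-- algebra: Vieta's formula for the third intersection point of a chord with the cubic -/
theorem chord_vieta {xa xb xc ya yb yc g2 g3 m : ℂ}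
    (hca : ya ^ 2 = 4 * xa ^ 3 - g2 * xa - g3) (hcb : yb ^ 2 = 4 * xb ^ 3 - g2 * xb - g3)
    (hcc : yc ^ 2 = 4 * xc ^ 3 - g2 * xc - g3)
    (hm : m * (xa - xb) = ya - yb) (hline : -yc - ya = m * (xc - xa))
    (hd : xa ≠ xb) (hxca : xc ≠ xa) (hxcb : xc ≠ xb) :
    xc = m ^ 2 / 4 - xa - xb := by
  have hyb : yb = ya + m * (xb - xa) := by linear_combination hm
  have hyc : -yc = ya + m * (xc - xa) := by linear_combination hline
  have hqa : 4 * xa ^ 3 - g2 * xa - g3 - (ya + m * (xa - xa)) ^ 2 = 0 := by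
    rw [sub_self, mul_zero, add_zero]; linear_combination -hca
  have hqb : 4 * xb ^ 3 - g2 * xb - g3 - (ya + m * (xb - xa)) ^ 2 = 0 := by
    rw [← hyb]; linear_combination -hcb
  have hqc : 4 * xc ^ 3 - g2 * xc - g3 - (ya + m * (xc - xa)) ^ 2 = 0 := by
    rw [← hyc]; linear_combination -hcc
  have hvieta : 4 * ((xc - xa) * ((xc - xb) * ((xc - (m ^ 2 / 4 - xa - xb)) * (xa - xb)))) = 0 := by
    linear_combination (xa - xb) * hqc - (xc - xb) * hqa + (xc - xa) * hqb
  have h4 : (4 : ℂ) ≠ 0 := by norm_num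
  have h5 : xc - xa ≠ 0 := sub_ne_zero.mpr hxca
  have h6 : xc - xb ≠ 0 := sub_ne_zero.mpr hxcb
  have h7 : xa - xb ≠ 0 := sub_ne_zero.mpr hd
  have := hvieta
  simp only [mul_eq_zero, h4, h5, h6, h7, false_or, or_false] at this
  linear_combination this

/-- **The addition theorem** (chord case, generic position), slope as a variable. -/
theorem weierstrassP_add_of_generic' {a b : ℂ} (ha : a ∉ L.lattice) (hb : b ∉ L.lattice)
    (hab : a + b ∉ L.lattice) (hne : ℘[L] a ≠ ℘[L] b) (h2ab : 2 * a + b ∉ L.lattice)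
    (ha2b : a + 2 * b ∉ L.lattice) {m : ℂ} (hm : m * (℘[L] a - ℘[L] b) = ℘'[L] a - ℘'[L] b) :
    ℘[L] (a + b) = m ^ 2 / 4 - ℘[L] a - ℘[L] b ∧
    ℘'[L] (a + b) = -(℘'[L] a + m * (℘[L] (a + b) - ℘[L] a)) := by
  have hcol := colDet_eq_zero L ha hb hab
  unfold colDet at hcol
  have hca := L.derivWeierstrassP_sq a ha
  have hcb := L.derivWeierstrassP_sq b hb
  have hcc := L.derivWeierstrassP_sq (a + b) hab
  have hline := chord_line hcol hm hne
  have hab' : -(a + b) ∉ L.lattice := by rwa [neg_mem_iff]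
  -- `℘ (a + b)` is different from `℘ a` and `℘ b`
  have hxca : ℘[L] (a + b) ≠ ℘[L] a := by
    intro hx
    have hy : -℘'[L] (a + b) = ℘'[L] a := by
      have := hline
      rw [hx, sub_self, mul_zero] at this
      linear_combination this
    have := sub_mem_lattice_of_eq L hab' ha (by rw [L.weierstrassP_neg]; exact hx)
      (by rw [L.derivWeierstrassP_neg]; exact hy)
    have e : -(a + b) - a = -(2 * a + b) := by ring
    rw [e, neg_mem_iff] at this
    exact h2ab this
  have hxcb : ℘[L] (a + b) ≠ ℘[L] b := by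
    intro hx
    have hy : -℘'[L] (a + b) = ℘'[L] b := by
      have h5 : -℘'[L] (a + b) - ℘'[L] b = m * (℘[L] (a + b) - ℘[L] b) := by
        linear_combination hline - hm
      rw [hx, sub_self, mul_zero] at h5
      linear_combination h5
    have := sub_mem_lattice_of_eq L hab' hb (by rw [L.weierstrassP_neg]; exact hx)
      (by rw [L.derivWeierstrassP_neg]; exact hy)
    have e : -(a + b) - b = -(a + 2 * b) := by ring
    rw [e, neg_mem_iff] at this
    exact ha2b this
  refine ⟨chord_vieta hca hcb hcc hm hline hne hxca hxcb, ?_⟩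
  linear_combination -hline

/-- **The addition theorem** (chord case, generic position). -/
theorem weierstrassP_add_of_generic {a b : ℂ} (ha : a ∉ L.lattice) (hb : b ∉ L.lattice)
    (hab : a + b ∉ L.lattice) (hne : ℘[L] a ≠ ℘[L] b) (h2ab : 2 * a + b ∉ L.lattice)
    (ha2b : a + 2 * b ∉ L.lattice) :
    ℘[L] (a + b) = ((℘'[L] a - ℘'[L] b) / (℘[L] a - ℘[L] b)) ^ 2 / 4 - ℘[L] a - ℘[L] b ∧
    ℘'[L] (a + b) = -(℘'[L] a + ((℘'[L] a - ℘'[L] b) / (℘[L] a - ℘[L] b)) *
      (℘[L] (a + b) - ℘[L] a)) := by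
  apply weierstrassP_add_of_generic' L ha hb hab hne h2ab ha2b
  have hd : ℘[L] a - ℘[L] b ≠ 0 := sub_ne_zero.mpr hne
  field_simp

end Fermat.Agent.Tate.CX
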