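/-
S58 (E4)/(E5), helper7: DEFINITIONS for the characteristic-free nodal analysis (general form of the
S05 library `Tate/NodePoint`, `Tate/NodeLine`).

Nodal normal form `(y - α x) (y - β x) = x³ + a₄ x + a₆` over a field `K` with valuation subring `A`
and a `ℚ`-valued log valuation: `δ := α - β` (up to sign) is a unit, `0 < n := w a₆`,
`a₄ = 0 ∨ n ≤ w a₄`. No hypothesis on the residue characteristic (`2` need not be a unit). A point
with abscissa `x ∈ 𝔪` is described by `a = y - α x`, `b = y - β x` with `b - a = δ x`,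
`a b = x³ + a₄ x + a₆`. A line `y = l x + μ` is described by `m₁ = l - α`, `m₂ = l - β`
(`m₂ - m₁ = δ`), and Vieta reads `Σ xᵢ = m₁ m₂`, `Σ xᵢxⱼ = a₄ - (m₁ + m₂) μ`, `Π xᵢ = μ² - a₆`.
The S05 case is `δ = 2α`, `m₁ = l - α`, `m₂ = l + α`.
-/
import Mathlib
import Fermat.Agent.Tate.LogVal

set_option autoImplicit false

namespace Fermat.Agent.Tate

variable {K : Type*} [Field K] {A : ValuationSubring K}

/-- parameters of the general nodal normal form -/
structure GNodeCtx (K : Type*) [Field K] (A : ValuationSubring K) where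
  /-- the log valuation -/
  L : LogVal A
  /-- difference of the two tangent slopes at the node -/
  δ : K
  /-- coefficient `a₄` -/
  a₄ : K
  /-- coefficient `a₆` -/
  a₆ : K
  δ_ne : δ ≠ 0
  δ_unit : L.w δ = 0
  a₆_ne : a₆ ≠ 0
  a₆_pos : 0 < L.w a₆
  a₄_le : a₄ = 0 ∨ L.w a₆ ≤ L.w a₄

namespace GNodeCtx

variable (C : GNodeCtx K A)

/-- the valuation of the discriminant -/
def n : ℚ := C.L.w C.a₆

/-- the right hand side `x³ + a₄ x + a₆` -/
def R (x : K) : K := x ^ 3 + C.a₄ * x + C.a₆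

/-- data of a point near the node: `a = y - α x`, `b = y - β x`. -/
structure NearPt (x a b : K) : Prop where
  hx : x ∈ A.nonunits
  hab : b - a = C.δ * x
  hprod : a * b = C.R x

/-- middle component -/
structure Mid (x a b : K) : Prop where
  hx : x = 0 ∨ C.n ≤ 2 * C.L.w x
  ha : a ≠ 0
  hb : b ≠ 0
  hwa : C.L.w a = C.n / 2
  hwb : C.L.w b = C.n / 2

/-- `+` branch at depth `w x` -/
structure Plus (x a b : K) : Prop where
  hx0 : x ≠ 0
  hx : 2 * C.L.w x < C.n
  hb : b ≠ 0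
  hwb : C.L.w b = C.L.w x
  ha : a = 0 ∨ C.L.w x < C.L.w a

/-- `-` branch at depth `n - w x` -/
structure Minus (x a b : K) : Prop where
  hx0 : x ≠ 0
  hx : 2 * C.L.w x < C.n
  ha : a ≠ 0
  hwa : C.L.w a = C.L.w x
  hb : b = 0 ∨ C.L.w x < C.L.w b

open Classical in
/-- the component of the point with abscissa `x` and `a = y - α x`, as a representative in
`[0, n)` of a class in `ℚ / nℤ` -/
noncomputable def depth (x a : K) : ℚ :=
  if x ∈ A.nonunits then
    if x = 0 ∨ C.n ≤ 2 * C.L.w x then C.n / 2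
    else if a = 0 ∨ C.L.w x < C.L.w a then C.L.w x
    else C.n - C.L.w x
  else 0

/-- an integral line meeting the curve in three integral points; `m₁ = l - α`, `m₂ = l - β` for
the line `y = l x + μ` -/
structure LineData (m₁ m₂ μ x₁ x₂ x₃ : K) : Prop where
  hm₁ : m₁ ∈ A
  hm : m₂ - m₁ = C.δ
  hμ : μ ∈ A
  hx₁ : x₁ ∈ A
  hx₂ : x₂ ∈ A
  hx₃ : x₃ ∈ A
  E1 : x₁ + x₂ + x₃ = m₁ * m₂
  E2 : x₁ * x₂ + x₁ * x₃ + x₂ * x₃ = C.a₄ - (m₁ + m₂) * μ
  E3 : x₁ * x₂ * x₃ = μ ^ 2 - C.a₆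

end GNodeCtx

end Fermat.Agent.Tate
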